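import Mathlib
import Fermat.Agent.MUL.F4.Ray.Main
import Fermat.Agent.MUL.S48.Cheb.Defs
import Fermat.Agent.MUL.F4.Recip.CoprimeNorm
import Fermat.Agent.MUL.Lib.FrobDensity.Final
import Fermat.Agent.MUL.F4.Ray.RayPrimes
import Fermat.Agent.MUL.S14.Analytic.SecondIneqFinal
import Fermat.Agent.MUL.Orig.S56.TW.FrobConj.Ram
import Fermat.Agent.MUL.F4.Dict.PlaceSurj
import Fermat.Agent.MUL.Orig.Lib.FrobDensity.Bridge
import Fermat.Agent.MUL.Orig.Lib.FrobDensity.LogDensity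
import Fermat.Agent.MUL.Lib.FrobDensity.Main
import Fermat.Agent.MUL.S48.Cheb.Deuring
import Fermat.Agent.MUL.Orig.S48.Bnd.Rep

section MergeWrap_S48_Cheb_Analytic -- from S48/Cheb/Analytic.lean

set_option autoImplicit false
set_option linter.unusedSectionVars false
set_option linter.style.haveILetI false

open NumberField IsDedekindDomain Filter Topology
open scoped nonZeroDivisors

namespace Fermat.Agent.S48Cheb

open Fermat.Agent.FrobDensity Fermat.Agent.S14An Fermat.Agent.F4Ray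

/-! ### an elementary inequality -/

/-- `‖1 - z‖ ≤ exp (- re z + ‖z‖² / 2)`. -/
theorem norm_one_sub_le_exp (z : ℂ) : ‖1 - z‖ ≤ Real.exp (-z.re + ‖z‖ ^ 2 / 2) := by
  have h1 : ‖1 - z‖ ^ 2 = 1 - 2 * z.re + ‖z‖ ^ 2 := by
    rw [Complex.sq_norm, Complex.sq_norm, Complex.normSq_apply, Complex.normSq_apply]
    simp only [Complex.sub_re, Complex.one_re, Complex.sub_im, Complex.one_im, zero_sub]
    ring
  have h2 : ‖1 - z‖ ^ 2 ≤ Real.exp (-2 * z.re + ‖z‖ ^ 2) := by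
    rw [h1]
    have := Real.add_one_le_exp (-2 * z.re + ‖z‖ ^ 2)
    linarith
  have h3 : Real.exp (-2 * z.re + ‖z‖ ^ 2) = Real.exp (-z.re + ‖z‖ ^ 2 / 2) ^ 2 := by
    rw [← Real.exp_nat_mul]
    congr 1
    push_cast
    ring
  rw [h3] at h2
  exact (pow_le_pow_iff_left₀ (norm_nonneg _) (Real.exp_pos _).le two_ne_zero).mp h2

/-! ### finite Fourier analysis with real parts -/

section abstract

variable {G : Type} [CommGroup G] [Fintype G] [Fintype (G →* ℂˣ)]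

theorem norm_char_eq_one (ψ : G →* ℂˣ) (g : G) : ‖((ψ g : ℂˣ) : ℂ)‖ = 1 :=
  norm_char_eq_one' ψ g

open Classical in
/-- orthogonality of the characters of a finite abelian group. -/
theorem sum_char_apply (g : G) :
    ∑ ψ : G →* ℂˣ, ((ψ g : ℂˣ) : ℂ) = if g = 1 then (Fintype.card G : ℂ) else 0 := by
  haveI : NeZero ((Monoid.exponent G : ℕ) : ℂ) :=
    ⟨by exact_mod_cast Monoid.exponent_ne_zero_of_finite⟩
  split_ifs with h
  · subst h
    simp only [map_one, Units.val_one, Finset.sum_const, Finset.card_univ, nsmul_eq_mul, mul_one]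
    have := CommGroup.card_monoidHom_of_hasEnoughRootsOfUnity G ℂ
    rw [Nat.card_eq_fintype_card, Nat.card_eq_fintype_card] at this
    rw [this]
  · obtain ⟨φ, hφ⟩ := CommGroup.exists_apply_ne_one_of_hasEnoughRootsOfUnity G ℂ h
    have hsum : (∑ χ : G →* ℂˣ, ((χ g : ℂˣ) : ℂ)) =
        ((φ g : ℂˣ) : ℂ) * ∑ χ : G →* ℂˣ, ((χ g : ℂˣ) : ℂ) := by
      rw [Finset.mul_sum]
      refine (Fintype.sum_equiv (Equiv.mulLeft φ) _ _ fun χ => ?_).symm
      simp
    have hne : ((φ g : ℂˣ) : ℂ) - 1 ≠ 0 := by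
      intro h0
      apply hφ
      ext
      simpa [sub_eq_zero] using h0
    have : (((φ g : ℂˣ) : ℂ) - 1) * ∑ χ : G →* ℂˣ, ((χ g : ℂˣ) : ℂ) = 0 := by
      rw [sub_mul, one_mul, ← hsum, sub_self]
    rcases mul_eq_zero.mp this with h1 | h1
    · exact absurd h1 hne
    · exact h1

variable {ι : Type*} (c : ι → G) (x : ι → ℝ)

open Classical in
/-- `D_a = ∑_{c i = a} x i`. -/
noncomputable def clsSum (a : G) : ℝ := ∑' i, if c i = a then x i else 0

/-- `S_ψ = ∑ ψ (c i) x i`. -/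
noncomputable def chSum (ψ : G →* ℂˣ) : ℂ := ∑' i, ((ψ (c i) : ℂˣ) : ℂ) * ((x i : ℝ) : ℂ)

variable {x}

theorem summable_char_mul (hx : Summable x) (hx0 : ∀ i, 0 ≤ x i) (z : ℂ) (ψ : G →* ℂˣ) :
    Summable fun i => z * (((ψ (c i) : ℂˣ) : ℂ) * ((x i : ℝ) : ℂ)) := by
  refine Summable.mul_left z ?_
  refine Summable.of_norm_bounded hx fun i => ?_
  rw [norm_mul, norm_char_eq_one, one_mul, Complex.norm_real, Real.norm_of_nonneg (hx0 i)]

theorem chSum_one : chSum c x (1 : G →* ℂˣ) = ((∑' i, x i : ℝ) : ℂ) := by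
  unfold chSum
  rw [Complex.ofReal_tsum]
  refine tsum_congr fun i => ?_
  simp

open Classical in
/-- Fourier inversion. -/
theorem sum_char_mul_chSum (hx : Summable x) (hx0 : ∀ i, 0 ≤ x i) (a : G) :
    ∑ ψ : G →* ℂˣ, ((ψ a⁻¹ : ℂˣ) : ℂ) * chSum c x ψ
      = (Fintype.card G : ℂ) * ((clsSum c x a : ℝ) : ℂ) := by
  unfold chSum clsSum
  have h1 : ∀ ψ : G →* ℂˣ, ((ψ a⁻¹ : ℂˣ) : ℂ) * ∑' i, ((ψ (c i) : ℂˣ) : ℂ) * ((x i : ℝ) : ℂ)
      = ∑' i, ((ψ a⁻¹ : ℂˣ) : ℂ) * (((ψ (c i) : ℂˣ) : ℂ) * ((x i : ℝ) : ℂ)) :=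
    fun ψ => (tsum_mul_left).symm
  simp only [h1]
  rw [← Summable.tsum_finsetSum (fun ψ _ => summable_char_mul c hx hx0 _ ψ), Complex.ofReal_tsum,
    ← tsum_mul_left]
  refine tsum_congr fun i => ?_
  have h2 : ∀ ψ : G →* ℂˣ, ((ψ a⁻¹ : ℂˣ) : ℂ) * (((ψ (c i) : ℂˣ) : ℂ) * ((x i : ℝ) : ℂ))
      = ((ψ (a⁻¹ * c i) : ℂˣ) : ℂ) * ((x i : ℝ) : ℂ) := by
    intro ψ
    rw [map_mul, Units.val_mul]
    ring
  simp only [h2]
  rw [← Finset.sum_mul, sum_char_apply]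
  by_cases h : c i = a
  · have h' : a⁻¹ * c i = 1 := by rw [h, inv_mul_cancel]
    rw [if_pos h, if_pos h']
  · have h' : ¬ a⁻¹ * c i = 1 := fun h' => h (inv_mul_eq_one.mp h').symm
    rw [if_neg h, if_neg h', Complex.ofReal_zero, zero_mul, mul_zero]

theorem char_inv_eq_conj (ψ : G →* ℂˣ) (a : G) :
    ((ψ a⁻¹ : ℂˣ) : ℂ) = (starRingEnd ℂ) ((ψ a : ℂˣ) : ℂ) := by
  rw [map_inv, Units.val_inv_eq_inv_val, Complex.inv_eq_conj (norm_char_eq_one ψ a)]

/-- the identity between `D_a + D_{a⁻¹}` and the real parts of the `S_ψ`. -/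
theorem card_mul_clsSum_add_inv (hx : Summable x) (hx0 : ∀ i, 0 ≤ x i) (a : G) :
    (Fintype.card G : ℝ) * (clsSum c x a + clsSum c x a⁻¹)
      = ∑ ψ : G →* ℂˣ, 2 * ((ψ a : ℂˣ) : ℂ).re * (chSum c x ψ).re := by
  have h1 := sum_char_mul_chSum c hx hx0 a
  have h2 := sum_char_mul_chSum c hx hx0 a⁻¹
  rw [inv_inv] at h2
  have h3 : ((Fintype.card G : ℂ) * ((clsSum c x a : ℝ) : ℂ)).re
      + ((Fintype.card G : ℂ) * ((clsSum c x a⁻¹ : ℝ) : ℂ)).re
      = (Fintype.card G : ℝ) * (clsSum c x a + clsSum c x a⁻¹) := by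
    rw [← Complex.ofReal_natCast, ← Complex.ofReal_mul, ← Complex.ofReal_mul,
      Complex.ofReal_re, Complex.ofReal_re]
    ring
  rw [← h3, ← h1, ← h2, Complex.re_sum, Complex.re_sum, ← Finset.sum_add_distrib]
  refine Finset.sum_congr rfl fun ψ _ => ?_
  rw [char_inv_eq_conj, Complex.mul_re, Complex.mul_re, Complex.conj_re, Complex.conj_im]
  ring

/-- **The real-part principle.**  If the trivial class has at least its share, the total mass is
`Lg + O(1)` and the real parts of the nontrivial character sums are bounded above, then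
`D_a + D_{a⁻¹} = 2 Lg / |G| + O(1)`. -/
theorem abs_clsSum_add_inv_sub_le (hx : Summable x) (hx0 : ∀ i, 0 ≤ x i) {Lg B₀ C₁ : ℝ}
    {U : (G →* ℂˣ) → ℝ} (h1 : Lg / (Fintype.card G : ℝ) - B₀ ≤ clsSum c x 1)
    (h2 : |∑' i, x i - Lg| ≤ C₁) (h3 : ∀ ψ : G →* ℂˣ, ψ ≠ 1 → (chSum c x ψ).re ≤ U ψ) (a : G) :
    |clsSum c x a + clsSum c x a⁻¹ - 2 * Lg / (Fintype.card G : ℝ)|
      ≤ 2 * (C₁ + (Fintype.card (G →* ℂˣ) : ℝ) *
          ((Fintype.card G : ℝ) * |B₀| + C₁ + ∑ ψ : G →* ℂˣ, |U ψ|)) / (Fintype.card G : ℝ) := by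
  classical
  have hn : (0 : ℝ) < (Fintype.card G : ℝ) := by exact_mod_cast Fintype.card_pos
  set n : ℝ := (Fintype.card G : ℝ) with hndef
  set R : (G →* ℂˣ) → ℝ := fun ψ => (chSum c x ψ).re with hR
  set SU : ℝ := ∑ ψ : G →* ℂˣ, |U ψ| with hSU
  set V : ℝ := n * |B₀| + C₁ + SU with hV
  have hC₁ : 0 ≤ C₁ := (abs_nonneg _).trans h2
  have hSU0 : 0 ≤ SU := Finset.sum_nonneg fun ψ _ => abs_nonneg _
  have hV0 : 0 ≤ V := by positivity
  have hR1 : R 1 = ∑' i, x i := by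
    simp only [hR]
    rw [chSum_one c, Complex.ofReal_re]
  -- `n D_1 = ∑ R`
  have hsum : n * clsSum c x 1 = ∑ ψ : G →* ℂˣ, R ψ := by
    have := card_mul_clsSum_add_inv c hx hx0 (1 : G)
    rw [inv_one] at this
    have h5 : ∑ ψ : G →* ℂˣ, 2 * ((ψ (1 : G) : ℂˣ) : ℂ).re * (chSum c x ψ).re
        = 2 * ∑ ψ : G →* ℂˣ, R ψ := by
      rw [Finset.mul_sum]
      refine Finset.sum_congr rfl fun ψ _ => ?_
      simp [hR]
    rw [h5] at this
    linarith
  have hUle : ∀ ψ : G →* ℂˣ, |U ψ| ≤ SU := fun ψ =>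
    Finset.single_le_sum (f := fun ψ : G →* ℂˣ => |U ψ|) (fun ψ _ => abs_nonneg _)
      (Finset.mem_univ ψ)
  -- lower bound for the real parts
  have hlow : ∀ ψ₀ : G →* ℂˣ, ψ₀ ≠ 1 → -V ≤ R ψ₀ := by
    intro ψ₀ hψ₀
    have h4 : ∑ ψ : G →* ℂˣ, R ψ = R ψ₀ + ∑ ψ ∈ Finset.univ.erase ψ₀, R ψ :=
      (Finset.add_sum_erase Finset.univ R (Finset.mem_univ ψ₀)).symm
    have h1mem : (1 : G →* ℂˣ) ∈ Finset.univ.erase ψ₀ :=
      Finset.mem_erase.mpr ⟨fun h => hψ₀ h.symm, Finset.mem_univ _⟩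
    have h5 : ∑ ψ ∈ Finset.univ.erase ψ₀, R ψ
        = R 1 + ∑ ψ ∈ (Finset.univ.erase ψ₀).erase 1, R ψ :=
      (Finset.add_sum_erase _ R h1mem).symm
    have h6 : ∑ ψ ∈ (Finset.univ.erase ψ₀).erase 1, R ψ
        ≤ ∑ ψ ∈ (Finset.univ.erase ψ₀).erase 1, |U ψ| := by
      refine Finset.sum_le_sum fun ψ hψ => ?_
      exact (h3 ψ (Finset.ne_of_mem_erase hψ)).trans (le_abs_self _)
    have h7 : ∑ ψ ∈ (Finset.univ.erase ψ₀).erase 1, |U ψ| ≤ SU :=
      Finset.sum_le_sum_of_subset_of_nonneg (Finset.subset_univ _) fun ψ _ _ => abs_nonneg _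
    have h8 : Lg - n * B₀ ≤ n * clsSum c x 1 := by
      have := mul_le_mul_of_nonneg_left h1 hn.le
      rw [mul_sub, mul_div_cancel₀ _ hn.ne'] at this
      exact this
    have h9 : n * B₀ ≤ n * |B₀| := mul_le_mul_of_nonneg_left (le_abs_self _) hn.le
    rw [abs_le] at h2
    rw [hR1] at h5
    simp only [hV]
    linarith [h2.1, h2.2]
  have habs : ∀ ψ : G →* ℂˣ, ψ ≠ 1 → |R ψ| ≤ V := by
    intro ψ hψ
    rw [abs_le]
    refine ⟨hlow ψ hψ, (h3 ψ hψ).trans ((le_abs_self _).trans ?_)⟩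
    have := hUle ψ
    have h9 : 0 ≤ n * |B₀| := by positivity
    simp only [hV]
    linarith
  -- the main identity
  have hmain := card_mul_clsSum_add_inv c hx hx0 a
  have hsplit : ∑ ψ : G →* ℂˣ, 2 * ((ψ a : ℂˣ) : ℂ).re * (chSum c x ψ).re
      = 2 * R 1 + ∑ ψ ∈ Finset.univ.erase (1 : G →* ℂˣ), 2 * ((ψ a : ℂˣ) : ℂ).re * R ψ := by
    rw [← Finset.add_sum_erase Finset.univ _ (Finset.mem_univ (1 : G →* ℂˣ))]
    simp [hR]
  have hrest : |∑ ψ ∈ Finset.univ.erase (1 : G →* ℂˣ), 2 * ((ψ a : ℂˣ) : ℂ).re * R ψ|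
      ≤ (Fintype.card (G →* ℂˣ) : ℝ) * (2 * V) := by
    calc |∑ ψ ∈ Finset.univ.erase (1 : G →* ℂˣ), 2 * ((ψ a : ℂˣ) : ℂ).re * R ψ|
        ≤ ∑ ψ ∈ Finset.univ.erase (1 : G →* ℂˣ), |2 * ((ψ a : ℂˣ) : ℂ).re * R ψ| :=
          Finset.abs_sum_le_sum_abs _ _
      _ ≤ ∑ _ψ ∈ Finset.univ.erase (1 : G →* ℂˣ), 2 * V := by
          refine Finset.sum_le_sum fun ψ hψ => ?_
          rw [abs_mul, abs_mul, abs_of_pos (by norm_num : (0 : ℝ) < 2)]
          have h10 : |((ψ a : ℂˣ) : ℂ).re| ≤ 1 := by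
            have := Complex.abs_re_le_norm ((ψ a : ℂˣ) : ℂ)
            rwa [norm_char_eq_one] at this
          have h11 := habs ψ (Finset.ne_of_mem_erase hψ)
          calc 2 * |((ψ a : ℂˣ) : ℂ).re| * |R ψ| ≤ 2 * 1 * V := by
                refine mul_le_mul (mul_le_mul_of_nonneg_left h10 (by norm_num)) h11
                  (abs_nonneg _) (by norm_num)
            _ = 2 * V := by ring
      _ = ((Finset.univ.erase (1 : G →* ℂˣ)).card : ℝ) * (2 * V) := by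
          rw [Finset.sum_const, nsmul_eq_mul]
      _ ≤ (Fintype.card (G →* ℂˣ) : ℝ) * (2 * V) := by
          refine mul_le_mul_of_nonneg_right ?_ (by positivity)
          exact_mod_cast Finset.card_le_univ _
  rw [hsplit, hR1] at hmain
  have hfin : clsSum c x a + clsSum c x a⁻¹ - 2 * Lg / n
      = (2 * (∑' i, x i - Lg)
          + ∑ ψ ∈ Finset.univ.erase (1 : G →* ℂˣ), 2 * ((ψ a : ℂˣ) : ℂ).re * R ψ) / n := by
    field_simp
    linarith
  rw [hfin, abs_div, abs_of_pos hn]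
  refine div_le_div_of_nonneg_right ?_ hn.le
  calc |2 * (∑' i, x i - Lg)
        + ∑ ψ ∈ Finset.univ.erase (1 : G →* ℂˣ), 2 * ((ψ a : ℂˣ) : ℂ).re * R ψ|
      ≤ |2 * (∑' i, x i - Lg)|
        + |∑ ψ ∈ Finset.univ.erase (1 : G →* ℂˣ), 2 * ((ψ a : ℂˣ) : ℂ).re * R ψ| :=
        abs_add_le _ _
    _ ≤ 2 * C₁ + (Fintype.card (G →* ℂˣ) : ℝ) * (2 * V) := by
        refine add_le_add ?_ hrest
        rw [abs_mul, abs_of_pos (by norm_num : (0 : ℝ) < 2)]
        exact mul_le_mul_of_nonneg_left h2 (by norm_num)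
    _ = 2 * (C₁ + (Fintype.card (G →* ℂˣ) : ℝ) * V) := by ring

end abstract

/-! ### the prime sums of a generalised ideal class map -/

section ray

variable {E : Type} [Field E] [NumberField E] {m : Ideal (𝓞 E)} {G : Type} [CommGroup G]
  [Fintype G] {cls : Ideal (𝓞 E) → G}

open Classical in
/-- the weights `N𝔮^(-s)` of the primes prime to `m`. -/
noncomputable def rayX (E : Type) [Field E] [NumberField E] (m : Ideal (𝓞 E)) (s : ℝ)
    (𝔮 : HeightOneSpectrum (𝓞 E)) : ℝ :=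
  if 𝔮.asIdeal ⊔ m = ⊤ then normWeight E s 𝔮.asIdeal else 0

open Classical in
/-- `D_a(s) = ∑ N𝔮^(-s)` over the primes `𝔮` of `E`, prime to `m`, of class `a`. -/
noncomputable def rayD (E : Type) [Field E] [NumberField E] (m : Ideal (𝓞 E)) {G : Type}
    (cls : Ideal (𝓞 E) → G) (a : G) (s : ℝ) : ℝ :=
  ∑' 𝔮 : HeightOneSpectrum (𝓞 E),
    if 𝔮.asIdeal ⊔ m = ⊤ ∧ cls 𝔮.asIdeal = a then normWeight E s 𝔮.asIdeal else 0

theorem rayX_nonneg (s : ℝ) (𝔮 : HeightOneSpectrum (𝓞 E)) : 0 ≤ rayX E m s 𝔮 := by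
  unfold rayX
  split_ifs
  · exact normWeight_nonneg s _
  · exact le_rfl

theorem rayX_le (s : ℝ) (𝔮 : HeightOneSpectrum (𝓞 E)) :
    rayX E m s 𝔮 ≤ normWeight E s 𝔮.asIdeal := by
  unfold rayX
  split_ifs
  · exact le_rfl
  · exact normWeight_nonneg s _

theorem summable_rayX {s : ℝ} (hs : 1 < s) : Summable (rayX E m s) :=
  Summable.of_nonneg_of_le (rayX_nonneg s) (rayX_le s) (summable_normWeight_prime E hs)

theorem rayD_eq_clsSum (a : G) (s : ℝ) :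
    rayD E m cls a s = clsSum (fun 𝔮 : HeightOneSpectrum (𝓞 E) => cls 𝔮.asIdeal) (rayX E m s) a := by
  classical
  unfold rayD clsSum rayX
  refine tsum_congr fun 𝔮 => ?_
  by_cases h1 : 𝔮.asIdeal ⊔ m = ⊤ <;> by_cases h2 : cls 𝔮.asIdeal = a <;> simp [h1, h2]

theorem chSum_eq_tsum_chWeight (ψ : G →* ℂˣ) (s : ℝ) :
    chSum (fun 𝔮 : HeightOneSpectrum (𝓞 E) => cls 𝔮.asIdeal) (rayX E m s) ψ
      = ∑' 𝔮 : HeightOneSpectrum (𝓞 E), chWeight E m cls ψ s 𝔮.asIdeal := by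
  classical
  unfold chSum rayX
  refine tsum_congr fun 𝔮 => ?_
  by_cases h1 : 𝔮.asIdeal ⊔ m = ⊤
  · rw [if_pos h1, chWeight_of_coprime ψ s 𝔮.ne_bot h1]
  · rw [if_neg h1, chWeight_of_not ψ s (fun h => h1 h.2), Complex.ofReal_zero, mul_zero]

theorem summable_chWeight_prime (ψ : G →* ℂˣ) {s : ℝ} (hs : 1 < s) :
    Summable fun 𝔮 : HeightOneSpectrum (𝓞 E) => chWeight E m cls ψ s 𝔮.asIdeal :=
  Summable.of_norm_bounded (summable_normWeight_prime E hs) fun _ => norm_chWeight_le ψ s _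

/-- the Euler factors: `∏_{𝔭 ∈ T} ‖1 - w 𝔭‖ ≤ exp (- ∑ re w 𝔭 + P₂ / 2)`. -/
theorem prod_norm_one_sub_le (ψ : G →* ℂˣ) {s : ℝ} (hs : 1 < s)
    (T : Finset (HeightOneSpectrum (𝓞 E))) :
    ∏ 𝔭 ∈ T, ‖1 - chWeight E m cls ψ s 𝔭.asIdeal‖
      ≤ Real.exp (-(∑ 𝔭 ∈ T, (chWeight E m cls ψ s 𝔭.asIdeal).re) + primeSum E 2 / 2) := by
  have h1 : ∏ 𝔭 ∈ T, ‖1 - chWeight E m cls ψ s 𝔭.asIdeal‖
      ≤ ∏ 𝔭 ∈ T, Real.exp (-(chWeight E m cls ψ s 𝔭.asIdeal).re
          + ‖chWeight E m cls ψ s 𝔭.asIdeal‖ ^ 2 / 2) :=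
    Finset.prod_le_prod (fun _ _ => norm_nonneg _) fun 𝔭 _ => norm_one_sub_le_exp _
  refine h1.trans ?_
  rw [← Real.exp_sum]
  refine Real.exp_le_exp.mpr ?_
  rw [Finset.sum_add_distrib, Finset.sum_neg_distrib]
  refine add_le_add le_rfl ?_
  rw [← Finset.sum_div]
  refine div_le_div_of_nonneg_right ?_ (by norm_num)
  calc ∑ 𝔭 ∈ T, ‖chWeight E m cls ψ s 𝔭.asIdeal‖ ^ 2
      ≤ ∑ 𝔭 ∈ T, normWeight E 2 𝔭.asIdeal := by
        refine Finset.sum_le_sum fun 𝔭 _ => ?_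
        refine le_trans ?_ (normWeight_sq_le hs.le 𝔭)
        exact pow_le_pow_left₀ (norm_nonneg _) (norm_chWeight_le ψ s _) 2
    _ ≤ primeSum E 2 :=
        (summable_normWeight_prime E (by norm_num : (1 : ℝ) < 2)).sum_le_tsum T
          fun 𝔭 _ => normWeight_nonneg 2 _

/-- **The real parts are bounded above**: for a nontrivial character `ψ` of `G`, the real part
of `∑_𝔮 ψ(cls 𝔮) N𝔮^(-s)` is bounded above on `(1, 2]`. -/
theorem re_chSum_le (hRC : RayClassMap E m G cls) (ψ : G →* ℂˣ) (hψ : ψ ≠ 1) :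
    ∃ U : ℝ, ∀ s : ℝ, 1 < s → s ≤ 2 →
      (chSum (fun 𝔮 : HeightOneSpectrum (𝓞 E) => cls 𝔮.asIdeal) (rayX E m s) ψ).re ≤ U := by
  classical
  obtain ⟨B, hB⟩ := rayLBound E m G cls hRC (fun g => ((ψ g : ℂˣ) : ℂ)) (sum_char_eq_zero ψ hψ)
  refine ⟨Real.log (max B 1) + primeSum E 2 / 2, fun s hs hs2 => ?_⟩
  have hB1 : (0 : ℝ) < max B 1 := lt_of_lt_of_le one_pos (le_max_right _ _)
  have hL : ‖rayLVal E m cls (fun g => ((ψ g : ℂˣ) : ℂ)) s‖ ≤ max B 1 :=
    (hB s hs hs2).trans (le_max_left _ _)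
  rw [chSum_eq_tsum_chWeight]
  set w : HeightOneSpectrum (𝓞 E) → ℂ := fun 𝔮 => chWeight E m cls ψ s 𝔮.asIdeal with hw
  have hsw : Summable w := summable_chWeight_prime ψ hs
  have hfin : ∀ T : Finset (HeightOneSpectrum (𝓞 E)),
      2 - sieveSum (normWeight E s) T
        ≤ max B 1 * Real.exp (-(∑ 𝔭 ∈ T, (w 𝔭).re) + primeSum E 2 / 2) := by
    intro T
    have h1 := rayEuler hRC ψ hs T
    have h2 := prod_norm_one_sub_le (E := E) (m := m) (cls := cls) ψ hs T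
    calc 2 - sieveSum (normWeight E s) T
        ≤ ‖rayLVal E m cls (fun g => ((ψ g : ℂˣ) : ℂ)) s‖ *
            ∏ 𝔭 ∈ T, ‖1 - chWeight E m cls ψ s 𝔭.asIdeal‖ := h1
      _ ≤ max B 1 * Real.exp (-(∑ 𝔭 ∈ T, (w 𝔭).re) + primeSum E 2 / 2) :=
          mul_le_mul hL h2 (Finset.prod_nonneg fun _ _ => norm_nonneg _) hB1.le
  have hlim1 : Tendsto (fun T : Finset (HeightOneSpectrum (𝓞 E)) =>
      2 - sieveSum (normWeight E s) T) atTop (𝓝 (2 - 1)) :=
    tendsto_const_nhds.sub (tendsto_sieveSum (fun I => normWeight_nonneg s I) (normWeight_top s)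
      (summable_normWeight E hs))
  have hre : HasSum (fun 𝔮 => (w 𝔮).re) (∑' 𝔮, w 𝔮).re := Complex.hasSum_re hsw.hasSum
  have hre' : Tendsto (fun T : Finset (HeightOneSpectrum (𝓞 E)) => ∑ 𝔭 ∈ T, (w 𝔭).re) atTop
      (𝓝 (∑' 𝔮, w 𝔮).re) := hre
  have hlim2 : Tendsto (fun T : Finset (HeightOneSpectrum (𝓞 E)) =>
      max B 1 * Real.exp (-(∑ 𝔭 ∈ T, (w 𝔭).re) + primeSum E 2 / 2)) atTop
      (𝓝 (max B 1 * Real.exp (-(∑' 𝔮, w 𝔮).re + primeSum E 2 / 2))) :=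
    tendsto_const_nhds.mul ((Real.continuous_exp.tendsto _).comp
      ((hre'.neg).add_const _))
  have hle : (2 : ℝ) - 1 ≤ max B 1 * Real.exp (-(∑' 𝔮, w 𝔮).re + primeSum E 2 / 2) :=
    le_of_tendsto_of_tendsto' hlim1 hlim2 hfin
  have h3 : Real.log ((2 : ℝ) - 1)
      ≤ Real.log (max B 1 * Real.exp (-(∑' 𝔮, w 𝔮).re + primeSum E 2 / 2)) :=
    Real.log_le_log (by norm_num) hle
  rw [Real.log_mul hB1.ne' (Real.exp_pos _).ne', Real.log_exp] at h3
  have h4 : Real.log ((2 : ℝ) - 1) = 0 := by norm_num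
  rw [h4] at h3
  linarith

/-- the total mass: `∑_{𝔮 ∤ m} N𝔮^(-s) = log (1/(s-1)) + O(1)`. -/
theorem exists_bound_tsum_rayX (hm : m ≠ ⊥) :
    ∃ C δ : ℝ, 0 < δ ∧ ∀ s : ℝ, 1 < s → s < 1 + δ →
      |∑' 𝔮 : HeightOneSpectrum (𝓞 E), rayX E m s 𝔮 - Real.log (1 / (s - 1))| ≤ C := by
  classical
  obtain ⟨C, δ, hδ, hC⟩ := exists_bound_primeSum_sub_log E
  have hfin : {𝔮 : HeightOneSpectrum (𝓞 E) | 𝔮.asIdeal ∣ m}.Finite := Ideal.finite_factors hm
  set Fm : Finset (HeightOneSpectrum (𝓞 E)) := hfin.toFinset with hFm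
  have hFm_mem : ∀ 𝔮 : HeightOneSpectrum (𝓞 E), ¬ 𝔮.asIdeal ⊔ m = ⊤ → 𝔮 ∈ Fm := by
    intro 𝔮 h𝔮
    rw [hFm, Set.Finite.mem_toFinset, Set.mem_ofPred_eq, Ideal.dvd_iff_le]
    have hmax := 𝔮.isMaximal
    have heq := hmax.eq_of_le h𝔮 le_sup_left
    rw [heq]
    exact le_sup_right
  refine ⟨C + (Fm.card : ℝ), δ, hδ, fun s hs hsδ => ?_⟩
  have h1 := hC s hs hsδ
  set bad : HeightOneSpectrum (𝓞 E) → ℝ := fun 𝔮 =>
    if ¬ 𝔮.asIdeal ⊔ m = ⊤ then normWeight E s 𝔮.asIdeal else 0 with hbad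
  have hbad0 : ∀ 𝔮, 0 ≤ bad 𝔮 := by
    intro 𝔮
    simp only [hbad]
    split_ifs <;> first | exact normWeight_nonneg s 𝔮.asIdeal | exact le_rfl
  have hbadle : ∀ 𝔮, bad 𝔮 ≤ normWeight E s 𝔮.asIdeal := by
    intro 𝔮
    simp only [hbad]
    split_ifs <;> first | exact normWeight_nonneg s 𝔮.asIdeal | exact le_rfl
  have hsbad : Summable bad :=
    Summable.of_nonneg_of_le hbad0 hbadle (summable_normWeight_prime E hs)
  have hbadsum : ∑' 𝔮, bad 𝔮 ≤ (Fm.card : ℝ) := by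
    have h2 : ∑' 𝔮, bad 𝔮 = ∑ 𝔮 ∈ Fm, bad 𝔮 := by
      refine tsum_eq_sum (fun 𝔮 h𝔮 => ?_)
      simp only [hbad]
      rw [if_neg]
      intro h
      exact h𝔮 (hFm_mem 𝔮 h)
    rw [h2]
    calc ∑ 𝔮 ∈ Fm, bad 𝔮 ≤ ∑ _𝔮 ∈ Fm, (1 : ℝ) :=
          Finset.sum_le_sum (fun 𝔮 _ => (hbadle 𝔮).trans (normWeight_prime_lt_one hs.le 𝔮).le)
      _ = (Fm.card : ℝ) := by simp
  have hsplit : primeSum E s = ∑' 𝔮, rayX E m s 𝔮 + ∑' 𝔮, bad 𝔮 := by
    unfold primeSum
    rw [← (summable_rayX hs).tsum_add hsbad]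
    refine tsum_congr fun 𝔮 => ?_
    simp only [hbad, rayX]
    by_cases h : 𝔮.asIdeal ⊔ m = ⊤ <;> simp [h]
  have hbadnn : 0 ≤ ∑' 𝔮, bad 𝔮 := tsum_nonneg hbad0
  rw [abs_le] at h1 ⊢
  constructor <;> linarith [h1.1, h1.2]

/-- **Step 1 (analytic) of Chebotarev up to inversion.**  Let `cls` be a generalised ideal class
map of modulus `m` with values in the finite abelian group `G`.  If the primes of trivial class
have lower logarithmic density `≥ 1/|G|`, then for every `a ∈ G`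
`D_a(s) + D_{a⁻¹}(s) = (2/|G|) log (1/(s-1)) + O(1)` as `s → 1⁺`. -/
theorem rayD_add_inv (hRC : RayClassMap E m G cls)
    (htight : ∃ B δ : ℝ, 0 < δ ∧ ∀ s : ℝ, 1 < s → s < 1 + δ →
      (1 / (Fintype.card G : ℝ)) * Real.log (1 / (s - 1)) - B ≤ rayD E m cls 1 s) (a : G) :
    ∃ B δ : ℝ, 0 < δ ∧ ∀ s : ℝ, 1 < s → s < 1 + δ →
      |rayD E m cls a s + rayD E m cls a⁻¹ s
        - (2 / (Fintype.card G : ℝ)) * Real.log (1 / (s - 1))| ≤ B := by
  classical
  letI : Fintype (G →* ℂˣ) := Fintype.ofFinite _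
  obtain ⟨B₀, δ₀, hδ₀, h0⟩ := htight
  obtain ⟨C₁, δ₁, hδ₁, h1⟩ := exists_bound_tsum_rayX (E := E) (m := m) hRC.m_ne_bot
  have hU : ∀ ψ : G →* ℂˣ, ∃ U : ℝ, ψ ≠ 1 → ∀ s : ℝ, 1 < s → s ≤ 2 →
      (chSum (fun 𝔮 : HeightOneSpectrum (𝓞 E) => cls 𝔮.asIdeal) (rayX E m s) ψ).re ≤ U := by
    intro ψ
    by_cases hψ : ψ = 1
    · exact ⟨0, fun h => absurd hψ h⟩
    · obtain ⟨U, hU⟩ := re_chSum_le hRC ψ hψ
      exact ⟨U, fun _ => hU⟩
  choose U hU using hU
  refine ⟨2 * (C₁ + (Fintype.card (G →* ℂˣ) : ℝ) *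
      ((Fintype.card G : ℝ) * |B₀| + C₁ + ∑ ψ : G →* ℂˣ, |U ψ|)) / (Fintype.card G : ℝ),
    min (min δ₀ δ₁) 1, lt_min (lt_min hδ₀ hδ₁) one_pos, fun s hs hsδ => ?_⟩
  have hs0 : s < 1 + δ₀ := by
    have := min_le_left (min δ₀ δ₁) 1
    have := min_le_left δ₀ δ₁
    linarith
  have hs1 : s < 1 + δ₁ := by
    have := min_le_left (min δ₀ δ₁) 1
    have := min_le_right δ₀ δ₁
    linarith
  have hs2 : s ≤ 2 := by
    have := min_le_right (min δ₀ δ₁) 1
    linarith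
  have key := abs_clsSum_add_inv_sub_le
    (c := fun 𝔮 : HeightOneSpectrum (𝓞 E) => cls 𝔮.asIdeal) (x := rayX E m s)
    (summable_rayX hs) (rayX_nonneg s) (Lg := Real.log (1 / (s - 1))) (B₀ := B₀) (C₁ := C₁)
    (U := U)
    (by
      rw [← rayD_eq_clsSum]
      have := h0 s hs hs0
      have h5 : Real.log (1 / (s - 1)) / (Fintype.card G : ℝ)
          = (1 / (Fintype.card G : ℝ)) * Real.log (1 / (s - 1)) := by ring
      rw [h5]
      exact this)
    (h1 s hs hs1) (fun ψ hψ => hU ψ hψ s hs hs2) a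
  rw [← rayD_eq_clsSum, ← rayD_eq_clsSum] at key
  have h6 : (2 / (Fintype.card G : ℝ)) * Real.log (1 / (s - 1))
      = 2 * Real.log (1 / (s - 1)) / (Fintype.card G : ℝ) := by ring
  rw [h6]
  exact key

/-- the same, with the hypothesis in the form "`cls` kills the norms from an extension `M` of
degree `≤ |G|`" (then `|G| = [M : E]` by the second inequality). -/
theorem rayD_add_inv_of_norm (M : Type) [Field M] [NumberField M] [Algebra E M]
    (hRC : RayClassMap E m G cls)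
    (hnorm : ∀ A : Ideal (𝓞 M), A ≠ ⊥ → Ideal.relNorm (𝓞 E) A ⊔ m = ⊤ →
      cls (Ideal.relNorm (𝓞 E) A) = 1)
    (hdeg : Module.finrank E M ≤ Fintype.card G) (a : G) :
    ∃ B δ : ℝ, 0 < δ ∧ ∀ s : ℝ, 1 < s → s < 1 + δ →
      |rayD E m cls a s + rayD E m cls a⁻¹ s
        - (2 / (Fintype.card G : ℝ)) * Real.log (1 / (s - 1))| ≤ B := by
  classical
  refine rayD_add_inv hRC ?_ a
  obtain ⟨B, δ, hδ, hB⟩ := rayPrimeSum E M m hRC.m_ne_bot cls hnorm
  refine ⟨B, min δ 1, lt_min hδ one_pos, fun s hs hsδ => ?_⟩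
  have hs' : s < 1 + δ := by
    have := min_le_left δ 1
    linarith
  have hs2 : s < 2 := by
    have := min_le_right δ 1
    linarith
  have h1 := hB s hs hs'
  have hlog : 0 ≤ Real.log (1 / (s - 1)) := by
    apply Real.log_nonneg
    rw [le_div_iff₀ (by linarith)]
    linarith
  have hM : (0 : ℝ) < (Module.finrank E M : ℝ) := by
    exact_mod_cast (Module.finrank_pos : 0 < Module.finrank E M)
  have hle : (1 / (Fintype.card G : ℝ)) ≤ 1 / (Module.finrank E M : ℝ) := by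
    apply one_div_le_one_div_of_le hM
    exact_mod_cast hdeg
  have h2 : (1 / (Fintype.card G : ℝ)) * Real.log (1 / (s - 1))
      ≤ 1 / (Module.finrank E M : ℝ) * Real.log (1 / (s - 1)) :=
    mul_le_mul_of_nonneg_right hle hlog
  have h3 : rayD E m cls 1 s = ∑' 𝔮 : HeightOneSpectrum (𝓞 E),
      if 𝔮.asIdeal ⊔ m = ⊤ ∧ cls 𝔮.asIdeal = 1 then normWeight E s 𝔮.asIdeal else 0 := by
    unfold rayD
    refine tsum_congr fun 𝔮 => ?_
    congr
  rw [h3]
  refine le_trans ?_ (le_of_le_of_eq h1 ?_)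
  · linarith
  · refine tsum_congr fun 𝔮 => ?_
    congr

/-- the lower bound alone. -/
theorem rayD_add_inv_ge (hRC : RayClassMap E m G cls)
    (htight : ∃ B δ : ℝ, 0 < δ ∧ ∀ s : ℝ, 1 < s → s < 1 + δ →
      (1 / (Fintype.card G : ℝ)) * Real.log (1 / (s - 1)) - B ≤ rayD E m cls 1 s) (a : G) :
    ∃ B δ : ℝ, 0 < δ ∧ ∀ s : ℝ, 1 < s → s < 1 + δ →
      (2 / (Fintype.card G : ℝ)) * Real.log (1 / (s - 1)) - B
        ≤ rayD E m cls a s + rayD E m cls a⁻¹ s := by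
  obtain ⟨B, δ, hδ, hB⟩ := rayD_add_inv hRC htight a
  refine ⟨B, δ, hδ, fun s hs hsδ => ?_⟩
  have := hB s hs hsδ
  rw [abs_le] at this
  linarith [this.1]

end ray

end Fermat.Agent.S48Cheb
end MergeWrap_S48_Cheb_Analytic

section MergeWrap_S48_Cheb_Equidist -- from S48/Cheb/Equidist.lean

/-!
# S48 P5 seat (A): equidistribution up to inversion (helper61)

`equidistInv : EquidistInv`, from `S48/Cheb/Analytic.lean` (`rayD_add_inv_ge`): the real parts of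
the character sums `∑_𝔮 ψ(cls 𝔮) N𝔮^(-s)` are bounded (above by `F4Ray.rayLBound` and the Euler
product, below because the trivial class has at least its share), and real parts are enough for
`D_a + D_{a⁻¹}`.
-/

set_option autoImplicit false

open NumberField IsDedekindDomain

namespace Fermat.Agent.S48Cheb

open Fermat.Agent.FrobDensity (normWeight)

theorem equidistInv : EquidistInv := by
  classical
  intro F _ _ m G _ _ cls hRC htight a
  have h1 : ∀ (b : G) (s : ℝ), rayD F m cls b s = ∑' 𝔮 : HeightOneSpectrum (𝓞 F),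
      if 𝔮.asIdeal ⊔ m = ⊤ ∧ cls 𝔮.asIdeal = b then normWeight F s 𝔮.asIdeal else 0 := by
    intro b s
    unfold rayD
    refine tsum_congr fun 𝔮 => ?_
    congr
  have htight' : ∃ B δ : ℝ, 0 < δ ∧ ∀ s : ℝ, 1 < s → s < 1 + δ →
      (1 / (Fintype.card G : ℝ)) * Real.log (1 / (s - 1)) - B ≤ rayD F m cls 1 s := by
    obtain ⟨B, δ, hδ, hB⟩ := htight
    refine ⟨B, δ, hδ, fun s hs hsδ => ?_⟩
    rw [h1]
    refine le_of_le_of_eq (hB s hs hsδ) (tsum_congr fun 𝔮 => ?_)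
    congr
  obtain ⟨B, δ, hδ, hB⟩ := rayD_add_inv_ge hRC htight' a
  refine ⟨B, δ, hδ, fun s hs hsδ => ?_⟩
  have hs1 : (1 : ℝ) < s := hs
  refine le_of_le_of_eq (hB s hs hsδ) ?_
  have hsum : ∀ b : G, Summable fun 𝔮 : HeightOneSpectrum (𝓞 F) =>
      if 𝔮.asIdeal ⊔ m = ⊤ ∧ cls 𝔮.asIdeal = b then normWeight F s 𝔮.asIdeal else 0 := by
    intro b
    refine Summable.of_nonneg_of_le (fun 𝔮 => ?_) (fun 𝔮 => ?_)
      (Fermat.Agent.FrobDensity.summable_normWeight_prime F hs1)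
    · split_ifs
      · exact Fermat.Agent.FrobDensity.normWeight_nonneg s _
      · exact le_rfl
    · split_ifs
      · exact le_rfl
      · exact Fermat.Agent.FrobDensity.normWeight_nonneg s _
  rw [h1, h1, ← (hsum a).tsum_add (hsum a⁻¹)]

end Fermat.Agent.S48Cheb
end MergeWrap_S48_Cheb_Equidist

section MergeWrap_S48_Cheb_ClsT -- from S48/Cheb/ClsT.lean

/-!
# S48 P5 seat (C1): the class map `I ↦ N(I)² mod t`  (helper30)

* `I ⊔ (t) = ⊤` `⟹` `absNorm I` prime to `t` (`F4Rec.coprimeAbsNorm`).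
* the set of values `normSqSet F t` contains `1` (`I = ⊤`), is closed under products
  (`absNorm` is multiplicative, `I J ⊔ (t) = ⊤`), hence is a subgroup of the finite group `(ℤ/t)ˣ`:
  `normSqGroup F t = normSqSet F t` as sets.  This gives `clsT_spec` and `surj`.
* `mul`: from `clsT_spec`.   * `ray`: `a - 1 ∈ (t)`, `a = 1 + t b`, the matrix of the
  multiplication by `a` is `≡ 1 mod t`, so `Algebra.norm ℤ a ≡ 1 mod t`; `absNorm (a) = |norm a|`
  (`Ideal.absNorm_span_singleton`), so `absNorm (a) ≡ ± 1` and the square is `1`;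
  `(a) ⊔ (t) = ⊤` since `1 = a - t b`.
-/

set_option autoImplicit false
set_option linter.unusedSectionVars false

open NumberField

namespace Fermat.Agent.S48Cheb

section

variable (F : Type) [Field F] [NumberField F] (t : ℕ)

/-- The ideals which count: nonzero and prime to `t`. -/
def IsAdmT (I : Ideal (𝓞 F)) : Prop := I ≠ ⊥ ∧ I ⊔ Ideal.span {(t : 𝓞 F)} = ⊤

variable {F t}

theorem IsAdmT.coprime {I : Ideal (𝓞 F)} (h : IsAdmT F t I) : (Ideal.absNorm I).Coprime t :=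
  Fermat.Agent.F4Rec.coprimeAbsNorm F t I h.2

theorem IsAdmT.mul {I J : Ideal (𝓞 F)} (hI : IsAdmT F t I) (hJ : IsAdmT F t J) :
    IsAdmT F t (I * J) :=
  ⟨mul_ne_zero hI.1 hJ.1, by rw [Ideal.mul_sup_eq_of_coprime_left hI.2, hJ.2]⟩

variable (F t) in
theorem isAdmT_top : IsAdmT F t ⊤ := ⟨top_ne_bot, top_sup_eq _⟩

theorem IsAdmT.pow {I : Ideal (𝓞 F)} (hI : IsAdmT F t I) (k : ℕ) : IsAdmT F t (I ^ k) := by
  induction k with
  | zero =>
    rw [pow_zero, Ideal.one_eq_top]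
    exact isAdmT_top F t
  | succ k ih =>
    rw [pow_succ]
    exact ih.mul hI

/-- Coprimality to the modulus forces `I ≠ ⊥` when `t ≠ 1`. -/
theorem isAdmT_of_sup_eq_top (ht : t ≠ 1) {I : Ideal (𝓞 F)}
    (hI : I ⊔ Ideal.span {(t : 𝓞 F)} = ⊤) : IsAdmT F t I := by
  refine ⟨?_, hI⟩
  rintro rfl
  have h0 : (Ideal.absNorm (⊥ : Ideal (𝓞 F))).Coprime t :=
    Fermat.Agent.F4Rec.coprimeAbsNorm F t ⊥ hI
  rw [Ideal.absNorm_bot, Nat.coprime_zero_left] at h0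
  exact ht h0

/-- The unit `N(I)² mod t` of an admissible ideal. -/
noncomputable def sqUnit {I : Ideal (𝓞 F)} (h : IsAdmT F t I) : (ZMod t)ˣ :=
  (ZMod.unitOfCoprime _ h.coprime) ^ 2

theorem coe_sqUnit {I : Ideal (𝓞 F)} (h : IsAdmT F t I) :
    ((sqUnit h : (ZMod t)ˣ) : ZMod t) = ((Ideal.absNorm I : ℕ) : ZMod t) ^ 2 := by
  rw [sqUnit, Units.val_pow_eq_pow_val, ZMod.coe_unitOfCoprime]

theorem sqUnit_mem_normSqSet {I : Ideal (𝓞 F)} (h : IsAdmT F t I) :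
    sqUnit h ∈ normSqSet F t :=
  ⟨I, h.1, h.2, coe_sqUnit h⟩

theorem sqUnit_mem_normSqGroup {I : Ideal (𝓞 F)} (h : IsAdmT F t I) :
    sqUnit h ∈ normSqGroup F t :=
  Subgroup.subset_closure (sqUnit_mem_normSqSet h)

theorem sqUnit_mul {I J : Ideal (𝓞 F)} (hI : IsAdmT F t I) (hJ : IsAdmT F t J) :
    sqUnit (hI.mul hJ) = sqUnit hI * sqUnit hJ := by
  ext
  rw [Units.val_mul, coe_sqUnit, coe_sqUnit, coe_sqUnit, map_mul]
  push_cast
  ring

theorem sqUnit_top : sqUnit (isAdmT_top F t) = 1 := by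
  ext
  rw [coe_sqUnit, Ideal.absNorm_top]
  simp

theorem sqUnit_pow {I : Ideal (𝓞 F)} (hI : IsAdmT F t I) (k : ℕ) :
    sqUnit (hI.pow k) = sqUnit hI ^ k := by
  ext
  rw [coe_sqUnit, Units.val_pow_eq_pow_val, coe_sqUnit, map_pow]
  push_cast
  ring

/-- Every element of `normSqGroup` is the class of an admissible ideal. -/
theorem exists_sqUnit_eq [NeZero t] {u : (ZMod t)ˣ} (hu : u ∈ normSqGroup F t) :
    ∃ (I : Ideal (𝓞 F)) (h : IsAdmT F t I), sqUnit h = u := by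
  induction hu using Subgroup.closure_induction with
  | mem x hx =>
    obtain ⟨I, hI0, hI, hxI⟩ := hx
    have hadm : IsAdmT F t I := ⟨hI0, hI⟩
    refine ⟨I, hadm, ?_⟩
    ext
    rw [coe_sqUnit hadm, hxI]
  | one => exact ⟨⊤, isAdmT_top F t, sqUnit_top⟩
  | mul x y _ _ hx hy =>
    obtain ⟨I, hI, rfl⟩ := hx
    obtain ⟨J, hJ, rfl⟩ := hy
    exact ⟨I * J, hI.mul hJ, sqUnit_mul hI hJ⟩
  | inv x _ hx =>
    obtain ⟨I, hI, rfl⟩ := hx
    refine ⟨I ^ (orderOf (sqUnit hI) - 1), hI.pow (orderOf (sqUnit hI) - 1), ?_⟩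
    rw [sqUnit_pow hI]
    have hpos : 0 < orderOf (sqUnit hI) := orderOf_pos _
    rw [eq_inv_iff_mul_eq_one, ← pow_succ, Nat.sub_add_cancel hpos, pow_orderOf_eq_one]

/-- The value of `clsT` on an admissible ideal. -/
theorem clsT_eq {I : Ideal (𝓞 F)} (h : IsAdmT F t I) :
    ((clsT F t I : normSqGroup F t) : (ZMod t)ˣ) = sqUnit h := by
  classical
  have hex : ∃ u : normSqGroup F t,
      (((u : normSqGroup F t) : (ZMod t)ˣ) : ZMod t) = ((Ideal.absNorm I : ℕ) : ZMod t) ^ 2 :=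
    ⟨⟨sqUnit h, sqUnit_mem_normSqGroup h⟩, coe_sqUnit h⟩
  ext
  rw [clsT, dif_pos hex, hex.choose_spec, coe_sqUnit]

/-! ### The norm of `a ≡ 1 mod t` is `≡ 1 mod t` -/

/-- If `a ≡ 1 mod t 𝓞_F` then `N_{F/ℚ}(a) ≡ 1 mod t`. -/
theorem norm_intCast_zmod_eq_one {a : 𝓞 F} (ha : a - 1 ∈ Ideal.span {(t : 𝓞 F)}) :
    ((Algebra.norm ℤ a : ℤ) : ZMod t) = 1 := by
  classical
  obtain ⟨b, hb⟩ := Ideal.mem_span_singleton.1 ha
  have ha' : a = 1 + (t : 𝓞 F) * b := by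
    rw [← hb]
    ring
  let B := NumberField.RingOfIntegers.basis F
  have h1 : Algebra.norm ℤ a = (Algebra.leftMulMatrix B a).det :=
    Algebra.norm_eq_matrix_det B a
  have h2 : Algebra.leftMulMatrix B a = 1 + (t : ℤ) • Algebra.leftMulMatrix B b := by
    rw [ha', map_add, map_one, map_mul]
    have : Algebra.leftMulMatrix B ((t : 𝓞 F)) = (t : ℤ) • (1 : Matrix _ _ ℤ) := by
      have h3 : ((t : 𝓞 F)) = algebraMap ℤ (𝓞 F) (t : ℤ) := by simp
      rw [h3, AlgHom.commutes, Algebra.algebraMap_eq_smul_one]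
    rw [this, smul_mul_assoc, one_mul]
  rw [h1, h2]
  change (Int.castRingHom (ZMod t)) ((1 + (t : ℤ) • Algebra.leftMulMatrix B b).det) = 1
  rw [RingHom.map_det]
  have h4 : (Int.castRingHom (ZMod t)).mapMatrix
      (1 + (t : ℤ) • Algebra.leftMulMatrix B b) = 1 := by
    rw [map_add, map_one]
    have : (Int.castRingHom (ZMod t)).mapMatrix ((t : ℤ) • Algebra.leftMulMatrix B b) = 0 := by
      ext i j
      rw [RingHom.mapMatrix_apply, Matrix.map_apply, Matrix.smul_apply, smul_eq_mul,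
        Matrix.zero_apply]
      change (((t : ℤ) * Algebra.leftMulMatrix B b i j : ℤ) : ZMod t) = 0
      rw [Int.cast_mul, Int.cast_natCast, ZMod.natCast_self, zero_mul]
    rw [this, add_zero]
  rw [h4, Matrix.det_one]

/-- `N((a))² ≡ 1 mod t` for `a ≡ 1 mod t`. -/
theorem absNorm_span_singleton_sq {a : 𝓞 F} (ha : a - 1 ∈ Ideal.span {(t : 𝓞 F)}) :
    ((Ideal.absNorm (Ideal.span {a}) : ℕ) : ZMod t) ^ 2 = 1 := by
  have h1 := norm_intCast_zmod_eq_one ha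
  rw [Ideal.absNorm_span_singleton]
  have h2 : (((Algebra.norm ℤ a).natAbs : ℕ) : ZMod t) ^ 2 =
      ((Algebra.norm ℤ a : ℤ) : ZMod t) ^ 2 := by
    rcases Int.natAbs_eq (Algebra.norm ℤ a) with h | h
    · have h3 : (((Algebra.norm ℤ a).natAbs : ℤ) : ZMod t) = ((Algebra.norm ℤ a : ℤ) : ZMod t) := by
        rw [← h]
      rw [Int.cast_natCast] at h3
      rw [h3]
    · have h3 : (((Algebra.norm ℤ a).natAbs : ℤ) : ZMod t) =
          -((Algebra.norm ℤ a : ℤ) : ZMod t) := by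
        have h' : ((Algebra.norm ℤ a).natAbs : ℤ) = -Algebra.norm ℤ a := by omega
        rw [h', Int.cast_neg]
      rw [Int.cast_natCast] at h3
      rw [h3, neg_sq]
  rw [h2, h1, one_pow]

end

/-- **(C1)** `clsT` is a generalised ideal class map of modulus `(t)`. -/
theorem clsTStatement : ClsTStatement := by
  intro F _ _ t ht
  have : NeZero t := ⟨ht.ne_zero⟩
  have ht1 : t ≠ 1 := ht.ne_one
  refine ⟨⟨?_, ?_, ?_, ?_⟩, ?_⟩
  · rw [Ne, Ideal.span_singleton_eq_bot]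
    exact_mod_cast ht.ne_zero
  · intro I J hI hJ
    have hIa := isAdmT_of_sup_eq_top ht1 hI
    have hJa := isAdmT_of_sup_eq_top ht1 hJ
    apply Subtype.ext
    rw [Subgroup.coe_mul, clsT_eq (hIa.mul hJa), clsT_eq hIa, clsT_eq hJa, sqUnit_mul]
  · intro a ha0 ha
    have hadm : IsAdmT F t (Ideal.span {a}) := by
      refine ⟨by rwa [Ne, Ideal.span_singleton_eq_bot], ?_⟩
      rw [Ideal.eq_top_iff_one]
      have h1 : (1 : 𝓞 F) = a - (a - 1) := by ring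
      rw [h1]
      exact Ideal.sub_mem _ (Ideal.mem_sup_left (Ideal.mem_span_singleton_self a))
        (Ideal.mem_sup_right ha)
    apply Subtype.ext
    rw [clsT_eq hadm, Subgroup.coe_one]
    ext
    rw [coe_sqUnit, absNorm_span_singleton_sq ha, Units.val_one]
  · rintro ⟨u, hu⟩
    obtain ⟨I, hI, rfl⟩ := exists_sqUnit_eq hu
    exact ⟨I, hI.1, hI.2, Subtype.ext (clsT_eq hI)⟩
  · intro I hI0 hI
    have hadm : IsAdmT F t I := ⟨hI0, hI⟩
    rw [clsT_eq hadm, coe_sqUnit hadm]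

end Fermat.Agent.S48Cheb
end MergeWrap_S48_Cheb_ClsT

section MergeWrap_S48_Cheb_CycArtin -- from S48/Cheb/CycArtin.lean

/-!
# S48 P5 seat (C2): Frobenius acts on `ζ_t` through `q mod t`  (helper8)

`z : 𝓞 K` with `(z : K) = ζ`.  `φ • z - z ^ q ∈ P` and `φ • z = z ^ c`, so `z ^ c - z ^ q ∈ P`.
If `q ≢ c mod t` then `z ^ j - 1 ∈ P` for some `j` prime to `t` (`z` is a unit), `z ^ j` is a
primitive `t`-th root of unity and `1 - z ^ j` divides `t = ∑_{i < t} (1 - (z ^ j) ^ i)`, so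
`t ∈ P`: contradiction.
-/

set_option autoImplicit false

open NumberField

namespace Fermat.Agent.S48Cheb

/-- For a primitive `t`-th root of unity `w` (`t ≥ 2`) in a commutative ring, `1 - w` divides
`t`. -/
theorem ca_one_sub_dvd {R : Type*} [CommRing R] [IsDomain R] {w : R} {t : ℕ}
    (hw : IsPrimitiveRoot w t) (ht : 1 < t) : (1 - w) ∣ (t : R) := by
  have h0 : ∑ i ∈ Finset.range t, w ^ i = 0 := hw.geom_sum_eq_zero ht
  have h1 : (t : R) = ∑ i ∈ Finset.range t, (1 - w ^ i) := by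
    rw [Finset.sum_sub_distrib, h0, sub_zero]
    simp
  rw [h1]
  refine Finset.dvd_sum fun i _ => ?_
  exact ⟨∑ k ∈ Finset.range i, w ^ k, (mul_neg_geom_sum w i).symm⟩

/-- In a commutative domain, with `z` a primitive `t`-th root of unity (`t` prime) and `P` a prime
ideal not containing `t`: `z ^ j - 1 ∈ P` implies `t ∣ j`. -/
theorem ca_dvd_of_pow_sub_one_mem {R : Type*} [CommRing R] [IsDomain R] {z : R} {t : ℕ}
    (ht : t.Prime) (hz : IsPrimitiveRoot z t) (P : Ideal R)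
    (htP : (t : R) ∉ P) (j : ℕ) (hj : z ^ j - 1 ∈ P) : t ∣ j := by
  by_contra hnd
  have hcop : Nat.Coprime j t := (Nat.Coprime.symm ((Nat.Prime.coprime_iff_not_dvd ht).mpr hnd))
  have hw : IsPrimitiveRoot (z ^ j) t := hz.pow_of_coprime j hcop
  have hdvd := ca_one_sub_dvd hw ht.one_lt
  apply htP
  have h1 : (1 - z ^ j) ∈ P := by
    have := P.neg_mem hj
    rwa [neg_sub] at this
  exact Ideal.mem_of_dvd P hdvd h1

/-- `z ^ c - z ^ q ∈ P` implies `q ≡ c mod t`. -/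
theorem ca_modEq_of_pow_sub_pow_mem {R : Type*} [CommRing R] [IsDomain R] {z : R} {t : ℕ}
    (ht : t.Prime) (hz : IsPrimitiveRoot z t) (P : Ideal R) (hP : P.IsPrime)
    (htP : (t : R) ∉ P) (c q : ℕ) (h : z ^ c - z ^ q ∈ P) : (q : ZMod t) = (c : ZMod t) := by
  have hunit : ∀ n : ℕ, z ^ n ∉ P := by
    intro n hn
    have h1 : (z ^ n) ^ t ∈ P := Ideal.pow_mem_of_mem P hn t ht.pos
    rw [← pow_mul, mul_comm, pow_mul, hz.pow_eq_one, one_pow] at h1
    exact hP.ne_top ((Ideal.eq_top_iff_one P).mpr h1)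
  rcases le_total q c with hqc | hcq
  · -- `z ^ c - z ^ q = z ^ q (z ^ (c - q) - 1)`
    have h1 : z ^ c - z ^ q = z ^ q * (z ^ (c - q) - 1) := by
      rw [mul_sub, mul_one, ← pow_add, Nat.add_sub_cancel' hqc]
    rw [h1] at h
    have h2 := (hP.mem_or_mem h).resolve_left (hunit q)
    have h3 := ca_dvd_of_pow_sub_one_mem ht hz P htP _ h2
    have h4 : ((c - q : ℕ) : ZMod t) = 0 := (ZMod.natCast_eq_zero_iff _ _).mpr h3
    rw [Nat.cast_sub hqc, sub_eq_zero] at h4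
    exact h4.symm
  · have h1 : z ^ c - z ^ q = -(z ^ c * (z ^ (q - c) - 1)) := by
      rw [mul_sub, mul_one, ← pow_add, Nat.add_sub_cancel' hcq]
      ring
    rw [h1] at h
    have h' : z ^ c * (z ^ (q - c) - 1) ∈ P := by
      have := P.neg_mem h
      rwa [neg_neg] at this
    have h2 := (hP.mem_or_mem h').resolve_left (hunit c)
    have h3 := ca_dvd_of_pow_sub_one_mem ht hz P htP _ h2
    have h4 : ((q - c : ℕ) : ZMod t) = 0 := (ZMod.natCast_eq_zero_iff _ _).mpr h3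
    rw [Nat.cast_sub hcq, sub_eq_zero] at h4
    exact h4

theorem cycArtin : CycArtin := by
  intro F K _ _ _ _ _ t ht ζ hζ P hP htP φ q c hφ hζc
  have : NeZero t := ⟨ht.ne_zero⟩
  set z : 𝓞 K := hζ.toInteger with hz
  have hzprim : IsPrimitiveRoot z t := hζ.toInteger_isPrimitiveRoot
  have h1 : φ • z = z ^ c := by
    apply NumberField.RingOfIntegers.coe_injective
    show φ ((z : 𝓞 K) : K) = ((z ^ c : 𝓞 K) : K)
    have e1 : ((z : 𝓞 K) : K) = ζ := rfl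
    have e2 : ((z ^ c : 𝓞 K) : K) = ζ ^ c := by
      rw [show ((z ^ c : 𝓞 K) : K) = ((z : 𝓞 K) : K) ^ c from map_pow (algebraMap (𝓞 K) K) z c, e1]
    rw [e1, e2]
    exact hζc
  have h2 := hφ z
  rw [h1] at h2
  exact ca_modEq_of_pow_sub_pow_mem ht hzprim P hP htP c q h2

end Fermat.Agent.S48Cheb
end MergeWrap_S48_Cheb_CycArtin

section MergeWrap_S48_Cheb_CycDensity_Frob -- from S48/Cheb/CycDensity/Frob.lean

/-!
# S48 P5 seat (C), helpers: Frobenius elements of a Galois extension of number fields (helper30)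

* `cdFrob_exists` : for a nonzero prime `𝔭` of `F` there are a prime `P` of `K` over `𝔭` and
  `φ ∈ Gal(K/F)` with `φ x ≡ x ^ N𝔭 mod P`.
* `cdFrob_orderOf_of_inert` : if `N𝔭 = p` is prime and the residue degree of `𝔭` in `K` is
  `[K:F]`, then `φ` has order `[K:F]`.
-/

set_option autoImplicit false

open NumberField

namespace Fermat.Agent.S48Cheb

variable {F K : Type} [Field F] [NumberField F] [Field K] [NumberField K] [Algebra F K]
  [IsGalois F K]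

/-- Existence of Frobenius elements. -/
theorem cdFrob_exists (𝔭 : Ideal (𝓞 F)) (h𝔭 : 𝔭.IsPrime) (h𝔭0 : 𝔭 ≠ ⊥) :
    ∃ (P : Ideal (𝓞 K)) (φ : K ≃ₐ[F] K), P.IsPrime ∧ P ≠ ⊥ ∧ P.under (𝓞 F) = 𝔭 ∧
      ∀ x : 𝓞 K, φ • x - x ^ (Ideal.absNorm 𝔭) ∈ P := by
  have h𝔭max : 𝔭.IsMaximal := h𝔭.isMaximal h𝔭0
  obtain ⟨P, hPmax, hPover⟩ :=
    Ideal.exists_maximal_ideal_liesOver_of_isIntegral (S := 𝓞 K) 𝔭
  have hP : P.IsPrime := hPmax.isPrime
  have hP𝔭 : P.under (𝓞 F) = 𝔭 := hPover.over.symm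
  have hP0 : P ≠ ⊥ := Ideal.ne_bot_of_liesOver_of_ne_bot h𝔭0 P
  have : Finite (𝓞 K ⧸ P) := Ideal.finiteQuotientOfFreeOfNeBot P hP0
  obtain ⟨σ, hσ⟩ := IsArithFrobAt.exists_of_isInvariant (𝓞 F) (K ≃ₐ[F] K) P
  refine ⟨P, σ, hP, hP0, hP𝔭, fun x => ?_⟩
  have h := hσ x
  rw [hP𝔭] at h
  have hcard : Nat.card (𝓞 F ⧸ 𝔭) = Ideal.absNorm 𝔭 := by
    rw [Ideal.absNorm_apply, Submodule.cardQuot_apply]
  rw [hcard] at h
  exact h

/-- A Frobenius element at a prime over an inert prime of prime norm generates the Galois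
group: its order is `[K:F]`. -/
theorem cdFrob_orderOf_of_inert {p : ℕ} (hp : p.Prime) (𝔭 : Ideal (𝓞 F))
    (hN : Ideal.absNorm 𝔭 = p) (hf : 𝔭.inertiaDegIn (𝓞 K) = Module.finrank F K)
    (P : Ideal (𝓞 K)) (hP : P.IsPrime) (hPover : P.under (𝓞 F) = 𝔭) (φ : K ≃ₐ[F] K)
    (hφ : ∀ x : 𝓞 K, φ • x - x ^ p ∈ P) : orderOf φ = Module.finrank F K := by
  classical
  have h𝔭prime : 𝔭.IsPrime :=
    Ideal.isPrime_of_irreducible_absNorm (by rw [hN]; exact hp)
  have h𝔭ne : 𝔭 ≠ ⊥ := by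
    rintro rfl
    rw [Ideal.absNorm_bot] at hN
    exact hp.ne_zero hN.symm
  have h𝔭max : 𝔭.IsMaximal := h𝔭prime.isMaximal h𝔭ne
  have hlies : P.LiesOver 𝔭 := ⟨hPover.symm⟩
  have hPne : P ≠ ⊥ := Ideal.ne_bot_of_liesOver_of_ne_bot h𝔭ne P
  have hPmax : P.IsMaximal := hP.isMaximal hPne
  have hfin : Finite (𝓞 K ⧸ P) := Ideal.finiteQuotientOfFreeOfNeBot P hPne
  have hcardP : Nat.card (𝓞 K ⧸ P) = p ^ Module.finrank F K := by
    have h1 := Ideal.absNorm_eq_pow_inertiaDeg'_of_liesOver P 𝔭 h𝔭prime h𝔭ne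
    rw [Ideal.inertiaDeg'_eq_inertiaDeg 𝔭 P,
      ← Ideal.inertiaDegIn_eq_inertiaDeg 𝔭 P (K ≃ₐ[F] K), hf, hN] at h1
    rw [← h1, Ideal.absNorm_apply, Submodule.cardQuot_apply]
  have hm0 : orderOf φ ≠ 0 := (orderOf_pos _).ne'
  have hdvd : orderOf φ ∣ Module.finrank F K := by
    rw [← IsGalois.card_aut_eq_finrank F K]
    exact orderOf_dvd_natCard φ
  have hle : Module.finrank F K ≤ orderOf φ := by
    let _ : Field (𝓞 K ⧸ P) := Ideal.Quotient.field P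
    refine Fermat.Agent.FrobDensity.frobGen_le_of_pow_eq (k := 𝓞 K ⧸ P) hp hcardP hm0
      fun y => ?_
    obtain ⟨x, rfl⟩ := Ideal.Quotient.mk_surjective y
    have h1 := Fermat.Agent.FrobDensity.frobGen_pow_congr P φ p hφ (orderOf φ) x
    rw [pow_orderOf_eq_one, one_smul] at h1
    rw [← map_pow]
    exact ((Ideal.Quotient.eq).mpr h1).symm
  exact le_antisymm (Nat.le_of_dvd Module.finrank_pos hdvd) hle

end Fermat.Agent.S48Cheb
end MergeWrap_S48_Cheb_CycDensity_Frob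

section MergeWrap_S48_Cheb_CycDensity_Group -- from S48/Cheb/CycDensity/Group.lean

/-!
# S48 P5 seat (C), helpers: the squares of the image of an injective character (helper30)

`χ : G →* (ZMod t)ˣ` injective, `t` an odd prime, `-1 ∈ im χ`.  `cdSq χ = {χ(σ)²}`.
* `cdSqKer_card` : the kernel of `σ ↦ χ(σ)²` has two elements;
* `cdSq_card` : `2 * #(cdSq χ) = #G`;
* `cdSq_le_of_orderOf` : if `φ` has order `#G`, every `χ(σ)²` is a power of `χ(φ)²`.
-/

set_option autoImplicit false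

namespace Fermat.Agent.S48Cheb

variable {t : ℕ} {G : Type*} [Group G]

/-- `σ ↦ χ(σ)²`. -/
def cdSqHom (χ : G →* (ZMod t)ˣ) : G →* (ZMod t)ˣ := (powMonoidHom 2).comp χ

theorem cdSqHom_apply (χ : G →* (ZMod t)ˣ) (σ : G) : cdSqHom χ σ = χ σ ^ 2 := rfl

/-- The group of the squares `χ(σ)²`. -/
def cdSq (χ : G →* (ZMod t)ˣ) : Subgroup (ZMod t)ˣ := (cdSqHom χ).range

theorem mem_cdSq {χ : G →* (ZMod t)ˣ} {u : (ZMod t)ˣ} : u ∈ cdSq χ ↔ ∃ σ, χ σ ^ 2 = u :=
  Iff.rfl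

/-- In `(ℤ/t)ˣ`, `t` prime: `x² = 1` iff `x = ± 1`. -/
theorem cd_sq_eq_one_iff [Fact t.Prime] (x : (ZMod t)ˣ) : x ^ 2 = 1 ↔ x = 1 ∨ x = -1 := by
  constructor
  · intro h
    have h1 : ((x : (ZMod t)ˣ) : ZMod t) ^ 2 = 1 := by
      rw [← Units.val_pow_eq_pow_val, h, Units.val_one]
    have h2 : ((x : ZMod t) - 1) * ((x : ZMod t) + 1) = 0 := by
      linear_combination h1
    rcases mul_eq_zero.1 h2 with h3 | h3
    · left
      ext
      rw [Units.val_one]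
      exact sub_eq_zero.1 h3
    · right
      ext
      rw [Units.val_neg, Units.val_one]
      exact eq_neg_of_add_eq_zero_left h3
  · rintro (rfl | rfl) <;> simp

theorem cd_neg_one_ne_one [Fact t.Prime] (ht2 : t ≠ 2) : (-1 : (ZMod t)ˣ) ≠ 1 := by
  intro h
  have h1 : ((-1 : (ZMod t)ˣ) : ZMod t) = 1 := by rw [h, Units.val_one]
  rw [Units.val_neg, Units.val_one] at h1
  have h2 : (2 : ZMod t) = 0 := by
    have : (1 : ZMod t) + 1 = 0 := by
      nth_rw 1 [← h1]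
      ring
    rw [← this]
    norm_num
  have h3 : ((2 : ℕ) : ZMod t) = 0 := by exact_mod_cast h2
  rw [ZMod.natCast_eq_zero_iff] at h3
  have ht : t.Prime := Fact.out
  exact ht2 ((Nat.prime_dvd_prime_iff_eq ht Nat.prime_two).1 h3)

/-- The kernel of `σ ↦ χ(σ)²` is `{1, σ₋₁}`. -/
theorem cdSqHom_ker_eq [Fact t.Prime] {χ : G →* (ZMod t)ˣ} (hχ : Function.Injective χ)
    {τ : G} (hτ : χ τ = -1) : (cdSqHom χ).ker = Subgroup.zpowers τ := by
  ext σ
  rw [MonoidHom.mem_ker, cdSqHom_apply, cd_sq_eq_one_iff]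
  constructor
  · rintro (h | h)
    · have : σ = 1 := hχ (by rw [h, map_one])
      rw [this]
      exact one_mem _
    · have : σ = τ := hχ (by rw [h, hτ])
      rw [this]
      exact Subgroup.mem_zpowers τ
  · intro h
    obtain ⟨k, rfl⟩ := Subgroup.mem_zpowers_iff.1 h
    rw [map_zpow, hτ]
    rcases Int.even_or_odd k with hk | hk
    · left
      exact Even.neg_one_zpow hk
    · right
      exact Odd.neg_one_zpow hk

theorem cdSqHom_ker_card [Fact t.Prime] (ht2 : t ≠ 2) {χ : G →* (ZMod t)ˣ}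
    (hχ : Function.Injective χ) {τ : G} (hτ : χ τ = -1) : Nat.card (cdSqHom χ).ker = 2 := by
  rw [cdSqHom_ker_eq hχ hτ, Nat.card_zpowers, ← orderOf_injective χ hχ τ, hτ]
  rw [orderOf_eq_iff (by norm_num)]
  refine ⟨by simp, fun m hm hm0 => ?_⟩
  have hm1 : m = 1 := by omega
  subst hm1
  simpa using cd_neg_one_ne_one ht2

/-- `2 * #{χ(σ)²} = #G`. -/
theorem cdSq_card [Finite G] [Fact t.Prime] (ht2 : t ≠ 2) {χ : G →* (ZMod t)ˣ}
    (hχ : Function.Injective χ) {τ : G} (hτ : χ τ = -1) :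
    2 * Nat.card (cdSq χ) = Nat.card G := by
  have h1 := Subgroup.card_mul_index (cdSqHom χ).ker
  rw [Subgroup.index_ker, cdSqHom_ker_card ht2 hχ hτ] at h1
  exact h1

/-- If `φ` generates `G`, every `χ(σ)²` is a power of `χ(φ)²`. -/
theorem cdSq_le_of_orderOf [Finite G] {χ : G →* (ZMod t)ˣ} {φ : G}
    (hφ : orderOf φ = Nat.card G) (H : Subgroup (ZMod t)ˣ) (hH : χ φ ^ 2 ∈ H) : cdSq χ ≤ H := by
  rintro u ⟨σ, rfl⟩
  have hσ : σ ∈ Subgroup.zpowers φ := by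
    have htop : Subgroup.zpowers φ = ⊤ := by
      apply Subgroup.eq_top_of_card_eq
      rw [Nat.card_zpowers, hφ]
    rw [htop]
    exact Subgroup.mem_top σ
  obtain ⟨k, rfl⟩ := Subgroup.mem_zpowers_iff.1 hσ
  rw [cdSqHom_apply, map_zpow, ← zpow_natCast, ← zpow_mul, mul_comm, zpow_mul, zpow_natCast]
  exact H.zpow_mem hH k

end Fermat.Agent.S48Cheb
end MergeWrap_S48_Cheb_CycDensity_Group

section MergeWrap_S48_Cheb_CycDensity_Norms -- from S48/Cheb/CycDensity/Norms.lean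

/-!
# S48 P5 seat (C), helpers: the norms of the ideals of `F` modulo `t` (helper30)

`K/F` Galois, `ζ ∈ K` a primitive `t`-th root of unity, `χ : Gal(K/F) → (ℤ/t)ˣ` the cyclotomic
character (injective, `-1` in the image).
* `cd_normSqGroup_eq` : `normSqGroup F t = cdSq χ` (the squares of the values of `χ`);
* `cd_normM_sq` : for `M` the fixed field of a subgroup of the kernel of `σ ↦ χ(σ)²`, the norms
  of the ideals of `M` prime to `t` are `± 1` modulo `t`.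
-/

set_option autoImplicit false

open NumberField

namespace Fermat.Agent.S48Cheb

/-- If `N ∈ P` and `N` is prime to `t`, then `t ∉ P`. -/
theorem cd_natCast_notMem {R : Type*} [CommRing R] (P : Ideal R) (hP : P.IsPrime) {N t : ℕ}
    (hN : (N : R) ∈ P) (hcop : N.Coprime t) : (t : R) ∉ P := by
  intro htP
  have h1 : ((Nat.gcd N t : ℤ) : R) ∈ P := by
    rw [Nat.gcd_eq_gcd_ab]
    push_cast
    exact P.add_mem (P.mul_mem_right _ hN) (P.mul_mem_right _ htP)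
  rw [hcop] at h1
  apply hP.ne_top
  rw [Ideal.eq_top_iff_one]
  simpa using h1

/-- An ideal whose absolute norm is prime to `t` is prime to `(t)`. -/
theorem cd_sup_span_eq_top {E : Type} [Field E] [NumberField E] {I : Ideal (𝓞 E)} {t : ℕ}
    (h : (Ideal.absNorm I).Coprime t) : I ⊔ Ideal.span {(t : 𝓞 E)} = ⊤ := by
  by_contra hne
  obtain ⟨P, hP, hle⟩ := Ideal.exists_le_maximal _ hne
  have h1 : ((Ideal.absNorm I : ℕ) : 𝓞 E) ∈ P := hle (Ideal.mem_sup_left (Ideal.absNorm_mem I))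
  have h2 : (t : 𝓞 E) ∈ P := hle (Ideal.mem_sup_right (Ideal.subset_span rfl))
  exact cd_natCast_notMem P hP.isPrime h1 h h2

section

variable {F K : Type} [Field F] [NumberField F] [Field K] [NumberField K] [Algebra F K]
  {t : ℕ}

/-- A Frobenius element `φ` at a prime `P` of `K` over the prime `𝔭` of `F` (prime to `t`)
satisfies `χ φ = N𝔭` in `ℤ/t`. -/
theorem cd_frob_norm (hC2 : CycArtin) (ht : t.Prime) {ζ : K} (hζ : IsPrimitiveRoot ζ t)
    (𝔭 : Ideal (𝓞 F)) (hcop : (Ideal.absNorm 𝔭).Coprime t)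
    (P : Ideal (𝓞 K)) (hP : P.IsPrime) (hP𝔭 : P.under (𝓞 F) = 𝔭) (φ : K ≃ₐ[F] K)
    (hφ : ∀ x : 𝓞 K, φ • x - x ^ (Ideal.absNorm 𝔭) ∈ P) (u : (ZMod t)ˣ)
    (hu : φ ζ = ζ ^ ((u : (ZMod t)ˣ) : ZMod t).val) :
    ((Ideal.absNorm 𝔭 : ℕ) : ZMod t) = ((u : (ZMod t)ˣ) : ZMod t) := by
  have hNP : ((Ideal.absNorm 𝔭 : ℕ) : 𝓞 K) ∈ P := by
    have h1 : ((Ideal.absNorm 𝔭 : ℕ) : 𝓞 F) ∈ P.under (𝓞 F) := by
      rw [hP𝔭]
      exact Ideal.absNorm_mem 𝔭
    rw [Ideal.under_def, Ideal.mem_comap, map_natCast] at h1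
    exact h1
  have htP := cd_natCast_notMem P hP hNP hcop
  have h := hC2 F K t ht ζ hζ P hP htP φ (Ideal.absNorm 𝔭) _ hφ hu
  have : NeZero t := ⟨ht.ne_zero⟩
  rw [h, ZMod.natCast_zmod_val]

variable [IsGalois F K]

/-- The norm of an ideal of `F` prime to `t` is a value of `χ`. -/
theorem cd_norm_mem (hC2 : CycArtin) (ht : t.Prime) {ζ : K} (hζ : IsPrimitiveRoot ζ t)
    (χ : (K ≃ₐ[F] K) →* (ZMod t)ˣ)
    (hχ : ∀ σ : K ≃ₐ[F] K, σ ζ = ζ ^ ((χ σ : (ZMod t)ˣ) : ZMod t).val)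
    (I : Ideal (𝓞 F)) : (Ideal.absNorm I).Coprime t →
      ∃ φ : K ≃ₐ[F] K, ((Ideal.absNorm I : ℕ) : ZMod t) = ((χ φ : (ZMod t)ˣ) : ZMod t) := by
  induction I using UniqueFactorizationMonoid.induction_on_prime with
  | h₁ =>
    intro hcop
    have h0 : Ideal.absNorm (0 : Ideal (𝓞 F)) = 0 := by
      rw [Ideal.zero_eq_bot, Ideal.absNorm_bot]
    rw [h0] at hcop
    have ht1 : t = 1 := by simpa using hcop
    exact absurd ht1 ht.ne_one
  | h₂ J hJu =>
    intro _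
    have hJ : J = ⊤ := by
      rw [← Ideal.one_eq_top]
      exact isUnit_iff_eq_one.mp hJu
    refine ⟨1, ?_⟩
    rw [hJ, Ideal.absNorm_top, Nat.cast_one, map_one, Units.val_one]
  | h₃ J 𝔓 hJ0 h𝔓 ih =>
    intro hcop
    have hnorm : Ideal.absNorm (𝔓 * J) = Ideal.absNorm 𝔓 * Ideal.absNorm J := map_mul _ _ _
    rw [hnorm] at hcop ⊢
    have hcop𝔓 : (Ideal.absNorm 𝔓).Coprime t := Nat.Coprime.coprime_mul_right hcop
    have hcopJ : (Ideal.absNorm J).Coprime t := Nat.Coprime.coprime_mul_left hcop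
    obtain ⟨φJ, hφJ⟩ := ih hcopJ
    obtain ⟨P, φ, hP, _, hP𝔭, hφ⟩ :=
      cdFrob_exists (K := K) 𝔓 (Ideal.isPrime_of_prime h𝔓) h𝔓.ne_zero
    have h1 := cd_frob_norm hC2 ht hζ 𝔓 hcop𝔓 P hP hP𝔭 φ hφ (χ φ) (hχ φ)
    refine ⟨φ * φJ, ?_⟩
    rw [Nat.cast_mul, map_mul, Units.val_mul, h1, hφJ]

/-- `G_F ⊆ (im χ)²`. -/
theorem cd_normSqGroup_le (hC2 : CycArtin) (ht : t.Prime) {ζ : K} (hζ : IsPrimitiveRoot ζ t)
    (χ : (K ≃ₐ[F] K) →* (ZMod t)ˣ)
    (hχ : ∀ σ : K ≃ₐ[F] K, σ ζ = ζ ^ ((χ σ : (ZMod t)ˣ) : ZMod t).val) :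
    normSqGroup F t ≤ cdSq χ := by
  rw [normSqGroup, Subgroup.closure_le]
  rintro u ⟨I, _, hI, hu⟩
  obtain ⟨φ, hφ⟩ := cd_norm_mem hC2 ht hζ χ hχ I (Fermat.Agent.F4Rec.coprimeAbsNorm F t I hI)
  refine ⟨φ, ?_⟩
  ext
  rw [cdSqHom_apply, Units.val_pow_eq_pow_val, ← hφ, hu]

/-- `(im χ)² ⊆ G_F`. -/
theorem cd_cdSq_le (hC2 : CycArtin) (ht : t.Prime) {ζ : K} (hζ : IsPrimitiveRoot ζ t)
    (χ : (K ≃ₐ[F] K) →* (ZMod t)ˣ)
    (hχ : ∀ σ : K ≃ₐ[F] K, σ ζ = ζ ^ ((χ σ : (ZMod t)ˣ) : ZMod t).val)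
    (hinj : Function.Injective χ) : cdSq χ ≤ normSqGroup F t := by
  have : Fact t.Prime := ⟨ht⟩
  have hcyc : IsCyclic (K ≃ₐ[F] K) := isCyclic_of_injective χ hinj
  have hS : ({q : Nat.Primes | (q : ℕ) = t} : Set Nat.Primes).Finite := by
    refine Set.Subsingleton.finite ?_
    intro q hq q' hq'
    exact Subtype.ext (hq.trans hq'.symm)
  obtain ⟨p, 𝔭, hpS, hN, hf⟩ := Fermat.Agent.FrobDensity.exists_inert F K _ hS
  have hpt : (p : ℕ) ≠ t := hpS
  have h𝔭prime : 𝔭.IsPrime :=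
    Ideal.isPrime_of_irreducible_absNorm (by rw [hN]; exact p.2)
  have h𝔭0 : 𝔭 ≠ ⊥ := by
    rintro rfl
    rw [Ideal.absNorm_bot] at hN
    exact p.2.ne_zero hN.symm
  have hcop : (Ideal.absNorm 𝔭).Coprime t := by
    rw [hN]
    exact (Nat.coprime_primes p.2 ht).2 hpt
  obtain ⟨P, φ, hP, _, hP𝔭, hφ⟩ := cdFrob_exists (K := K) 𝔭 h𝔭prime h𝔭0
  have hord : orderOf φ = Nat.card (K ≃ₐ[F] K) := by
    rw [IsGalois.card_aut_eq_finrank]
    refine cdFrob_orderOf_of_inert p.2 𝔭 hN hf P hP hP𝔭 φ ?_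
    rw [← hN]
    exact hφ
  have h1 := cd_frob_norm hC2 ht hζ 𝔭 hcop P hP hP𝔭 φ hφ (χ φ) (hχ φ)
  refine cdSq_le_of_orderOf hord _ ?_
  refine Subgroup.subset_closure ⟨𝔭, h𝔭0, cd_sup_span_eq_top hcop, ?_⟩
  rw [Units.val_pow_eq_pow_val, h1]

/-- `G_F = (im χ)²`. -/
theorem cd_normSqGroup_eq (hC2 : CycArtin) (ht : t.Prime) {ζ : K} (hζ : IsPrimitiveRoot ζ t)
    (χ : (K ≃ₐ[F] K) →* (ZMod t)ˣ)
    (hχ : ∀ σ : K ≃ₐ[F] K, σ ζ = ζ ^ ((χ σ : (ZMod t)ˣ) : ZMod t).val)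
    (hinj : Function.Injective χ) : normSqGroup F t = cdSq χ :=
  le_antisymm (cd_normSqGroup_le hC2 ht hζ χ hχ) (cd_cdSq_le hC2 ht hζ χ hχ hinj)

end

end Fermat.Agent.S48Cheb
end MergeWrap_S48_Cheb_CycDensity_Norms

section MergeWrap_S48_Cheb_CycDensity_FixedNorm -- from S48/Cheb/CycDensity/FixedNorm.lean

/-!
# S48 P5 seat (C), helpers: `clsT` kills the norms from the fixed field of `{1, σ₋₁}` (helper30)

`M` = the fixed field of a subgroup `H` of the kernel of `σ ↦ χ(σ)²`.  The norms of the ideals of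
`M` prime to `t` are `± 1` modulo `t` (Frobenius elements of `K/M` lie in `H`), so `clsT F t`
kills the relative norms from `M`; `F4Ray.rayPrimeSum` then gives the lower density `1/[M:F]` of
the primes of `F` of trivial class.
-/

set_option autoImplicit false

open NumberField IsDedekindDomain

namespace Fermat.Agent.S48Cheb

open Fermat.Agent.FrobDensity (normWeight)

variable {F K : Type} [Field F] [NumberField F] [Field K] [NumberField K] [Algebra F K]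
  [IsGalois F K] {t : ℕ}

/-- The norm of a prime of `M` prime to `t` has square `1` modulo `t`. -/
theorem cd_primeM_sq (hC2 : CycArtin) (ht : t.Prime) {ζ : K} (hζ : IsPrimitiveRoot ζ t)
    (χ : (K ≃ₐ[F] K) →* (ZMod t)ˣ)
    (hχ : ∀ σ : K ≃ₐ[F] K, σ ζ = ζ ^ ((χ σ : (ZMod t)ˣ) : ZMod t).val)
    (H : Subgroup (K ≃ₐ[F] K)) (hH : H ≤ (cdSqHom χ).ker)
    (𝔓 : Ideal (𝓞 (IntermediateField.fixedField H))) (h𝔓 : 𝔓.IsPrime) (h𝔓0 : 𝔓 ≠ ⊥)
    (hcop : (Ideal.absNorm 𝔓).Coprime t) : ((Ideal.absNorm 𝔓 : ℕ) : ZMod t) ^ 2 = 1 := by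
  obtain ⟨P, σ, hP, _, hP𝔓, hσ⟩ :=
    cdFrob_exists (F := IntermediateField.fixedField H) (K := K) 𝔓 h𝔓 h𝔓0
  set g : K ≃ₐ[F] K := σ.restrictScalars F with hg
  have hgH : g ∈ H := by
    have h1 : g ∈ (IntermediateField.fixedField H).fixingSubgroup := by
      intro x
      exact σ.commutes x
    rwa [IntermediateField.fixingSubgroup_fixedField] at h1
  have h1 := cd_frob_norm hC2 ht hζ 𝔓 hcop P hP hP𝔓 σ hσ (χ g) (hχ g)
  have h2 : χ g ^ 2 = 1 := hH hgH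
  rw [h1, ← Units.val_pow_eq_pow_val, h2, Units.val_one]

/-- The norm of an ideal of `M` prime to `t` has square `1` modulo `t`. -/
theorem cd_normM_sq (hC2 : CycArtin) (ht : t.Prime) {ζ : K} (hζ : IsPrimitiveRoot ζ t)
    (χ : (K ≃ₐ[F] K) →* (ZMod t)ˣ)
    (hχ : ∀ σ : K ≃ₐ[F] K, σ ζ = ζ ^ ((χ σ : (ZMod t)ˣ) : ZMod t).val)
    (H : Subgroup (K ≃ₐ[F] K)) (hH : H ≤ (cdSqHom χ).ker)
    (A : Ideal (𝓞 (IntermediateField.fixedField H))) :
    (Ideal.absNorm A).Coprime t → ((Ideal.absNorm A : ℕ) : ZMod t) ^ 2 = 1 := by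
  induction A using UniqueFactorizationMonoid.induction_on_prime with
  | h₁ =>
    intro hcop
    have h0 : Ideal.absNorm (0 : Ideal (𝓞 (IntermediateField.fixedField H))) = 0 := by
      rw [Ideal.zero_eq_bot, Ideal.absNorm_bot]
    rw [h0] at hcop
    have ht1 : t = 1 := by simpa using hcop
    exact absurd ht1 ht.ne_one
  | h₂ J hJu =>
    intro _
    have hJ : J = ⊤ := by
      rw [← Ideal.one_eq_top]
      exact isUnit_iff_eq_one.mp hJu
    rw [hJ, Ideal.absNorm_top, Nat.cast_one, one_pow]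
  | h₃ J 𝔓 hJ0 h𝔓 ih =>
    intro hcop
    have hnorm : Ideal.absNorm (𝔓 * J) = Ideal.absNorm 𝔓 * Ideal.absNorm J := map_mul _ _ _
    rw [hnorm] at hcop ⊢
    have hcop𝔓 : (Ideal.absNorm 𝔓).Coprime t := Nat.Coprime.coprime_mul_right hcop
    have hcopJ : (Ideal.absNorm J).Coprime t := Nat.Coprime.coprime_mul_left hcop
    rw [Nat.cast_mul, mul_pow, ih hcopJ, mul_one]
    exact cd_primeM_sq hC2 ht hζ χ hχ H hH 𝔓 (Ideal.isPrime_of_prime h𝔓) h𝔓.ne_zero hcop𝔓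

/-- `clsT F t` kills the relative norms from `M`. -/
theorem cd_clsT_relNorm (hC1 : ClsTStatement) (hC2 : CycArtin) (ht : t.Prime) {ζ : K}
    (hζ : IsPrimitiveRoot ζ t) (χ : (K ≃ₐ[F] K) →* (ZMod t)ˣ)
    (hχ : ∀ σ : K ≃ₐ[F] K, σ ζ = ζ ^ ((χ σ : (ZMod t)ˣ) : ZMod t).val)
    (H : Subgroup (K ≃ₐ[F] K)) (hH : H ≤ (cdSqHom χ).ker)
    (A : Ideal (𝓞 (IntermediateField.fixedField H))) (hA : A ≠ ⊥)
    (hAm : Ideal.relNorm (𝓞 F) A ⊔ Ideal.span {(t : 𝓞 F)} = ⊤) :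
    clsT F t (Ideal.relNorm (𝓞 F) A) = 1 := by
  have hne : Ideal.relNorm (𝓞 F) A ≠ ⊥ := by
    rw [Ne, Ideal.relNorm_eq_bot_iff]
    exact hA
  have h1 := (hC1 F t ht).2 _ hne hAm
  have hcop := Fermat.Agent.F4Rec.coprimeAbsNorm F t _ hAm
  rw [Ideal.absNorm_relNorm] at h1 hcop
  rw [cd_normM_sq hC2 ht hζ χ hχ H hH A hcop] at h1
  apply Subtype.ext
  apply Units.ext
  rw [h1]
  rfl

/-- `[M:F] = #G_F` for `M` the fixed field of the kernel of `σ ↦ χ(σ)²`, and `2 #G_F = [K:F]`. -/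
theorem cd_finrank_fixed (hC2 : CycArtin) (ht : t.Prime) (ht2 : t ≠ 2) {ζ : K}
    (hζ : IsPrimitiveRoot ζ t) (χ : (K ≃ₐ[F] K) →* (ZMod t)ˣ)
    (hχ : ∀ σ : K ≃ₐ[F] K, σ ζ = ζ ^ ((χ σ : (ZMod t)ˣ) : ZMod t).val)
    (hinj : Function.Injective χ) {τ : K ≃ₐ[F] K} (hτ : χ τ = -1) :
    Module.finrank F (IntermediateField.fixedField (cdSqHom χ).ker) =
        Nat.card (normSqGroup F t) ∧
      2 * Nat.card (normSqGroup F t) = Module.finrank F K := by
  have : Fact t.Prime := ⟨ht⟩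
  have h1 : 2 * Nat.card (cdSq χ) = Nat.card (K ≃ₐ[F] K) := cdSq_card ht2 hinj hτ
  rw [IsGalois.card_aut_eq_finrank] at h1
  have h2 : Module.finrank (IntermediateField.fixedField (cdSqHom χ).ker) K = 2 := by
    rw [IntermediateField.finrank_fixedField_eq_card, cdSqHom_ker_card ht2 hinj hτ]
  have h3 := Module.finrank_mul_finrank F (IntermediateField.fixedField (cdSqHom χ).ker) K
  rw [h2] at h3
  rw [cd_normSqGroup_eq hC2 ht hζ χ hχ hinj]
  refine ⟨?_, h1⟩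
  omega

end Fermat.Agent.S48Cheb
end MergeWrap_S48_Cheb_CycDensity_FixedNorm

section MergeWrap_S48_Cheb_CycDensity_Sums -- from S48/Cheb/CycDensity/Sums.lean

/-!
# S48 P5 seat (C), sub-seat C-SUMS (helper23): from prime ideals to rational primes

A nonnegative weight `f ≤ N𝔮^{-s}` on the primes of `F` which vanishes unless `Q (N𝔮)` sums to at
most `∑_p [Q p] idealCount F p · p^{-s} + highSum F s`.
-/

set_option autoImplicit false

open NumberField IsDedekindDomain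

namespace Fermat.Agent.S48Cheb

open Fermat.Agent.FrobDensity (normWeight idealCount highSum)

section

variable (F : Type) [Field F] [NumberField F] (Q : ℕ → Prop)

/-- The weight restricted to the ideals of prime norm `p` with `Q p`. -/
noncomputable def cdWeight (s : ℝ) : Ideal (𝓞 F) → ℝ :=
  Set.indicator {I : Ideal (𝓞 F) | (Ideal.absNorm I).Prime ∧ Q (Ideal.absNorm I)}
    (normWeight F s)

variable {F Q}

theorem cdWeight_nonneg (s : ℝ) (I : Ideal (𝓞 F)) : 0 ≤ cdWeight F Q s I :=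
  Set.indicator_nonneg (fun I _ => FrobDensity.normWeight_nonneg s I) I

theorem cdWeight_le (s : ℝ) (I : Ideal (𝓞 F)) : cdWeight F Q s I ≤ normWeight F s I :=
  Set.indicator_le_self' (fun I _ => FrobDensity.normWeight_nonneg s I) I

variable (F Q)

theorem cd_summable_cdWeight {s : ℝ} (hs : 1 < s) : Summable (cdWeight F Q s) :=
  (FrobDensity.summable_normWeight F hs).indicator _

open Classical in
theorem cd_tsum_fiber (s : ℝ) (n : ℕ) :
    ∑' I : {I : Ideal (𝓞 F) // Ideal.absNorm I = n}, cdWeight F Q s I.1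
      = Set.indicator {n : ℕ | n.Prime}
          (fun n => (if Q n then (idealCount F n : ℝ) else 0) * (n : ℝ) ^ (-s)) n := by
  by_cases hn : n.Prime
  · rw [Set.indicator_of_mem (show n ∈ {n : ℕ | n.Prime} from hn)]
    by_cases hQ : Q n
    · rw [if_pos hQ]
      rw [show (idealCount F n : ℝ) * (n : ℝ) ^ (-s) =
        (FrobDensity.idealCountAux F n : ℝ) * (n : ℝ) ^ (-s) from rfl,
        ← FrobDensity.tsum_fiber_normWeight s n]
      refine tsum_congr fun I => ?_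
      have hI : (Ideal.absNorm I.1).Prime ∧ Q (Ideal.absNorm I.1) := by
        rw [I.2]
        exact ⟨hn, hQ⟩
      exact Set.indicator_of_mem
        (show I.1 ∈ {I : Ideal (𝓞 F) | (Ideal.absNorm I).Prime ∧ Q (Ideal.absNorm I)} from hI) _
    · rw [if_neg hQ, zero_mul]
      have : ∀ I : {I : Ideal (𝓞 F) // Ideal.absNorm I = n}, cdWeight F Q s I.1 = 0 :=
        fun I => Set.indicator_of_notMem
          (show I.1 ∉ {I : Ideal (𝓞 F) | (Ideal.absNorm I).Prime ∧ Q (Ideal.absNorm I)} from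
            fun h => hQ (I.2 ▸ h.2)) _
      simp [this]
  · rw [Set.indicator_of_notMem (show n ∉ {n : ℕ | n.Prime} from hn)]
    have : ∀ I : {I : Ideal (𝓞 F) // Ideal.absNorm I = n}, cdWeight F Q s I.1 = 0 :=
      fun I => Set.indicator_of_notMem
        (show I.1 ∉ {I : Ideal (𝓞 F) | (Ideal.absNorm I).Prime ∧ Q (Ideal.absNorm I)} from
          fun h => hn (I.2 ▸ h.1)) _
    simp [this]

open Classical in
theorem cd_tsum_cdWeight_eq {s : ℝ} (hs : 1 < s) :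
    ∑' I, cdWeight F Q s I
      = ∑' p : Nat.Primes, (if Q (p : ℕ) then (idealCount F p : ℝ) else 0) *
          ((p : ℕ) : ℝ) ^ (-s) := by
  have hsum := cd_summable_cdWeight F Q hs
  rw [← (Equiv.sigmaFiberEquiv (fun I : Ideal (𝓞 F) => Ideal.absNorm I)).tsum_eq]
  rw [← (Equiv.sigmaFiberEquiv (fun I : Ideal (𝓞 F) => Ideal.absNorm I)).summable_iff] at hsum
  change Summable (fun p : (Σ n : ℕ, {I : Ideal (𝓞 F) // Ideal.absNorm I = n}) =>
    cdWeight F Q s p.2.1) at hsum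
  change ∑' p : (Σ n : ℕ, {I : Ideal (𝓞 F) // Ideal.absNorm I = n}),
    cdWeight F Q s p.2.1 = _
  rw [hsum.tsum_sigma]
  rw [tsum_congr fun n => cd_tsum_fiber F Q s n]
  rw [← tsum_subtype {n : ℕ | n.Prime}
    (fun n => (if Q n then (idealCount F n : ℝ) else 0) * (n : ℝ) ^ (-s))]
  rfl

theorem cd_tsum_cdWeight_eq_tsum_prime (s : ℝ) :
    ∑' I, cdWeight F Q s I
      = ∑' 𝔭 : HeightOneSpectrum (𝓞 F), cdWeight F Q s 𝔭.asIdeal := by
  refine (Function.Injective.tsum_eq FrobDensity.asIdeal_injective ?_).symm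
  intro I hI
  have hI' : I ∈ {I : Ideal (𝓞 F) | (Ideal.absNorm I).Prime ∧ Q (Ideal.absNorm I)} := by
    by_contra h
    exact hI (Set.indicator_of_notMem h _)
  have hprime : I.IsPrime := Ideal.isPrime_of_irreducible_absNorm
    (Nat.prime_iff.mp hI'.1).irreducible
  have hbot : I ≠ ⊥ := by
    rintro rfl
    have hI'' : (Ideal.absNorm (⊥ : Ideal (𝓞 F))).Prime := hI'.1
    rw [Ideal.absNorm_bot] at hI''
    exact Nat.not_prime_zero hI''
  exact ⟨⟨I, hprime, hbot⟩, rfl⟩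

end

theorem cd_tsum_le (F : Type) [Field F] [NumberField F] (Q : ℕ → Prop) {s : ℝ} (hs : 1 < s)
    (f : HeightOneSpectrum (𝓞 F) → ℝ) (hf0 : ∀ 𝔮, 0 ≤ f 𝔮)
    (hf : ∀ 𝔮, f 𝔮 ≤ normWeight F s 𝔮.asIdeal)
    (hfQ : ∀ 𝔮, ¬ Q (Ideal.absNorm 𝔮.asIdeal) → f 𝔮 = 0) :
    ∑' 𝔮, f 𝔮 ≤
      (∑' p : Nat.Primes,
        (open scoped Classical in if Q (p : ℕ) then (idealCount F p : ℝ) else 0) *
          ((p : ℕ) : ℝ) ^ (-s)) + highSum F s := by
  classical
  rw [← cd_tsum_cdWeight_eq F Q hs, cd_tsum_cdWeight_eq_tsum_prime F Q s]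
  unfold highSum
  have hsf : Summable f :=
    Summable.of_nonneg_of_le hf0 hf (FrobDensity.summable_normWeight_prime F hs)
  have hs1 : Summable (fun 𝔭 : HeightOneSpectrum (𝓞 F) => cdWeight F Q s 𝔭.asIdeal) :=
    (cd_summable_cdWeight F Q hs).comp_injective FrobDensity.asIdeal_injective
  have hs2 : Summable (fun 𝔭 : HeightOneSpectrum (𝓞 F) =>
      (if (Ideal.absNorm 𝔭.asIdeal).Prime then 0 else normWeight F s 𝔭.asIdeal)) := by
    refine Summable.of_nonneg_of_le (fun 𝔭 => ?_) (fun 𝔭 => ?_)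
      (FrobDensity.summable_normWeight_prime F hs)
    · split_ifs
      · exact le_rfl
      · exact FrobDensity.normWeight_nonneg s 𝔭.asIdeal
    · split_ifs
      · exact FrobDensity.normWeight_nonneg s 𝔭.asIdeal
      · exact le_rfl
  rw [← hs1.tsum_add hs2]
  refine hsf.tsum_le_tsum (fun 𝔮 => ?_) (hs1.add hs2)
  by_cases hp : (Ideal.absNorm 𝔮.asIdeal).Prime
  · rw [if_pos hp, add_zero]
    by_cases hQ : Q (Ideal.absNorm 𝔮.asIdeal)
    · have : cdWeight F Q s 𝔮.asIdeal = normWeight F s 𝔮.asIdeal :=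
        Set.indicator_of_mem (show 𝔮.asIdeal ∈
          {I : Ideal (𝓞 F) | (Ideal.absNorm I).Prime ∧ Q (Ideal.absNorm I)} from ⟨hp, hQ⟩) _
      rw [this]
      exact hf 𝔮
    · rw [hfQ 𝔮 hQ]
      exact cdWeight_nonneg s _
  · rw [if_neg hp]
    have : cdWeight F Q s 𝔮.asIdeal = 0 :=
      Set.indicator_of_notMem (show 𝔮.asIdeal ∉
        {I : Ideal (𝓞 F) | (Ideal.absNorm I).Prime ∧ Q (Ideal.absNorm I)} from
          fun h => hp h.1) _
    rw [this, zero_add]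
    exact hf 𝔮

end Fermat.Agent.S48Cheb
end MergeWrap_S48_Cheb_CycDensity_Sums

section MergeWrap_S48_Cheb_CycDensity -- from S48/Cheb/CycDensity.lean

/-!
# S48 P5 seat (C): density of the primes of `F` of norm `± a^{±1} mod t` (helper30)

Setting: `K/F` Galois, `χ : Gal(K/F) ↪ (ℤ/t)ˣ` injective (so `Gal(K/F)` is cyclic), `-1 ∈ im χ`,
`2r = [K:F]`.  `G_F = normSqGroup F t`, `cls = clsT F t` (seat C1).
1. `G_F ⊆ (im χ)²`: for a prime `𝔓 ∤ t` of `F` take a Frobenius `φ` at a prime of `K` above;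
   `N𝔓 ≡ χ φ` (seat C2).  (`CycDensity/Norms.lean`)
2. `(im χ)² ⊆ G_F`: `FrobDensity.exists_inert` for the cyclic extension `K/F` gives a prime of
   norm `p` whose Frobenius generates `Gal(K/F)`.  (`CycDensity/Norms.lean`)
3. Hypothesis of (A): `cls` kills the norms from the fixed field `M` of `{1, σ₋₁}`, and
   `[M:F] = r = #G_F`; `F4Ray.rayPrimeSum`.  (`CycDensity/FixedNorm.lean`)
4. Apply (A) to the class `a² ∈ G_F`; back to `Nat.Primes`-indexed sums (the primes of `F` of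
   degree `> 1` contribute `O(1)`; `CycDensity/Sums.lean`).
-/

set_option autoImplicit false

open NumberField IsDedekindDomain

namespace Fermat.Agent.S48Cheb

open Fermat.Agent.FrobDensity (normWeight idealCount highSum)

/-- The weight `[Q p] · #{ideals of norm p}` is bounded. -/
theorem cd_weight_bounded (F : Type) [Field F] [NumberField F] (Q : ℕ → Prop) :
    ∃ B : ℝ, ∀ p : Nat.Primes,
      |(open scoped Classical in if Q (p : ℕ) then (idealCount F p : ℝ) else 0)| ≤ B := by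
  classical
  refine ⟨(Module.finrank ℚ F : ℝ), fun p => ?_⟩
  split_ifs
  · rw [abs_of_nonneg (Nat.cast_nonneg _)]
    exact_mod_cast Fermat.Agent.FrobDensity.idealCount_le_finrank F p.2
  · rw [abs_zero]
    exact Nat.cast_nonneg _

/-- The class-indicator weight on the primes of `F`. -/
theorem cd_class_tsum_le (hC1 : ClsTStatement) (F : Type) [Field F] [NumberField F] {t : ℕ}
    (ht : t.Prime) (u : normSqGroup F t) {s : ℝ} (hs : 1 < s) :
    (∑' 𝔮 : HeightOneSpectrum (𝓞 F),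
      open scoped Classical in
      if 𝔮.asIdeal ⊔ Ideal.span {(t : 𝓞 F)} = ⊤ ∧ clsT F t 𝔮.asIdeal = u
        then normWeight F s 𝔮.asIdeal else 0) ≤
      (∑' p : Nat.Primes,
        (open scoped Classical in
          if (((p : ℕ) : ZMod t)) ^ 2 = (((u : normSqGroup F t) : (ZMod t)ˣ) : ZMod t)
            then (idealCount F p : ℝ) else 0) * ((p : ℕ) : ℝ) ^ (-s)) + highSum F s := by
  classical
  have h := cd_tsum_le F
    (fun n => ((n : ℕ) : ZMod t) ^ 2 = (((u : normSqGroup F t) : (ZMod t)ˣ) : ZMod t)) hs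
    (fun 𝔮 => if 𝔮.asIdeal ⊔ Ideal.span {(t : 𝓞 F)} = ⊤ ∧ clsT F t 𝔮.asIdeal = u
        then normWeight F s 𝔮.asIdeal else 0)
    (fun 𝔮 => by
      split_ifs
      · exact Fermat.Agent.FrobDensity.normWeight_nonneg s _
      · exact le_rfl)
    (fun 𝔮 => by
      split_ifs
      · exact le_rfl
      · exact Fermat.Agent.FrobDensity.normWeight_nonneg s _)
    (fun 𝔮 hQ => by
      rw [if_neg]
      rintro ⟨hadm, hcls⟩
      apply hQ
      have h1 := (hC1 F t ht).2 𝔮.asIdeal 𝔮.ne_bot hadm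
      rw [hcls] at h1
      exact h1.symm)
  refine le_of_eq_of_le ?_ (le_of_le_of_eq h ?_)
  · refine tsum_congr fun 𝔮 => ?_
    congr
  · congr 1
    refine tsum_congr fun p => ?_
    congr

/-- Splitting the `Nat.Primes`-sum of a sum of two indicator weights. -/
theorem cd_tsum_add (F : Type) [Field F] [NumberField F] (Q Q' : ℕ → Prop) {s : ℝ}
    (hs : 1 < s) :
    (∑' p : Nat.Primes,
      ((open scoped Classical in if Q (p : ℕ) then (idealCount F p : ℝ) else 0) +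
        (open scoped Classical in if Q' (p : ℕ) then (idealCount F p : ℝ) else 0)) *
        ((p : ℕ) : ℝ) ^ (-s)) =
      (∑' p : Nat.Primes,
        (open scoped Classical in if Q (p : ℕ) then (idealCount F p : ℝ) else 0) *
          ((p : ℕ) : ℝ) ^ (-s)) +
      (∑' p : Nat.Primes,
        (open scoped Classical in if Q' (p : ℕ) then (idealCount F p : ℝ) else 0) *
          ((p : ℕ) : ℝ) ^ (-s)) := by
  classical
  have h1 := Fermat.Agent.FrobDensity.summable_weight_mul_rpow (cd_weight_bounded F Q) hs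
  have h2 := Fermat.Agent.FrobDensity.summable_weight_mul_rpow (cd_weight_bounded F Q') hs
  rw [← h1.tsum_add h2]
  refine tsum_congr fun p => ?_
  rw [add_mul]

theorem cycDensity_of (hA : EquidistInv) (hC1 : ClsTStatement) (hC2 : CycArtin) : CycDensity := by
  intro F K _ _ _ _ _ _ t ht ht2 ζ hζ χ hχ hinj hneg a ha
  obtain ⟨τ, hτ⟩ := hneg
  obtain ⟨σ₀, hσ₀⟩ := ha
  classical
  have : Fact t.Prime := ⟨ht⟩
  let _ : Fintype (normSqGroup F t) := Fintype.ofFinite _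
  obtain ⟨hfin, hcard⟩ := cd_finrank_fixed hC2 ht ht2 hζ χ hχ hinj hτ
  have hRC := (hC1 F t ht).1
  -- hypothesis of (A)
  have htight := Fermat.Agent.F4Ray.rayPrimeSum F
    (IntermediateField.fixedField (cdSqHom χ).ker) (Ideal.span {(t : 𝓞 F)}) hRC.m_ne_bot
    (clsT F t)
    (fun A hA' hAm => cd_clsT_relNorm hC1 hC2 ht hζ χ hχ _ le_rfl A hA' hAm)
  rw [hfin, Nat.card_eq_fintype_card] at htight
  -- the class of `a²`
  have ha2 : a ^ 2 ∈ normSqGroup F t := by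
    rw [cd_normSqGroup_eq hC2 ht hζ χ hχ hinj]
    exact ⟨σ₀, by rw [cdSqHom_apply, hσ₀]⟩
  obtain ⟨B, δ, hδ, hB⟩ := hA F _ _ (clsT F t) hRC htight ⟨a ^ 2, ha2⟩
  refine ⟨B + 2 * ((Module.finrank ℚ F : ℝ) * ∑' n : ℕ, ((n : ℝ) ^ 2)⁻¹), δ, hδ,
    fun s hs hsδ => ?_⟩
  have h1 := hB s hs hsδ
  -- the constant
  have hc : (2 / (Fintype.card (normSqGroup F t) : ℝ)) = 4 / (Module.finrank F K : ℝ) := by
    rw [← hcard, ← Nat.card_eq_fintype_card]
    have hpos : (0 : ℝ) < (Nat.card (normSqGroup F t) : ℝ) := by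
      exact_mod_cast Nat.card_pos
    push_cast
    field_simp
    ring
  rw [hc] at h1
  -- split the sum over the primes of `F`
  have hsX : ∀ u : normSqGroup F t, Summable (fun 𝔮 : HeightOneSpectrum (𝓞 F) =>
      if 𝔮.asIdeal ⊔ Ideal.span {(t : 𝓞 F)} = ⊤ ∧ clsT F t 𝔮.asIdeal = u
        then normWeight F s 𝔮.asIdeal else 0) := by
    intro u
    refine Summable.of_nonneg_of_le (fun 𝔮 => ?_) (fun 𝔮 => ?_)
      (Fermat.Agent.FrobDensity.summable_normWeight_prime F hs)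
    · split_ifs
      · exact Fermat.Agent.FrobDensity.normWeight_nonneg s _
      · exact le_rfl
    · split_ifs
      · exact le_rfl
      · exact Fermat.Agent.FrobDensity.normWeight_nonneg s _
  have h1a : (4 / (Module.finrank F K : ℝ)) * Real.log (1 / (s - 1)) - B ≤
      ∑' 𝔮 : HeightOneSpectrum (𝓞 F),
        ((if 𝔮.asIdeal ⊔ Ideal.span {(t : 𝓞 F)} = ⊤ ∧ clsT F t 𝔮.asIdeal = ⟨a ^ 2, ha2⟩
            then normWeight F s 𝔮.asIdeal else 0) +
          (if 𝔮.asIdeal ⊔ Ideal.span {(t : 𝓞 F)} = ⊤ ∧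
              clsT F t 𝔮.asIdeal = (⟨a ^ 2, ha2⟩ : normSqGroup F t)⁻¹
            then normWeight F s 𝔮.asIdeal else 0)) := by
    refine le_of_le_of_eq h1 ?_
    refine tsum_congr fun 𝔮 => ?_
    congr
  rw [(hsX _).tsum_add (hsX _)] at h1a
  have hX := cd_class_tsum_le hC1 F ht ⟨a ^ 2, ha2⟩ hs
  have hY := cd_class_tsum_le hC1 F ht (⟨a ^ 2, ha2⟩ : normSqGroup F t)⁻¹ hs
  have hhigh := Fermat.Agent.FrobDensity.highSum_le F hs
  have hsplit := cd_tsum_add F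
    (fun n => ((n : ℕ) : ZMod t) ^ 2 = ((a : (ZMod t)ˣ) : ZMod t) ^ 2)
    (fun n => ((n : ℕ) : ZMod t) ^ 2 = ((a⁻¹ : (ZMod t)ˣ) : ZMod t) ^ 2) hs
  have e1 : (((⟨a ^ 2, ha2⟩ : normSqGroup F t) : (ZMod t)ˣ) : ZMod t)
      = ((a : (ZMod t)ˣ) : ZMod t) ^ 2 := by
    rw [← Units.val_pow_eq_pow_val]
  have e2 : ((((⟨a ^ 2, ha2⟩ : normSqGroup F t)⁻¹ : normSqGroup F t) : (ZMod t)ˣ) : ZMod t)
      = ((a⁻¹ : (ZMod t)ˣ) : ZMod t) ^ 2 := by
    rw [← Units.val_pow_eq_pow_val, inv_pow]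
    rfl
  rw [e1] at hX
  rw [e2] at hY
  have hgoal : (∑' p : Nat.Primes,
      ((if (((p : ℕ) : ZMod t)) ^ 2 = ((a : (ZMod t)ˣ) : ZMod t) ^ 2
          then (idealCount F p : ℝ) else 0) +
        (if (((p : ℕ) : ZMod t)) ^ 2 = ((a⁻¹ : (ZMod t)ˣ) : ZMod t) ^ 2
          then (idealCount F p : ℝ) else 0)) * ((p : ℕ) : ℝ) ^ (-s))
      = ∑' p : Nat.Primes,
      ((if (((p : ℕ) : ZMod t)) ^ 2 = ((a : (ZMod t)ˣ) : ZMod t) ^ 2
          then (idealCount F p : ℝ) else 0) +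
        (if (((p : ℕ) : ZMod t)) ^ 2 = ((a⁻¹ : (ZMod t)ˣ) : ZMod t) ^ 2
          then (idealCount F p : ℝ) else 0)) * ((p : ℕ) : ℝ) ^ (-s) := rfl
  have hfinal : (∑' p : Nat.Primes,
      ((if (((p : ℕ) : ZMod t)) ^ 2 = ((a : (ZMod t)ˣ) : ZMod t) ^ 2
          then (idealCount F p : ℝ) else 0) +
        (if (((p : ℕ) : ZMod t)) ^ 2 = ((a⁻¹ : (ZMod t)ˣ) : ZMod t) ^ 2
          then (idealCount F p : ℝ) else 0)) * ((p : ℕ) : ℝ) ^ (-s))
      = (∑' p : Nat.Primes,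
        (if (((p : ℕ) : ZMod t)) ^ 2 = ((a : (ZMod t)ˣ) : ZMod t) ^ 2
          then (idealCount F p : ℝ) else 0) * ((p : ℕ) : ℝ) ^ (-s)) +
      (∑' p : Nat.Primes,
        (if (((p : ℕ) : ZMod t)) ^ 2 = ((a⁻¹ : (ZMod t)ˣ) : ZMod t) ^ 2
          then (idealCount F p : ℝ) else 0) * ((p : ℕ) : ℝ) ^ (-s)) := by
    refine Eq.trans ?_ (Eq.trans hsplit ?_)
    · refine tsum_congr fun p => ?_
      congr
    · congr 1
      · refine tsum_congr fun p => ?_
        congr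
      · refine tsum_congr fun p => ?_
        congr
  have hX' : (∑' 𝔮 : HeightOneSpectrum (𝓞 F),
      if 𝔮.asIdeal ⊔ Ideal.span {(t : 𝓞 F)} = ⊤ ∧ clsT F t 𝔮.asIdeal = ⟨a ^ 2, ha2⟩
        then normWeight F s 𝔮.asIdeal else 0) ≤
      (∑' p : Nat.Primes,
        (if (((p : ℕ) : ZMod t)) ^ 2 = ((a : (ZMod t)ˣ) : ZMod t) ^ 2
          then (idealCount F p : ℝ) else 0) * ((p : ℕ) : ℝ) ^ (-s)) + highSum F s := by
    refine le_of_eq_of_le ?_ (le_of_le_of_eq hX ?_)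
    · refine tsum_congr fun 𝔮 => ?_
      congr
    · congr 1
  have hY' : (∑' 𝔮 : HeightOneSpectrum (𝓞 F),
      if 𝔮.asIdeal ⊔ Ideal.span {(t : 𝓞 F)} = ⊤ ∧
          clsT F t 𝔮.asIdeal = (⟨a ^ 2, ha2⟩ : normSqGroup F t)⁻¹
        then normWeight F s 𝔮.asIdeal else 0) ≤
      (∑' p : Nat.Primes,
        (if (((p : ℕ) : ZMod t)) ^ 2 = ((a⁻¹ : (ZMod t)ˣ) : ZMod t) ^ 2
          then (idealCount F p : ℝ) else 0) * ((p : ℕ) : ℝ) ^ (-s)) + highSum F s := by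
    refine le_of_eq_of_le ?_ (le_of_le_of_eq hY ?_)
    · refine tsum_congr fun 𝔮 => ?_
      congr
    · congr 1
  have hmain : (4 / (Module.finrank F K : ℝ)) * Real.log (1 / (s - 1))
      - (B + 2 * ((Module.finrank ℚ F : ℝ) * ∑' n : ℕ, ((n : ℝ) ^ 2)⁻¹)) ≤
      ∑' p : Nat.Primes,
      ((if (((p : ℕ) : ZMod t)) ^ 2 = ((a : (ZMod t)ˣ) : ZMod t) ^ 2
          then (idealCount F p : ℝ) else 0) +
        (if (((p : ℕ) : ZMod t)) ^ 2 = ((a⁻¹ : (ZMod t)ˣ) : ZMod t) ^ 2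
          then (idealCount F p : ℝ) else 0)) * ((p : ℕ) : ℝ) ^ (-s) := by
    rw [hfinal]
    have h1' : (4 / (Module.finrank F K : ℝ)) * Real.log (1 / (s - 1)) - B ≤
        (∑' 𝔮 : HeightOneSpectrum (𝓞 F),
          if 𝔮.asIdeal ⊔ Ideal.span {(t : 𝓞 F)} = ⊤ ∧ clsT F t 𝔮.asIdeal = ⟨a ^ 2, ha2⟩
            then normWeight F s 𝔮.asIdeal else 0) +
        (∑' 𝔮 : HeightOneSpectrum (𝓞 F),
          if 𝔮.asIdeal ⊔ Ideal.span {(t : 𝓞 F)} = ⊤ ∧
              clsT F t 𝔮.asIdeal = (⟨a ^ 2, ha2⟩ : normSqGroup F t)⁻¹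
            then normWeight F s 𝔮.asIdeal else 0) := by
      exact h1a
    linarith
  refine le_of_le_of_eq hmain ?_
  refine tsum_congr fun p => ?_
  congr

end Fermat.Agent.S48Cheb
end MergeWrap_S48_Cheb_CycDensity

section MergeWrap_S48_Cheb_Crossing_Char -- from S48/Cheb/Crossing/Char.lean

/-!
# S48 P5 seat (D) crossing, part 1: the fixed field of `⟨σ⟩` and its cyclotomic character

`crsF E K σ = K^⟨σ⟩`; every element of `Gal(K/F)` is a power `σ ^ i`, and its cyclotomic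
character is `a ^ i` when `σ ζ = ζ ^ a`.
-/

set_option autoImplicit false

open NumberField IsDedekindDomain

namespace Fermat.Agent.S48Cheb

section

variable (E K : Type) [Field E] [Field K] [Algebra E K] [FiniteDimensional E K]

/-- The fixed field of `⟨σ⟩`. -/
noncomputable abbrev crsF (σ : K ≃ₐ[E] K) : IntermediateField E K :=
  IntermediateField.fixedField (Subgroup.zpowers σ)

variable {E K}

/-- Every element of `Gal(K/F)`, `F = K^⟨σ⟩`, is a power of `σ`. -/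
theorem crs_exists_pow (σ : K ≃ₐ[E] K) (τ : K ≃ₐ[crsF E K σ] K) :
    ∃ i : ℕ, τ.restrictScalars E = σ ^ i := by
  have hmem : τ.restrictScalars E ∈ (crsF E K σ).fixingSubgroup := by
    rw [IntermediateField.mem_fixingSubgroup_iff]
    intro x hx
    exact τ.commutes ⟨x, hx⟩
  rw [IntermediateField.fixingSubgroup_fixedField] at hmem
  have hfin : IsOfFinOrder σ := isOfFinOrder_of_finite σ
  rw [← mem_powers_iff_mem_zpowers, Submonoid.mem_powers_iff] at hmem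
  obtain ⟨i, hi⟩ := hmem
  exact ⟨i, hi.symm⟩

/-- `σ ^ i` as an element of `Gal(K/F)`. -/
noncomputable def crsPow (σ : K ≃ₐ[E] K) (i : ℕ) : K ≃ₐ[crsF E K σ] K :=
  (crsF E K σ).fixingSubgroupEquiv ⟨σ ^ i, by
    rw [IntermediateField.fixingSubgroup_fixedField]
    exact Subgroup.pow_mem _ (Subgroup.mem_zpowers σ) i⟩

theorem crsPow_restrictScalars (σ : K ≃ₐ[E] K) (i : ℕ) :
    (crsPow σ i).restrictScalars E = σ ^ i := by
  ext x
  rfl

theorem crsPow_apply (σ : K ≃ₐ[E] K) (i : ℕ) (x : K) : crsPow σ i x = (σ ^ i) x := rfl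

omit [FiniteDimensional E K] in
theorem crs_eq_of_restrictScalars (σ : K ≃ₐ[E] K) {τ τ' : K ≃ₐ[crsF E K σ] K}
    (h : τ.restrictScalars E = τ'.restrictScalars E) : τ = τ' := by
  ext x
  have := congrArg (fun f : K ≃ₐ[E] K => f x) h
  exact this

end

section char

variable {E K : Type} [Field E] [Field K] [Algebra E K] [FiniteDimensional E K]
  {t : ℕ} [NeZero t] {ζ : K} (hζ : IsPrimitiveRoot ζ t)

include hζ

omit [FiniteDimensional E K] [NeZero t] in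
theorem crs_pow_apply_zeta {σ : K ≃ₐ[E] K} {a : (ZMod t)ˣ}
    (hσ : σ ζ = ζ ^ ((a : (ZMod t)ˣ) : ZMod t).val) (i : ℕ) :
    (σ ^ i) ζ = ζ ^ (((a ^ i : (ZMod t)ˣ) : (ZMod t)ˣ) : ZMod t).val := by
  induction i with
  | zero =>
    simp only [pow_zero, AlgEquiv.one_apply, Units.val_one]
    rw [ZMod.val_one_eq_one_mod, ← pow_eq_pow_mod 1 hζ.pow_eq_one, pow_one]
  | succ i ih =>
    rw [pow_succ', AlgEquiv.mul_apply, ih, map_pow, hσ, ← pow_mul]
    have h1 : (((a ^ (i + 1) : (ZMod t)ˣ) : (ZMod t)ˣ) : ZMod t) =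
        ((a : (ZMod t)ˣ) : ZMod t) * (((a ^ i : (ZMod t)ˣ) : (ZMod t)ˣ) : ZMod t) := by
      rw [pow_succ', Units.val_mul]
    rw [h1, ZMod.val_mul, ← pow_eq_pow_mod _ hζ.pow_eq_one]

omit [FiniteDimensional E K] in
/-- The cyclotomic character of `τ ∈ Gal(K/F)` with `τ = σ ^ i` is `a ^ i`. -/
theorem crs_autToPow_eq {σ : K ≃ₐ[E] K} {a : (ZMod t)ˣ}
    (hσ : σ ζ = ζ ^ ((a : (ZMod t)ˣ) : ZMod t).val) (τ : K ≃ₐ[crsF E K σ] K) (i : ℕ)
    (hτ : τ.restrictScalars E = σ ^ i) :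
    hζ.autToPow (crsF E K σ) τ = a ^ i := by
  have h1 : τ ζ = (σ ^ i) ζ := by
    rw [← hτ]
    rfl
  have h2 := hζ.autToPow_spec (crsF E K σ) τ
  rw [h1, crs_pow_apply_zeta hζ hσ i] at h2
  have h3 := hζ.pow_inj (ZMod.val_lt _) (ZMod.val_lt _) h2
  exact Units.ext (ZMod.val_injective t h3)

end char

end Fermat.Agent.S48Cheb
end MergeWrap_S48_Cheb_Crossing_Char

section MergeWrap_S48_Cheb_Crossing_Pointwise -- from S48/Cheb/Crossing/Pointwise.lean

/-!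
# S48 P5 seat (D) crossing, part 2: the Frobenius of a prime of degree one of `F = K^⟨σ⟩`
-/

set_option autoImplicit false

open NumberField IsDedekindDomain

namespace Fermat.Agent.S48Cheb

section

variable {E L K : Type} [Field E] [NumberField E] [Field L] [NumberField L] [Field K]
  [NumberField K] [Algebra E L] [Algebra L K] [Algebra E K] [IsScalarTower E L K] [IsGalois E L]
  [IsGalois E K]

/-- In `(ℤ/t)ˣ` (`t` prime), `x² = y²` implies `x = y` or `x = -y`. -/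
theorem crs_sq_eq_sq {t : ℕ} (ht : t.Prime) {x y : ZMod t} (h : x ^ 2 = y ^ 2) :
    x = y ∨ x = -y := by
  haveI : Fact t.Prime := ⟨ht⟩
  exact sq_eq_sq_iff_eq_or_eq_neg.mp h

/-- `a ^ i = a ^ k` implies `σ ^ i = σ ^ k` when `a ^ j = 1 → σ ^ j = 1`. -/
theorem crs_pow_eq {G H : Type*} [Group G] [Group H] {a : G} {σ : H}
    (h1 : ∀ j : ℕ, a ^ j = 1 → σ ^ j = 1) {i k : ℕ} (h : a ^ i = a ^ k) : σ ^ i = σ ^ k := by
  have hdvd : orderOf σ ∣ orderOf a := orderOf_dvd_of_pow_eq_one (h1 _ (pow_orderOf_eq_one a))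
  rw [pow_eq_pow_iff_modEq] at h ⊢
  exact h.of_dvd hdvd

/-- The key pointwise step: a prime `𝔓` of `F = K^⟨σ⟩` of prime norm `p` with
`p² ≡ (a^k)² mod t` lies over a prime `𝔮` of `E` of norm `p` at which `(σ|_L)^k` is a
Frobenius. -/
theorem crs_frob_of_prime (hC2 : CycArtin) {t : ℕ} (ht : t.Prime) {ζ : K}
    (hζ : IsPrimitiveRoot ζ t) (σ : K ≃ₐ[E] K) (a : (ZMod t)ˣ)
    (hσ : σ ζ = ζ ^ ((a : (ZMod t)ˣ) : ZMod t).val)
    (h1 : ∀ j : ℕ, a ^ j = 1 → σ ^ j = 1)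
    (j : ℕ) (hj : a ^ j = -1) (hjL : AlgEquiv.restrictNormalHom L (σ ^ j) = 1)
    {p : ℕ} (hp : p.Prime) (𝔓 : Ideal (𝓞 (crsF E K σ))) (h𝔓 : Ideal.absNorm 𝔓 = p) (k : ℕ)
    (hpa : ((p : ℕ) : ZMod t) ^ 2 = (((a ^ k : (ZMod t)ˣ) : (ZMod t)ˣ) : ZMod t) ^ 2) :
    Ideal.absNorm (𝔓.under (𝓞 E)) = p ∧
    ∃ P : Ideal (𝓞 L), P.IsPrime ∧ P.LiesOver (𝔓.under (𝓞 E)) ∧
      ∀ x : 𝓞 L, ((AlgEquiv.restrictNormalHom L σ) ^ k) • x - x ^ p ∈ P := by
  haveI : NeZero t := ⟨ht.ne_zero⟩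
  haveI : Fact t.Prime := ⟨ht⟩
  have h𝔓prime : 𝔓.IsPrime := FrobDensity.isPrime_of_absNorm_eq_prime hp h𝔓
  have h𝔓0 : 𝔓 ≠ ⊥ := by
    rintro rfl
    rw [Ideal.absNorm_bot] at h𝔓
    exact hp.ne_zero h𝔓.symm
  have h𝔓max : 𝔓.IsMaximal := h𝔓prime.isMaximal h𝔓0
  obtain ⟨Pt, hPtmax, hPtover⟩ :=
    Ideal.exists_maximal_ideal_liesOver_of_isIntegral (S := 𝓞 K) 𝔓
  have hPt : Pt.IsPrime := hPtmax.isPrime
  have hPt𝔓 : Pt.under (𝓞 (crsF E K σ)) = 𝔓 := hPtover.over.symm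
  have hPt0 : Pt ≠ ⊥ := Ideal.ne_bot_of_liesOver_of_ne_bot h𝔓0 Pt
  have : Finite (𝓞 K ⧸ Pt) := Ideal.finiteQuotientOfFreeOfNeBot Pt hPt0
  obtain ⟨φ, hφ⟩ := IsArithFrobAt.exists_of_isInvariant (𝓞 (crsF E K σ))
    (K ≃ₐ[crsF E K σ] K) Pt
  have hcard : Nat.card (𝓞 (crsF E K σ) ⧸ 𝔓) = p := by
    rw [← h𝔓, Ideal.absNorm_apply, Submodule.cardQuot_apply]
  have hφ' : ∀ x : 𝓞 K, φ • x - x ^ p ∈ Pt := by
    intro x
    have h := hφ x
    rw [hPt𝔓, hcard] at h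
    exact h
  -- `t ∉ Pt`
  have hpt : ¬ t ∣ p := by
    intro hdvd
    have h0 : ((p : ℕ) : ZMod t) = 0 := (ZMod.natCast_eq_zero_iff p t).mpr hdvd
    rw [h0] at hpa
    have hne : (((a ^ k : (ZMod t)ˣ) : (ZMod t)ˣ) : ZMod t) ^ 2 ≠ 0 :=
      pow_ne_zero _ (Units.ne_zero _)
    exact hne (by rw [← hpa]; ring)
  have hpPt : (p : 𝓞 K) ∈ Pt := by
    have h1' : (p : 𝓞 (crsF E K σ)) ∈ 𝔓 := FrobDensity.natCast_mem_of_absNorm_eq h𝔓
    rw [← hPt𝔓, Ideal.under_def, Ideal.mem_comap] at h1'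
    simpa using h1'
  have htPt : (t : 𝓞 K) ∉ Pt := by
    intro htm
    have hcop : Nat.Coprime p t :=
      (Nat.coprime_primes hp ht).mpr (fun h => hpt (h ▸ dvd_rfl))
    obtain ⟨u, v, huv⟩ := Nat.Coprime.isCoprime hcop
    have h3 : (((u * (p : ℤ) + v * (t : ℤ) : ℤ)) : 𝓞 K) = 1 := by
      rw [huv]
      simp
    have h4 : (1 : 𝓞 K) ∈ Pt := by
      rw [← h3]
      push_cast
      exact Pt.add_mem (Pt.mul_mem_left _ hpPt) (Pt.mul_mem_left _ htm)
    exact hPt.ne_top ((Ideal.eq_top_iff_one _).mpr h4)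
  -- the cyclotomic character of `φ`
  have hχ : ((p : ℕ) : ZMod t) = ((hζ.autToPow (crsF E K σ) φ : (ZMod t)ˣ) : ZMod t) := by
    have h := hC2 (crsF E K σ) K t ht ζ hζ Pt hPt htPt φ p
      ((hζ.autToPow (crsF E K σ) φ : (ZMod t)ˣ) : ZMod t).val hφ'
      (hζ.autToPow_spec (crsF E K σ) φ).symm
    rw [h, ZMod.natCast_zmod_val]
  obtain ⟨i, hi⟩ := crs_exists_pow σ φ
  have hχi := crs_autToPow_eq hζ hσ φ i hi
  rw [hχi] at hχ
  rw [hχ] at hpa
  have hcases := crs_sq_eq_sq ht hpa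
  have hres : AlgEquiv.restrictNormalHom L (σ ^ i) = (AlgEquiv.restrictNormalHom L σ) ^ k := by
    rcases hcases with h | h
    · have h' : a ^ i = a ^ k := Units.ext h
      rw [crs_pow_eq h1 h', map_pow]
    · have h' : a ^ i = a ^ (k + j) := by
        apply Units.ext
        rw [h, pow_add, hj]
        simp
      rw [crs_pow_eq h1 h', pow_add, map_mul, hjL, mul_one, map_pow]
  refine ⟨(FrobDensity.absNorm_under_and_inertiaDeg E (crsF E K σ) hp h𝔓).1,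
    Pt.under (𝓞 L), Ideal.IsPrime.under (𝓞 L) Pt, ?_, ?_⟩
  · constructor
    rw [← hPt𝔓, Ideal.under_under, Ideal.under_under]
  · intro x
    rw [Ideal.under_def, Ideal.mem_comap, ← hres]
    have hcomm : ∀ y : L, algebraMap L K ((AlgEquiv.restrictNormalHom L (σ ^ i)) y) =
        φ (algebraMap L K y) := by
      intro y
      rw [← hi]
      exact AlgEquiv.restrictNormal_commutes _ L y
    generalize AlgEquiv.restrictNormalHom L (σ ^ i) = g' at hcomm ⊢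
    have h5 := hφ' (algebraMap (𝓞 L) (𝓞 K) x)
    have h6 : algebraMap (𝓞 L) (𝓞 K) (g' • x - x ^ p) =
        φ • (algebraMap (𝓞 L) (𝓞 K) x) - (algebraMap (𝓞 L) (𝓞 K) x) ^ p := by
      apply RingOfIntegers.ext
      change algebraMap L K ((g' (x : L)) - (x : L) ^ p) =
        φ (algebraMap L K (x : L)) - (algebraMap L K (x : L)) ^ p
      rw [map_sub, map_pow, hcomm]
    rw [h6]
    exact h5

end

end Fermat.Agent.S48Cheb
end MergeWrap_S48_Cheb_Crossing_Pointwise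

section MergeWrap_S48_Cheb_Crossing_Count -- from S48/Cheb/Crossing/Count.lean

/-!
# S48 P5 seat (D) crossing, part 3: counting

`idealCount F p ≤ [F : E] * frobCount E L (g ^ k) p` for `F = K^⟨σ⟩`, `g = σ|_L`, when
`p² ≡ (a^k)² mod t`.
-/

set_option autoImplicit false

open NumberField IsDedekindDomain

namespace Fermat.Agent.S48Cheb

open Fermat.Agent.FrobDensity (normWeight idealCount)

theorem crs_finite_fibre (E F : Type) [Field E] [NumberField E] [Field F] [NumberField F]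
    [Algebra E F] (p : ℕ) (𝔮 : Ideal (𝓞 E)) :
    Finite {𝔓 : Ideal (𝓞 F) // Ideal.absNorm 𝔓 = p ∧ 𝔓.under (𝓞 E) = 𝔮} := by
  have h0 : Finite {𝔓 : Ideal (𝓞 F) // Ideal.absNorm 𝔓 = p} :=
    Ideal.finite_setOfPred_absNorm_eq p
  exact Finite.of_injective
      (fun y : {𝔓 : Ideal (𝓞 F) // Ideal.absNorm 𝔓 = p ∧ 𝔓.under (𝓞 E) = 𝔮} =>
        (⟨y.1, y.2.1⟩ : {𝔓 : Ideal (𝓞 F) // Ideal.absNorm 𝔓 = p}))
      (fun a b h => Subtype.ext (congrArg (fun z : {𝔓 : Ideal (𝓞 F) // Ideal.absNorm 𝔓 = p} => z.1) h))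

/-- At most `[F : E]` ideals of `𝓞 F` of norm `p` lie over a given ideal of `𝓞 E`. -/
theorem crs_card_fibre_le (E F : Type) [Field E] [NumberField E] [Field F] [NumberField F]
    [Algebra E F] {p : ℕ} (hp : p.Prime) (𝔮 : Ideal (𝓞 E)) (h𝔮 : Ideal.absNorm 𝔮 = p) :
    Nat.card {𝔓 : Ideal (𝓞 F) // Ideal.absNorm 𝔓 = p ∧ 𝔓.under (𝓞 E) = 𝔮} ≤
      Module.finrank E F := by
  classical
  have hfin := crs_finite_fibre E F p 𝔮
  letI := Fintype.ofFinite {𝔓 : Ideal (𝓞 F) // Ideal.absNorm 𝔓 = p ∧ 𝔓.under (𝓞 E) = 𝔮}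
  have hne : ∀ {R : Type} [CommRing R] [IsDedekindDomain R] [Module.Free ℤ R] [Module.Finite ℤ R]
      (I : Ideal R), Ideal.absNorm I = p → I ≠ ⊥ := by
    intro R _ _ _ _ I hI hbot
    rw [hbot, Ideal.absNorm_bot] at hI
    exact hp.ne_zero hI.symm
  let 𝔮' : HeightOneSpectrum (𝓞 E) :=
    ⟨𝔮, FrobDensity.isPrime_of_absNorm_eq_prime hp h𝔮, hne 𝔮 h𝔮⟩
  let f : {𝔓 : Ideal (𝓞 F) // Ideal.absNorm 𝔓 = p ∧ 𝔓.under (𝓞 E) = 𝔮} →
      HeightOneSpectrum (𝓞 F) :=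
    fun 𝔓 => ⟨𝔓.1, FrobDensity.isPrime_of_absNorm_eq_prime hp 𝔓.2.1, hne 𝔓.1 𝔓.2.1⟩
  have hf : Function.Injective f := by
    intro x y hxy
    apply Subtype.ext
    exact congrArg HeightOneSpectrum.asIdeal hxy
  have hT : ∀ 𝔔 ∈ Finset.univ.image f, 𝔔.under (𝓞 E) = 𝔮' := by
    intro 𝔔 h𝔔
    obtain ⟨x, -, rfl⟩ := Finset.mem_image.mp h𝔔
    apply HeightOneSpectrum.ext
    exact x.2.2
  have h1 := S14An.p7_card_fiber_le E F 𝔮' (Finset.univ.image f) hT
  rw [Finset.card_image_of_injective _ hf, Finset.card_univ] at h1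
  rwa [Nat.card_eq_fintype_card]

/-- A map between finite types with fibres of size `≤ n`. -/
theorem crs_card_le_mul {X Y : Type*} [Finite X] [Finite Y] (π : X → Y) (n : ℕ)
    (h : ∀ y : Y, Nat.card {x : X // π x = y} ≤ n) : Nat.card X ≤ n * Nat.card Y := by
  classical
  letI := Fintype.ofFinite Y
  rw [Nat.card_congr (Equiv.sigmaFiberEquiv π).symm, Nat.card_sigma]
  calc ∑ y : Y, Nat.card {x : X // π x = y} ≤ ∑ _y : Y, n := Finset.sum_le_sum fun y _ => h y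
    _ = n * Nat.card Y := by
      rw [Finset.sum_const, Finset.card_univ, smul_eq_mul, Nat.card_eq_fintype_card, mul_comm]

section

variable {E L K : Type} [Field E] [NumberField E] [Field L] [NumberField L] [Field K]
  [NumberField K] [Algebra E L] [Algebra L K] [Algebra E K] [IsScalarTower E L K] [IsGalois E L]
  [IsGalois E K]

omit [NumberField L] [IsGalois E L] in
theorem crs_finite_frob (g : L ≃ₐ[E] L) (p : ℕ) :
    Finite {𝔮 : Ideal (𝓞 E) // Ideal.absNorm 𝔮 = p ∧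
      ∃ P : Ideal (𝓞 L), P.IsPrime ∧ P.LiesOver 𝔮 ∧ ∀ x : 𝓞 L, g • x - x ^ p ∈ P} := by
  have h0 : Finite {𝔮 : Ideal (𝓞 E) // Ideal.absNorm 𝔮 = p} :=
    Ideal.finite_setOfPred_absNorm_eq p
  exact Finite.of_injective
    (fun y : {𝔮 : Ideal (𝓞 E) // Ideal.absNorm 𝔮 = p ∧
      ∃ P : Ideal (𝓞 L), P.IsPrime ∧ P.LiesOver 𝔮 ∧ ∀ x : 𝓞 L, g • x - x ^ p ∈ P} =>
        (⟨y.1, y.2.1⟩ : {𝔮 : Ideal (𝓞 E) // Ideal.absNorm 𝔮 = p}))
    (fun a b h => Subtype.ext (congrArg (fun z : {𝔮 : Ideal (𝓞 E) // Ideal.absNorm 𝔮 = p} => z.1) h))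

omit [IsGalois E L] in
/-- `frobCount E L g p ≤ idealCount E p`. -/
theorem crs_frobCount_le (g : L ≃ₐ[E] L) (p : ℕ) : frobCount E L g p ≤ idealCount E p := by
  have h0 : Finite {𝔮 : Ideal (𝓞 E) // Ideal.absNorm 𝔮 = p} :=
    Ideal.finite_setOfPred_absNorm_eq p
  exact Nat.card_le_card_of_injective
    (fun y : {𝔮 : Ideal (𝓞 E) // Ideal.absNorm 𝔮 = p ∧
      ∃ P : Ideal (𝓞 L), P.IsPrime ∧ P.LiesOver 𝔮 ∧ ∀ x : 𝓞 L, g • x - x ^ p ∈ P} =>
        (⟨y.1, y.2.1⟩ : {𝔮 : Ideal (𝓞 E) // Ideal.absNorm 𝔮 = p}))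
    (fun a b h => Subtype.ext (congrArg (fun z : {𝔮 : Ideal (𝓞 E) // Ideal.absNorm 𝔮 = p} => z.1) h))

/-- The pointwise inequality of the crossing. -/
theorem crs_idealCount_le (hC2 : CycArtin) {t : ℕ} (ht : t.Prime) {ζ : K}
    (hζ : IsPrimitiveRoot ζ t) (σ : K ≃ₐ[E] K) (a : (ZMod t)ˣ)
    (hσ : σ ζ = ζ ^ ((a : (ZMod t)ˣ) : ZMod t).val)
    (h1 : ∀ j : ℕ, a ^ j = 1 → σ ^ j = 1)
    (j : ℕ) (hj : a ^ j = -1) (hjL : AlgEquiv.restrictNormalHom L (σ ^ j) = 1)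
    {p : ℕ} (hp : p.Prime) (k : ℕ)
    (hpa : ((p : ℕ) : ZMod t) ^ 2 = (((a ^ k : (ZMod t)ˣ) : (ZMod t)ˣ) : ZMod t) ^ 2) :
    idealCount (crsF E K σ) p ≤
      Module.finrank E (crsF E K σ) * frobCount E L ((AlgEquiv.restrictNormalHom L σ) ^ k) p := by
  classical
  unfold idealCount frobCount
  have hX : Finite {I : Ideal (𝓞 (crsF E K σ)) // Ideal.absNorm I = p} :=
    Ideal.finite_setOfPred_absNorm_eq p
  have hY := crs_finite_frob (E := E) (L := L) ((AlgEquiv.restrictNormalHom L σ) ^ k) p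
  let π : {I : Ideal (𝓞 (crsF E K σ)) // Ideal.absNorm I = p} →
      {𝔮 : Ideal (𝓞 E) // Ideal.absNorm 𝔮 = p ∧
        ∃ P : Ideal (𝓞 L), P.IsPrime ∧ P.LiesOver 𝔮 ∧
          ∀ x : 𝓞 L, ((AlgEquiv.restrictNormalHom L σ) ^ k) • x - x ^ p ∈ P} :=
    fun 𝔓 => ⟨𝔓.1.under (𝓞 E),
      crs_frob_of_prime hC2 ht hζ σ a hσ h1 j hj hjL hp 𝔓.1 𝔓.2 k hpa⟩
  refine crs_card_le_mul π _ fun y => ?_
  refine le_trans ?_ (crs_card_fibre_le E (crsF E K σ) hp y.1 y.2.1)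
  have hfib := crs_finite_fibre E (crsF E K σ) p y.1
  refine Nat.card_le_card_of_injective
    (fun x : {x // π x = y} => (⟨x.1.1, x.1.2, congrArg Subtype.val x.2⟩ :
      {𝔓 : Ideal (𝓞 (crsF E K σ)) // Ideal.absNorm 𝔓 = p ∧ 𝔓.under (𝓞 E) = y.1})) ?_
  intro x x' hxx'
  apply Subtype.ext
  apply Subtype.ext
  exact congrArg (fun z : {𝔓 : Ideal (𝓞 (crsF E K σ)) //
    Ideal.absNorm 𝔓 = p ∧ 𝔓.under (𝓞 E) = y.1} => z.1) hxx'

end

end Fermat.Agent.S48Cheb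
end MergeWrap_S48_Cheb_Crossing_Count

section MergeWrap_S48_Cheb_Crossing -- from S48/Cheb/Crossing.lean

/-!
# S48 P5 seat (D): crossing (helper23)

`F = IntermediateField.fixedField (Subgroup.zpowers σ) ⊆ K` (over `E`), `Gal(K/F) ≅ ⟨σ⟩`,
`χ_F` = the cyclotomic character of `Gal(K/F)` (`IsPrimitiveRoot.autToPow F hζ`), injective by
`h1`, `-1` and `a` in its image by `h2`/`σ`.  `[K:F] [F:E] = [K:E]`.
(C) gives `LowerSharp (w_F) (4/[K:F])`,
`w_F p = [p² = a²] idealCount F p + [p² = a⁻²] idealCount F p`.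
Pointwise (`crs_idealCount_le`): `idealCount F p ≤ [F:E] * frobCount E L (g ^ k) p` when
`p² = (a ^ k)²` (`p` prime): a prime `𝔓` of `𝓞 F` of norm `p` lies over `𝔮 = 𝔓 ∩ 𝓞 E` of norm `p`;
a Frobenius `φ ∈ Gal(K/F)` at a prime `P̃` of `𝓞 K` above `𝔓` has `χ φ = p = ± a ^ k` (C2), so
`φ ∈ {σ ^ k, σ ^ (k + j)}` and `φ|_L = g ^ k`; restricting the congruence to `𝓞 L`, `g ^ k` is a
Frobenius at `P̃ ∩ 𝓞 L` over `𝔮`.  The map `𝔓 ↦ 𝔮` has fibres of size `≤ [F:E]`.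
-/

set_option autoImplicit false

open NumberField IsDedekindDomain

namespace Fermat.Agent.S48Cheb

open Fermat.Agent.FrobDensity (normWeight idealCount)

/-- Monotonicity of weighted prime sums. -/
theorem crs_tsum_le {w w' : Nat.Primes → ℝ} (hw : ∃ B : ℝ, ∀ p, |w p| ≤ B)
    (hw' : ∃ B : ℝ, ∀ p, |w' p| ≤ B) (n : ℝ) (h : ∀ p, w p ≤ n * w' p) {s : ℝ} (hs : 1 < s) :
    ∑' p : Nat.Primes, w p * ((p : ℕ) : ℝ) ^ (-s) ≤
      n * ∑' p : Nat.Primes, w' p * ((p : ℕ) : ℝ) ^ (-s) := by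
  rw [← tsum_mul_left]
  refine Summable.tsum_le_tsum (fun p => ?_) (FrobDensity.summable_weight_mul_rpow hw hs)
    ((FrobDensity.summable_weight_mul_rpow hw' hs).mul_left n)
  rw [← mul_assoc]
  exact mul_le_mul_of_nonneg_right (h p) (Real.rpow_nonneg (Nat.cast_nonneg _) _)

theorem crossing_of (hC : CycDensity) (hC2 : CycArtin) : Crossing := by
  intro E L K _ _ _ _ _ _ _ _ _ _ _ _ t ht ht2 ζ hζ σ a hσ h1 h2
  classical
  obtain ⟨j, hj, hjL⟩ := h2
  haveI : NeZero t := ⟨ht.ne_zero⟩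
  -- the cyclotomic character of `Gal(K/F)`
  have hχspec : ∀ τ : K ≃ₐ[crsF E K σ] K,
      τ ζ = ζ ^ ((hζ.autToPow (crsF E K σ) τ : (ZMod t)ˣ) : ZMod t).val :=
    fun τ => (hζ.autToPow_spec (crsF E K σ) τ).symm
  have hχinj : Function.Injective (hζ.autToPow (crsF E K σ)) := by
    rw [injective_iff_map_eq_one]
    intro τ hτ
    obtain ⟨i, hi⟩ := crs_exists_pow σ τ
    have h3 := crs_autToPow_eq hζ hσ τ i hi
    rw [hτ] at h3
    have hσi := h1 i h3.symm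
    apply crs_eq_of_restrictScalars σ
    rw [hi, hσi]
    rfl
  have hneg : ∃ τ, hζ.autToPow (crsF E K σ) τ = -1 :=
    ⟨crsPow σ j, by rw [crs_autToPow_eq hζ hσ _ j (crsPow_restrictScalars σ j), hj]⟩
  have ha : a ∈ Set.range (hζ.autToPow (crsF E K σ)) :=
    ⟨crsPow σ 1, by rw [crs_autToPow_eq hζ hσ _ 1 (crsPow_restrictScalars σ 1), pow_one]⟩
  obtain ⟨B, δ, hδ, hB⟩ := hC (crsF E K σ) K t ht ht2 ζ hζ (hζ.autToPow (crsF E K σ)) hχspec
    hχinj hneg a ha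
  -- degrees
  have hn0 : 0 < Module.finrank E (crsF E K σ) := Module.finrank_pos
  have hm0 : 0 < Module.finrank (crsF E K σ) K := Module.finrank_pos
  have hdeg : Module.finrank E (crsF E K σ) * Module.finrank (crsF E K σ) K =
      Module.finrank E K := Module.finrank_mul_finrank E (crsF E K σ) K
  -- the exponent of the inverse
  have hord : 0 < orderOf a := orderOf_pos a
  have hk : a ^ (orderOf a - 1) = a⁻¹ := by
    apply eq_inv_of_mul_eq_one_left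
    rw [← pow_succ, Nat.sub_add_cancel hord, pow_orderOf_eq_one]
  have hgk : (AlgEquiv.restrictNormalHom L σ) ^ (orderOf a - 1) =
      (AlgEquiv.restrictNormalHom L σ)⁻¹ := by
    apply eq_inv_of_mul_eq_one_left
    rw [← pow_succ, Nat.sub_add_cancel hord, ← map_pow, h1 _ (pow_orderOf_eq_one a), map_one]
  -- pointwise inequality
  have hpt : ∀ p : Nat.Primes,
      ((if (((p : ℕ) : ZMod t)) ^ 2 = ((a : (ZMod t)ˣ) : ZMod t) ^ 2
          then (idealCount (crsF E K σ) p : ℝ) else 0) +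
        (if (((p : ℕ) : ZMod t)) ^ 2 = ((a⁻¹ : (ZMod t)ˣ) : ZMod t) ^ 2
          then (idealCount (crsF E K σ) p : ℝ) else 0)) ≤
      (Module.finrank E (crsF E K σ) : ℝ) *
        ((if (((p : ℕ) : ZMod t)) ^ 2 = ((a : (ZMod t)ˣ) : ZMod t) ^ 2
          then (frobCount E L (AlgEquiv.restrictNormalHom L σ) p : ℝ) else 0) +
        (if (((p : ℕ) : ZMod t)) ^ 2 = ((a⁻¹ : (ZMod t)ˣ) : ZMod t) ^ 2
          then (frobCount E L (AlgEquiv.restrictNormalHom L σ)⁻¹ p : ℝ) else 0)) := by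
    intro p
    rw [mul_add]
    refine add_le_add ?_ ?_
    · split_ifs with h
      · have h' : ((p : ℕ) : ZMod t) ^ 2 = (((a ^ 1 : (ZMod t)ˣ) : (ZMod t)ˣ) : ZMod t) ^ 2 := by
          rw [pow_one]
          exact h
        have := crs_idealCount_le (L := L) hC2 ht hζ σ a hσ h1 j hj hjL p.2 1 h'
        rw [pow_one] at this
        exact_mod_cast this
      · simp
    · split_ifs with h
      · have h' : ((p : ℕ) : ZMod t) ^ 2 =
            (((a ^ (orderOf a - 1) : (ZMod t)ˣ) : (ZMod t)ˣ) : ZMod t) ^ 2 := by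
          rw [hk]
          exact h
        have := crs_idealCount_le (L := L) hC2 ht hζ σ a hσ h1 j hj hjL p.2 (orderOf a - 1) h'
        rw [hgk] at this
        exact_mod_cast this
      · simp
  -- boundedness of the weights
  have hbF : ∃ B' : ℝ, ∀ p : Nat.Primes,
      |((if (((p : ℕ) : ZMod t)) ^ 2 = ((a : (ZMod t)ˣ) : ZMod t) ^ 2
          then (idealCount (crsF E K σ) p : ℝ) else 0) +
        (if (((p : ℕ) : ZMod t)) ^ 2 = ((a⁻¹ : (ZMod t)ˣ) : ZMod t) ^ 2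
          then (idealCount (crsF E K σ) p : ℝ) else 0))| ≤ B' := by
    refine ⟨2 * Module.finrank ℚ (crsF E K σ), fun p => ?_⟩
    have h5 : (idealCount (crsF E K σ) p : ℝ) ≤ Module.finrank ℚ (crsF E K σ) := by
      exact_mod_cast FrobDensity.idealCount_le_finrank (K := crsF E K σ) p.2
    have h6 : (0 : ℝ) ≤ (idealCount (crsF E K σ) p : ℝ) := Nat.cast_nonneg _
    rw [abs_of_nonneg (by split_ifs <;> positivity)]
    split_ifs <;> linarith
  have hbE : ∃ B' : ℝ, ∀ p : Nat.Primes,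
      |((if (((p : ℕ) : ZMod t)) ^ 2 = ((a : (ZMod t)ˣ) : ZMod t) ^ 2
          then (frobCount E L (AlgEquiv.restrictNormalHom L σ) p : ℝ) else 0) +
        (if (((p : ℕ) : ZMod t)) ^ 2 = ((a⁻¹ : (ZMod t)ˣ) : ZMod t) ^ 2
          then (frobCount E L (AlgEquiv.restrictNormalHom L σ)⁻¹ p : ℝ) else 0))| ≤ B' := by
    refine ⟨2 * Module.finrank ℚ E, fun p => ?_⟩
    have h5 : ∀ g : L ≃ₐ[E] L, (frobCount E L g p : ℝ) ≤ Module.finrank ℚ E := by
      intro g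
      exact_mod_cast (crs_frobCount_le g p).trans
        (FrobDensity.idealCount_le_finrank (K := E) p.2)
    have h6 : ∀ g : L ≃ₐ[E] L, (0 : ℝ) ≤ (frobCount E L g p : ℝ) := fun g => Nat.cast_nonneg _
    have h7 := h5 (AlgEquiv.restrictNormalHom L σ)
    have h8 := h5 (AlgEquiv.restrictNormalHom L σ)⁻¹
    have h9 := h6 (AlgEquiv.restrictNormalHom L σ)
    have h10 := h6 (AlgEquiv.restrictNormalHom L σ)⁻¹
    rw [abs_of_nonneg (by split_ifs <;> positivity)]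
    split_ifs <;> linarith
  refine ⟨B / Module.finrank E (crsF E K σ), δ, hδ, fun s hs hs' => ?_⟩
  have h11 := hB s hs hs'
  have h12 := crs_tsum_le hbF hbE (Module.finrank E (crsF E K σ) : ℝ) hpt hs
  have hnR : (0 : ℝ) < (Module.finrank E (crsF E K σ) : ℝ) := by exact_mod_cast hn0
  have hmR : (0 : ℝ) < (Module.finrank (crsF E K σ) K : ℝ) := by exact_mod_cast hm0
  have hdegR : (Module.finrank E K : ℝ) =
      (Module.finrank E (crsF E K σ) : ℝ) * (Module.finrank (crsF E K σ) K : ℝ) := by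
    rw [← hdeg]
    push_cast
    ring
  have h13 := h11.trans h12
  rw [hdegR]
  have h14 : 4 / ((Module.finrank E (crsF E K σ) : ℝ) * (Module.finrank (crsF E K σ) K : ℝ)) *
      Real.log (1 / (s - 1)) - B / (Module.finrank E (crsF E K σ) : ℝ) =
      (4 / (Module.finrank (crsF E K σ) K : ℝ) * Real.log (1 / (s - 1)) - B) /
        (Module.finrank E (crsF E K σ) : ℝ) := by
    field_simp
  rw [h14, div_le_iff₀ hnR]
  exact h13.trans (le_of_eq (mul_comm _ _))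

end Fermat.Agent.S48Cheb
end MergeWrap_S48_Cheb_Crossing

section MergeWrap_S48_Cheb_CycField_Irred -- from S48/Cheb/CycField/Irred.lean

/-!
# S48 P5 seat (E), part 1: `Φ_t` is irreducible over a number field in which `t` is unramified

* `cf_exists_prime`: for a number field `L` and `M ≠ 0` there are a prime `t > 2`, `t ≡ 1 mod M`,
  and a prime `P` of `𝓞 L` with `t ∈ P`, `t ∉ P ^ 2`.
* `cf_irreducible_cyclotomic`: then `cyclotomic t L` is irreducible (Eisenstein at `P`).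
-/

set_option autoImplicit false

open NumberField Polynomial

namespace Fermat.Agent.S48Cheb

/-- A prime `t` outside the finite set of ramified primes, and a prime of `𝓞 L` over it. -/
theorem cf_exists_prime (L : Type) [Field L] [NumberField L] (M : ℕ) (hM : M ≠ 0) :
    ∃ t : ℕ, t.Prime ∧ t ≠ 2 ∧ t ≡ 1 [MOD M] ∧
      ∃ P : Ideal (𝓞 L), P.IsPrime ∧ (t : 𝓞 L) ∈ P ∧ (t : 𝓞 L) ∉ P ^ 2 := by
  classical
  have hfin := Fermat.Agent.FrobDensity.finite_ramified_int L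
  obtain ⟨B, hB⟩ : ∃ B : ℕ, ∀ p ∈ {p : ℕ | p.Prime ∧ ∃ P : Ideal (𝓞 L), P.IsPrime ∧
      (p : 𝓞 L) ∈ P ∧ P.ramificationIdx ℤ ≠ 1}, p ≤ B := by
    obtain ⟨B, hB⟩ := hfin.bddAbove
    exact ⟨B, fun p hp => hB hp⟩
  obtain ⟨t, ht, hgt, hmod⟩ := Nat.exists_prime_gt_modEq_one (max B 2) hM
  have ht2 : t ≠ 2 := by
    have := le_max_right B 2
    omega
  have htB : B < t := lt_of_le_of_lt (le_max_left B 2) hgt
  refine ⟨t, ht, ht2, hmod, ?_⟩
  -- a prime over `t`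
  have hpprime : (Ideal.span {(t : ℤ)}).IsPrime :=
    (Ideal.span_singleton_prime (by exact_mod_cast ht.ne_zero)).mpr (Nat.prime_iff_prime_int.mp ht)
  have hp0 : Ideal.span {(t : ℤ)} ≠ ⊥ := by
    rw [Ne, Ideal.span_singleton_eq_bot]
    exact_mod_cast ht.ne_zero
  obtain ⟨⟨P, hP, hPl⟩⟩ : Nonempty ((Ideal.span {(t : ℤ)}).primesOver (𝓞 L)) := inferInstance
  have htP : (t : 𝓞 L) ∈ P := by
    have h1 : (t : ℤ) ∈ Ideal.span {(t : ℤ)} := Ideal.mem_span_singleton_self _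
    rw [hPl.over] at h1
    simpa using h1
  refine ⟨P, hP, htP, fun hsq => ?_⟩
  have hram : P.ramificationIdx ℤ = 1 := by
    by_contra h
    have := hB t ⟨ht, P, hP, htP, h⟩
    omega
  have hmap : Ideal.map (algebraMap ℤ (𝓞 L)) (Ideal.span {(t : ℤ)}) = Ideal.span {(t : 𝓞 L)} := by
    rw [Ideal.map_span, Set.image_singleton]
    simp
  have hle : Ideal.map (algebraMap ℤ (𝓞 L)) (Ideal.span {(t : ℤ)}) ≤ P := by
    rw [hmap, Ideal.span_singleton_le_iff_mem]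
    exact htP
  have hle2 : Ideal.map (algebraMap ℤ (𝓞 L)) (Ideal.span {(t : ℤ)}) ≤ P ^ 2 := by
    rw [hmap, Ideal.span_singleton_le_iff_mem]
    exact hsq
  have h1 := (Ideal.ramificationIdx'_ne_one_iff hle).mpr hle2
  apply h1
  rw [Ideal.ramificationIdx'_eq_ramificationIdx (Ideal.span {(t : ℤ)}) P hp0]
  exact hram

/-- `Φ_t` is irreducible over `L` if some prime `P` of `𝓞 L` has `t ∈ P`, `t ∉ P ^ 2`. -/
theorem cf_irreducible_cyclotomic (L : Type) [Field L] [NumberField L] (t : ℕ) (ht : t.Prime)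
    (P : Ideal (𝓞 L)) (hP : P.IsPrime) (htP : (t : 𝓞 L) ∈ P) (htP2 : (t : 𝓞 L) ∉ P ^ 2) :
    Irreducible (cyclotomic t L) := by
  have : Fact t.Prime := ⟨ht⟩
  -- the integral Eisenstein polynomial
  set f₀ : ℤ[X] := (cyclotomic t ℤ).comp (X + 1) with hf₀
  have hE₀ : f₀.IsEisensteinAt (Submodule.span ℤ {(t : ℤ)}) :=
    cyclotomic_comp_X_add_one_isEisensteinAt t
  set f : (𝓞 L)[X] := (cyclotomic t (𝓞 L)).comp (X + 1) with hf
  have hfmap : f = f₀.map (algebraMap ℤ (𝓞 L)) := by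
    rw [hf, hf₀, Polynomial.map_comp, map_cyclotomic, Polynomial.map_add, Polynomial.map_X,
      Polynomial.map_one]
  have hmonic₀ : f₀.Monic := by
    rw [hf₀]
    exact (cyclotomic.monic t ℤ).comp_X_add_C 1 |> fun h => by simpa using h
  have hmonic : f.Monic := by
    rw [hfmap]
    exact hmonic₀.map _
  have hdeg : f.natDegree = f₀.natDegree := by
    rw [hfmap]
    exact hmonic₀.natDegree_map _
  have hdeg₀ : f₀.natDegree = t - 1 := by
    rw [hf₀, natDegree_comp, natDegree_cyclotomic, Nat.totient_prime ht,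
      show (X + 1 : ℤ[X]) = X + C 1 by simp, natDegree_X_add_C, mul_one]
  have hE : f.IsEisensteinAt P := by
    refine ⟨?_, ?_, ?_⟩
    · rw [hmonic.leadingCoeff]
      exact fun h => hP.ne_top ((Ideal.eq_top_iff_one P).mpr h)
    · intro n hn
      rw [hdeg] at hn
      have h1 := hE₀.mem hn
      rw [hfmap, coeff_map]
      obtain ⟨c, hc⟩ := Ideal.mem_span_singleton'.mp h1
      rw [← hc, map_mul]
      apply P.mul_mem_left
      simpa using htP
    · have h0 : f.coeff 0 = (t : 𝓞 L) := by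
        rw [hf, coeff_zero_eq_eval_zero, eval_comp]
        simp [eval_one_cyclotomic_prime]
      rw [h0]
      exact htP2
  have hirr : Irreducible f :=
    hE.irreducible hP hmonic.isPrimitive (by rw [hdeg, hdeg₀]; have := ht.two_le; omega)
  -- back to `cyclotomic t (𝓞 L)`
  have hirr' : Irreducible (cyclotomic t (𝓞 L)) := by
    have he : (algEquivAevalXAddC (R := 𝓞 L) 1) (cyclotomic t (𝓞 L)) = f := by
      rw [hf, algEquivAevalXAddC_apply, Polynomial.comp_eq_aeval, map_one]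
    rw [← he] at hirr
    exact (MulEquiv.irreducible_iff
      ((algEquivAevalXAddC (R := 𝓞 L) 1 : (𝓞 L)[X] ≃ₐ[𝓞 L] (𝓞 L)[X]) :
        (𝓞 L)[X] ≃* (𝓞 L)[X])).mp hirr
  have h2 := (Monic.irreducible_iff_irreducible_map_fraction_map (K := L)
    (cyclotomic.monic t (𝓞 L))).mp hirr'
  rwa [map_cyclotomic] at h2

end Fermat.Agent.S48Cheb
end MergeWrap_S48_Cheb_CycField_Irred

section MergeWrap_S48_Cheb_CycField_Galois -- from S48/Cheb/CycField/Galois.lean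

/-!
# S48 P5 seat (E), part 2: `Gal(L(ζ_t)/E) ≅ Gal(L/E) × (ℤ/t)ˣ` when `Φ_t` is irreducible over `L`
-/

set_option autoImplicit false

open NumberField Polynomial

namespace Fermat.Agent.S48Cheb

/-- `L(ζ_t)/E` is Galois. -/
theorem cf_isGalois (E L K : Type) [Field E] [Field L] [Field K] [CharZero E]
    [Algebra E L] [Algebra L K] [Algebra E K] [IsScalarTower E L K] [FiniteDimensional E L]
    [IsGalois E L] (t : ℕ) [NeZero t] [IsCyclotomicExtension {t} L K] : IsGalois E K := by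
  have : FiniteDimensional L K := IsCyclotomicExtension.finiteDimensional {t} L K
  have : FiniteDimensional E K := Module.Finite.trans L K
  obtain ⟨f, hfsep, hf⟩ := IsGalois.is_separable_splitting_field E L
  have hf0 : f ≠ 0 := hfsep.ne_zero
  have hg0 : (X ^ t - 1 : E[X]) ≠ 0 := by
    apply Monic.ne_zero
    exact monic_X_pow_sub_C (1 : E) (NeZero.ne t)
  have hsp : IsSplittingField L K ((X ^ t - 1 : E[X]).map (algebraMap E L)) := by
    rw [Polynomial.map_sub, Polynomial.map_pow, Polynomial.map_X, Polynomial.map_one]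
    exact IsCyclotomicExtension.isSplittingField_X_pow_sub_one t L K
  have hmul : IsSplittingField E K (f * (X ^ t - 1)) :=
    IsSplittingField.mul (F := E) (K := L) K f (X ^ t - 1) hf0 hg0
  have hnorm : Normal E K := Normal.of_isSplittingField (f * (X ^ t - 1))
  exact { }

/-- `[L(ζ_t) : E] = [L : E] (t - 1)` for `t` prime with `Φ_t` irreducible over `L`. -/
theorem cf_finrank (E L K : Type) [Field E] [Field L] [Field K]
    [Algebra E L] [Algebra L K] [Algebra E K] [IsScalarTower E L K] [FiniteDimensional E L]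
    (t : ℕ) [NeZero t] (ht : t.Prime) [IsCyclotomicExtension {t} L K]
    (hirr : Irreducible (cyclotomic t L)) :
    Module.finrank E K = Module.finrank E L * (t - 1) := by
  have : FiniteDimensional L K := IsCyclotomicExtension.finiteDimensional {t} L K
  rw [← Module.finrank_mul_finrank E L K, IsCyclotomicExtension.finrank K hirr,
    Nat.totient_prime ht]

/-- An `E`-automorphism of `L(ζ_t)` which is trivial on `L` and fixes `ζ` is trivial. -/
theorem cf_eq_one (E L K : Type) [Field E] [Field L] [Field K]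
    [Algebra E L] [Algebra L K] [Algebra E K] [IsScalarTower E L K] [Normal E L]
    (t : ℕ) [NeZero t] [IsCyclotomicExtension {t} L K] (ζ : K) (hζ : IsPrimitiveRoot ζ t)
    (σ : K ≃ₐ[E] K) (hres : AlgEquiv.restrictNormalHom L σ = 1) (hσζ : σ ζ = ζ) : σ = 1 := by
  have hfix : ∀ x : L, σ (algebraMap L K x) = algebraMap L K x := by
    intro x
    have h1 := AlgEquiv.restrictNormal_commutes σ L x
    have h2 : σ.restrictNormal L = 1 := hres
    rw [h2] at h1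
    exact h1.symm
  -- `σ` as an `L`-algebra map
  let τ : K →ₐ[L] K :=
    { (σ : K →+* K) with
      commutes' := hfix }
  have hτ : τ = AlgHom.id L K := by
    apply AlgHom.ext_of_adjoin_eq_top (IsCyclotomicExtension.adjoin_primitive_root_eq_top hζ)
    intro x hx
    rw [Set.mem_singleton_iff] at hx
    rw [hx]
    exact hσζ
  ext x
  have := congrArg (fun f : K →ₐ[L] K => f x) hτ
  exact this

/-- Every pair `(g, a) ∈ Gal(L/E) × (ℤ/t)ˣ` comes from an element of `Gal(L(ζ_t)/E)`. -/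
theorem cf_exists (E L K : Type) [Field E] [Field L] [Field K]
    [Algebra E L] [Algebra L K] [Algebra E K] [IsScalarTower E L K] [Normal E L] [Normal E K]
    (t : ℕ) [NeZero t] [IsCyclotomicExtension {t} L K]
    (hirr : Irreducible (cyclotomic t L)) (g : L ≃ₐ[E] L) (a : (ZMod t)ˣ) :
    ∃ σ : K ≃ₐ[E] K, AlgEquiv.restrictNormalHom L σ = g ∧
      σ (IsCyclotomicExtension.zeta t L K) =
        (IsCyclotomicExtension.zeta t L K) ^ ((a : (ZMod t)ˣ) : ZMod t).val := by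
  set ζ := IsCyclotomicExtension.zeta t L K with hζdef
  have hζ : IsPrimitiveRoot ζ t := IsCyclotomicExtension.zeta_spec t L K
  obtain ⟨σ₀, hσ₀⟩ := AlgEquiv.restrictNormalHom_surjective (F := E) (K₁ := L) K g
  set b : (ZMod t)ˣ := hζ.autToPow E σ₀ with hb
  have hbspec : ζ ^ ((b : (ZMod t)ˣ) : ZMod t).val = σ₀ ζ := hζ.autToPow_spec E σ₀
  set τ : K ≃ₐ[L] K := (IsCyclotomicExtension.autEquivPow K hirr).symm (a * b⁻¹) with hτ
  have hτspec : ζ ^ (((a * b⁻¹ : (ZMod t)ˣ) : (ZMod t)ˣ) : ZMod t).val = τ ζ := by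
    have h1 : (IsCyclotomicExtension.autEquivPow K hirr) τ = a * b⁻¹ := by
      rw [hτ, MulEquiv.apply_symm_apply]
    have h2 := hζ.autToPow_spec L τ
    have h3 : hζ.autToPow L τ = (IsCyclotomicExtension.autEquivPow K hirr) τ := by
      rw [IsCyclotomicExtension.autEquivPow_apply]
      rfl
    rw [h3, h1] at h2
    exact h2
  refine ⟨(τ.restrictScalars E) * σ₀, ?_, ?_⟩
  · rw [map_mul, hσ₀]
    have h1 : AlgEquiv.restrictNormalHom L (τ.restrictScalars E) = 1 := by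
      ext x
      apply (algebraMap L K).injective
      have h2 := AlgEquiv.restrictNormal_commutes (τ.restrictScalars E) L x
      have h3 : (AlgEquiv.restrictNormalHom L (τ.restrictScalars E)) x =
          ((τ.restrictScalars E).restrictNormal L) x := rfl
      rw [h3, h2]
      show τ (algebraMap L K x) = algebraMap L K x
      exact τ.commutes x
    rw [h1, one_mul]
  · show τ (σ₀ ζ) = ζ ^ ((a : (ZMod t)ˣ) : ZMod t).val
    rw [← hbspec, map_pow, ← hτspec, ← pow_mul]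
    have hmod : (((a * b⁻¹ : (ZMod t)ˣ) : ZMod t).val * ((b : (ZMod t)ˣ) : ZMod t).val) ≡
        ((a : (ZMod t)ˣ) : ZMod t).val [MOD t] := by
      rw [← ZMod.natCast_eq_natCast_iff]
      push_cast
      rw [ZMod.natCast_zmod_val, ZMod.natCast_zmod_val, ZMod.natCast_zmod_val]
      have h5 : a * b⁻¹ * b = a := inv_mul_cancel_right a b
      exact_mod_cast congrArg (fun u : (ZMod t)ˣ => (u : ZMod t)) h5
    exact pow_eq_pow_of_modEq hmod hζ.pow_eq_one

end Fermat.Agent.S48Cheb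
end MergeWrap_S48_Cheb_CycField_Galois

section MergeWrap_S48_Cheb_CycField -- from S48/Cheb/CycField.lean

/-!
# S48 P5 seat (E): the field `L(ζ_t)` over `E`  (helper8)

* `t`: a prime `> 2`, `≡ 1 mod M`, outside the finite set of primes ramified in `L/ℚ`
  (`cf_exists_prime`); `Φ_t` is irreducible over `L` by Eisenstein (`cf_irreducible_cyclotomic`).
* `K = CyclotomicField t L`; `K/E` is Galois (`cf_isGalois`),
  of degree `[L:E] (t-1)` (`cf_finrank`); `σ ↦ (σ|_L, χ σ)` is surjective (`cf_exists`) and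
  injective (`cf_eq_one`).
-/

set_option autoImplicit false

open NumberField Polynomial

namespace Fermat.Agent.S48Cheb

theorem cycField : CycField := by
  intro E L _ _ _ _ _ _ M hM
  obtain ⟨t, ht, ht2, hmod, P, hP, htP, htP2⟩ := cf_exists_prime L M hM
  have hirr := cf_irreducible_cyclotomic L t ht P hP htP htP2
  haveI : NeZero t := ⟨ht.ne_zero⟩
  haveI nf : NumberField (CyclotomicField t L) :=
    IsCyclotomicExtension.numberField {t} L (CyclotomicField t L)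
  haveI : FiniteDimensional E L := Module.Finite.of_restrictScalars_finite ℚ E L
  haveI gal : IsGalois E (CyclotomicField t L) := cf_isGalois E L (CyclotomicField t L) t
  refine ⟨t, ht, ht2, hmod, CyclotomicField t L, inferInstance, nf, inferInstance, inferInstance,
    inferInstance,
    gal, IsCyclotomicExtension.zeta t L (CyclotomicField t L),
    IsCyclotomicExtension.zeta_spec t L (CyclotomicField t L),
    cf_finrank E L (CyclotomicField t L) t ht hirr, ?_, ?_⟩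
  · intro g a
    exact cf_exists E L (CyclotomicField t L) t hirr g a
  · intro σ hres hσ
    exact cf_eq_one E L (CyclotomicField t L) t _
      (IsCyclotomicExtension.zeta_spec t L (CyclotomicField t L)) σ hres hσ

end Fermat.Agent.S48Cheb
end MergeWrap_S48_Cheb_CycField

section MergeWrap_S48_Cheb_Cyclic_Count -- from S48/Cheb/Cyclic/Count.lean

set_option autoImplicit false

namespace Fermat.Agent.S48Cheb

/-- If `m2 ^ k ∣ n`, `d ∣ n` and `m2 ∤ d`, some prime `ℓ ∣ m2` has `ℓ ^ k * d ∣ n`. -/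
lemma cyc_exists_prime_pow_mul_dvd {m2 k n d : ℕ} (hm : m2 ≠ 0) (hk : 1 ≤ k) (hn : n ≠ 0)
    (hMn : m2 ^ k ∣ n) (hdn : d ∣ n) (hnd : ¬ m2 ∣ d) :
    ∃ ℓ : ℕ, ℓ.Prime ∧ ℓ ∣ m2 ∧ ℓ ^ k * d ∣ n := by
  have hd0 : d ≠ 0 := fun h => hn (by rw [h] at hdn; exact Nat.eq_zero_of_zero_dvd hdn)
  have h1 : ¬ ∀ p : ℕ, p.Prime → m2.factorization p ≤ d.factorization p :=
    fun h => hnd ((Nat.factorization_prime_le_iff_dvd hm hd0).mp h)
  push Not at h1
  obtain ⟨ℓ, hℓ, hlt⟩ := h1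
  have hℓm : ℓ ∣ m2 := Nat.dvd_of_factorization_pos (by omega)
  refine ⟨ℓ, hℓ, hℓm, ?_⟩
  have hne : ℓ ^ k * d ≠ 0 := mul_ne_zero (pow_ne_zero _ hℓ.ne_zero) hd0
  rw [← Nat.factorization_le_iff_dvd hne hn]
  intro q
  rw [Nat.factorization_mul (pow_ne_zero _ hℓ.ne_zero) hd0, Nat.factorization_pow,
    Finsupp.add_apply, Finsupp.smul_apply, smul_eq_mul]
  have h2 : (m2 ^ k).factorization ≤ n.factorization :=
    (Nat.factorization_le_iff_dvd (pow_ne_zero _ hm) hn).mpr hMn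
  have h3 : d.factorization ≤ n.factorization := (Nat.factorization_le_iff_dvd hd0 hn).mpr hdn
  by_cases hq : q = ℓ
  · subst hq
    rw [hℓ.factorization_self, mul_one]
    have h4 := h2 q
    rw [Nat.factorization_pow, Finsupp.smul_apply, smul_eq_mul] at h4
    have h5 : k * (d.factorization q + 1) ≤ k * m2.factorization q :=
      Nat.mul_le_mul_left k hlt
    nlinarith [Nat.zero_le (d.factorization q)]
  · rw [hℓ.factorization, Finsupp.single_apply, if_neg (fun h => hq h.symm), mul_zero, zero_add]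
    exact h3 q

variable {U : Type*} [Group U] [Fintype U] [IsCyclic U] [DecidableEq U]

/-- The number of elements whose order is not divisible by `m2`. -/
lemma cyc_card_bad_le {m2 k : ℕ} (hm : m2 ≠ 0) (hk : 1 ≤ k)
    (hMn : m2 ^ k ∣ Fintype.card U) :
    (Finset.univ.filter fun a : U => ¬ m2 ∣ orderOf a).card
      ≤ m2 * (Fintype.card U / 2 ^ k) := by
  classical
  set n := Fintype.card U with hn
  have hn0 : n ≠ 0 := Fintype.card_ne_zero
  have hsub : (Finset.univ.filter fun a : U => ¬ m2 ∣ orderOf a)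
      ⊆ m2.primeFactors.biUnion fun ℓ => Finset.univ.filter fun a : U => a ^ (n / ℓ ^ k) = 1 := by
    intro a ha
    rw [Finset.mem_filter] at ha
    obtain ⟨ℓ, hℓ, hℓm, hdvd⟩ :=
      cyc_exists_prime_pow_mul_dvd hm hk hn0 hMn (orderOf_dvd_card (x := a)) ha.2
    rw [Finset.mem_biUnion]
    refine ⟨ℓ, Nat.mem_primeFactors.mpr ⟨hℓ, hℓm, hm⟩, ?_⟩
    rw [Finset.mem_filter]
    refine ⟨Finset.mem_univ _, ?_⟩
    obtain ⟨c, hc⟩ := hdvd
    have h1 : n / ℓ ^ k = orderOf a * c := by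
      rw [hc, mul_assoc, Nat.mul_div_cancel_left _ (pow_pos hℓ.pos k)]
    rw [h1, pow_mul, pow_orderOf_eq_one, one_pow]
  refine (Finset.card_le_card hsub).trans (Finset.card_biUnion_le.trans ?_)
  have hterm : ∀ ℓ ∈ m2.primeFactors,
      (Finset.univ.filter fun a : U => a ^ (n / ℓ ^ k) = 1).card ≤ n / 2 ^ k := by
    intro ℓ hℓ
    obtain ⟨hℓp, hℓm, -⟩ := Nat.mem_primeFactors.mp hℓ
    have hℓn : ℓ ^ k ∣ n := (pow_dvd_pow_of_dvd hℓm k).trans hMn
    have hpos : 0 < n / ℓ ^ k :=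
      Nat.div_pos (Nat.le_of_dvd (Nat.pos_of_ne_zero hn0) hℓn) (pow_pos hℓp.pos k)
    refine (IsCyclic.card_pow_eq_one_le hpos).trans ?_
    exact Nat.div_le_div_left (Nat.pow_le_pow_left hℓp.two_le k) (pow_pos (by norm_num) k)
  refine (Finset.sum_le_card_nsmul _ _ _ hterm).trans ?_
  rw [smul_eq_mul]
  refine Nat.mul_le_mul_right _ ?_
  have : m2.primeFactors ⊆ Finset.Icc 1 m2 := by
    intro ℓ hℓ
    obtain ⟨hℓp, hℓm, -⟩ := Nat.mem_primeFactors.mp hℓ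
    rw [Finset.mem_Icc]
    exact ⟨hℓp.one_le, Nat.le_of_dvd (Nat.pos_of_ne_zero hm) hℓm⟩
  have := Finset.card_le_card this
  rwa [Nat.card_Icc, Nat.add_sub_cancel] at this

end Fermat.Agent.S48Cheb
end MergeWrap_S48_Cheb_Cyclic_Count

section MergeWrap_S48_Cheb_Cyclic_Sum -- from S48/Cheb/Cyclic/Sum.lean

set_option autoImplicit false

namespace Fermat.Agent.S48Cheb

open Fermat.Agent.FrobDensity

/-- `log (1 / (s - 1)) ≥ 0` for `1 < s < 2`. -/
lemma cyc_log_nonneg {s : ℝ} (hs : 1 < s) (hs2 : s < 1 + 1) : 0 ≤ Real.log (1 / (s - 1)) := by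
  apply Real.log_nonneg
  rw [le_div_iff₀ (by linarith)]
  linarith

lemma cyc_lowerSharp_zero : LowerSharp (fun _ => (0 : ℝ)) 0 := by
  refine ⟨0, 1, one_pos, fun s _ _ => ?_⟩
  simp

lemma cyc_lowerSharp_add {w₁ w₂ : Nat.Primes → ℝ} {c₁ c₂ : ℝ}
    (hb₁ : ∃ B : ℝ, ∀ p, |w₁ p| ≤ B) (hb₂ : ∃ B : ℝ, ∀ p, |w₂ p| ≤ B)
    (h₁ : LowerSharp w₁ c₁) (h₂ : LowerSharp w₂ c₂) :
    LowerSharp (fun p => w₁ p + w₂ p) (c₁ + c₂) := by
  obtain ⟨B₁, δ₁, hδ₁, h₁⟩ := h₁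
  obtain ⟨B₂, δ₂, hδ₂, h₂⟩ := h₂
  refine ⟨B₁ + B₂, min δ₁ δ₂, lt_min hδ₁ hδ₂, fun s hs hs' => ?_⟩
  have e₁ := h₁ s hs (hs'.trans_le (by gcongr; exact min_le_left _ _))
  have e₂ := h₂ s hs (hs'.trans_le (by gcongr; exact min_le_right _ _))
  have hsum : ∑' p : Nat.Primes, (w₁ p + w₂ p) * ((p : ℕ) : ℝ) ^ (-s) =
      ∑' p : Nat.Primes, w₁ p * ((p : ℕ) : ℝ) ^ (-s) +
        ∑' p : Nat.Primes, w₂ p * ((p : ℕ) : ℝ) ^ (-s) := by
    rw [← (summable_weight_mul_rpow hb₁ hs).tsum_add (summable_weight_mul_rpow hb₂ hs)]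
    exact tsum_congr fun p => add_mul _ _ _
  rw [hsum]
  linarith

lemma cyc_lowerSharp_mono {w w' : Nat.Primes → ℝ} {c : ℝ}
    (hb : ∃ B : ℝ, ∀ p, |w p| ≤ B) (hb' : ∃ B : ℝ, ∀ p, |w' p| ≤ B)
    (hle : ∀ p, w p ≤ w' p) (h : LowerSharp w c) : LowerSharp w' c := by
  obtain ⟨B, δ, hδ, h⟩ := h
  refine ⟨B, δ, hδ, fun s hs hs' => (h s hs hs').trans ?_⟩
  refine (summable_weight_mul_rpow hb hs).tsum_le_tsum (fun p => ?_)
    (summable_weight_mul_rpow hb' hs)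
  exact mul_le_mul_of_nonneg_right (hle p) (Real.rpow_nonneg (Nat.cast_nonneg _) _)

lemma cyc_lowerSharp_const {w : Nat.Primes → ℝ} {c c' : ℝ} (hc : c' ≤ c)
    (h : LowerSharp w c) : LowerSharp w c' := by
  obtain ⟨B, δ, hδ, h⟩ := h
  refine ⟨B, min δ 1, lt_min hδ one_pos, fun s hs hs' => le_trans ?_
    (h s hs (hs'.trans_le (by gcongr; exact min_le_left _ _)))⟩
  have hlog := cyc_log_nonneg hs (hs'.trans_le (by gcongr; exact min_le_right _ _))
  have := mul_le_mul_of_nonneg_right hc hlog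
  linarith

lemma cyc_lowerSharp_half {w : Nat.Primes → ℝ} {c : ℝ}
    (h : LowerSharp (fun p => 2 * w p) c) : LowerSharp w (c / 2) := by
  obtain ⟨B, δ, hδ, h⟩ := h
  refine ⟨B / 2, δ, hδ, fun s hs hs' => ?_⟩
  have e := h s hs hs'
  have hsum : ∑' p : Nat.Primes, (2 * w p) * ((p : ℕ) : ℝ) ^ (-s) =
      2 * ∑' p : Nat.Primes, w p * ((p : ℕ) : ℝ) ^ (-s) := by
    rw [← tsum_mul_left]
    exact tsum_congr fun p => mul_assoc _ _ _
  rw [hsum] at e
  linarith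

/-- Finite sums of weights. -/
lemma cyc_lowerSharp_sum {ι : Type*} (S : Finset ι) (w : ι → Nat.Primes → ℝ) (c : ℝ)
    (hb : ∀ i ∈ S, ∃ B : ℝ, ∀ p, |w i p| ≤ B) (h : ∀ i ∈ S, LowerSharp (w i) c) :
    LowerSharp (fun p => ∑ i ∈ S, w i p) (S.card * c) ∧
      ∃ B : ℝ, ∀ p, |∑ i ∈ S, w i p| ≤ B := by
  classical
  induction S using Finset.induction_on with
  | empty =>
    refine ⟨?_, 0, fun p => by simp⟩
    simpa using cyc_lowerSharp_zero
  | insert a S ha ih =>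
    obtain ⟨ih1, ih2⟩ := ih (fun i hi => hb i (Finset.mem_insert_of_mem hi))
      (fun i hi => h i (Finset.mem_insert_of_mem hi))
    have hba := hb a (Finset.mem_insert_self a S)
    have h1 := cyc_lowerSharp_add hba ih2 (h a (Finset.mem_insert_self a S)) ih1
    refine ⟨?_, ?_⟩
    · have e : (fun p => ∑ i ∈ insert a S, w i p) = fun p => w a p + ∑ i ∈ S, w i p := by
        funext p
        rw [Finset.sum_insert ha]
      rw [e, Finset.card_insert_of_notMem ha]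
      have e2 : ((S.card + 1 : ℕ) : ℝ) * c = c + S.card * c := by
        push_cast
        ring
      rw [e2]
      exact h1
    · obtain ⟨B₁, hB₁⟩ := hba
      obtain ⟨B₂, hB₂⟩ := ih2
      refine ⟨B₁ + B₂, fun p => ?_⟩
      rw [Finset.sum_insert ha]
      exact (abs_add_le _ _).trans (add_le_add (hB₁ p) (hB₂ p))

/-- In `(ℤ/t)ˣ`, `t` prime, at most two elements have a given square. -/
lemma cyc_card_sq_eq_le (t : ℕ) [Fact t.Prime] (S : Finset (ZMod t)ˣ) (x : ZMod t) :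
    (S.filter fun a : (ZMod t)ˣ => x ^ 2 = ((a : (ZMod t)ˣ) : ZMod t) ^ 2).card ≤ 2 := by
  classical
  by_cases hne : (S.filter fun a : (ZMod t)ˣ => x ^ 2 = ((a : (ZMod t)ˣ) : ZMod t) ^ 2).Nonempty
  · obtain ⟨a₀, ha₀⟩ := hne
    rw [Finset.mem_filter] at ha₀
    have hsub : (S.filter fun a : (ZMod t)ˣ => x ^ 2 = ((a : (ZMod t)ˣ) : ZMod t) ^ 2)
        ⊆ {a₀, -a₀} := by
      intro a ha
      rw [Finset.mem_filter] at ha
      have h1 : ((a : (ZMod t)ˣ) : ZMod t) ^ 2 = ((a₀ : (ZMod t)ˣ) : ZMod t) ^ 2 := by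
        rw [← ha.2, ← ha₀.2]
      rcases sq_eq_sq_iff_eq_or_eq_neg.mp h1 with h2 | h2
      · rw [Finset.mem_insert]
        left
        exact Units.ext h2
      · rw [Finset.mem_insert, Finset.mem_singleton]
        right
        exact Units.ext (by rw [h2, Units.val_neg])
    exact (Finset.card_le_card hsub).trans Finset.card_le_two
  · rw [Finset.not_nonempty_iff_eq_empty.mp hne, Finset.card_empty]
    exact Nat.zero_le _

/-- The same for the inverses. -/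
lemma cyc_card_sq_inv_eq_le (t : ℕ) [Fact t.Prime] (S : Finset (ZMod t)ˣ) (x : ZMod t) :
    (S.filter fun a : (ZMod t)ˣ => x ^ 2 = ((a⁻¹ : (ZMod t)ˣ) : ZMod t) ^ 2).card ≤ 2 := by
  classical
  have h1 : (S.filter fun a : (ZMod t)ˣ => x ^ 2 = ((a⁻¹ : (ZMod t)ˣ) : ZMod t) ^ 2)
      = ((S.image fun a => a⁻¹).filter
          fun a : (ZMod t)ˣ => x ^ 2 = ((a : (ZMod t)ˣ) : ZMod t) ^ 2).image fun a => a⁻¹ := by
    ext a
    simp only [Finset.mem_filter, Finset.mem_image]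
    constructor
    · rintro ⟨haS, ha⟩
      exact ⟨a⁻¹, ⟨⟨a, haS, rfl⟩, ha⟩, inv_inv a⟩
    · rintro ⟨b, ⟨⟨c, hcS, rfl⟩, hb⟩, rfl⟩
      rw [inv_inv]
      exact ⟨hcS, hb⟩
  rw [h1]
  exact Finset.card_image_le.trans (cyc_card_sq_eq_le t _ x)

end Fermat.Agent.S48Cheb
end MergeWrap_S48_Cheb_Cyclic_Sum

section MergeWrap_S48_Cheb_Cyclic_Good -- from S48/Cheb/Cyclic/Good.lean

set_option autoImplicit false

namespace Fermat.Agent.S48Cheb

open NumberField Fermat.Agent.FrobDensity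

/-- `frobCount ≤ idealCount`. -/
lemma cyc_frobCount_le_idealCount (E L : Type) [Field E] [NumberField E] [Field L]
    [NumberField L] [Algebra E L] (g : L ≃ₐ[E] L) (p : ℕ) :
    frobCount E L g p ≤ idealCount E p := by
  unfold frobCount idealCount
  haveI : Finite {I : Ideal (𝓞 E) // Ideal.absNorm I = p} :=
    Ideal.finite_setOfPred_absNorm_eq p
  refine Nat.card_le_card_of_injective
    (fun 𝔮 : {𝔮 : Ideal (𝓞 E) // Ideal.absNorm 𝔮 = p ∧
      ∃ P : Ideal (𝓞 L), P.IsPrime ∧ P.LiesOver 𝔮 ∧ ∀ x : 𝓞 L, g • x - x ^ p ∈ P} =>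
      (⟨𝔮.1, 𝔮.2.1⟩ : {I : Ideal (𝓞 E) // Ideal.absNorm I = p})) ?_
  intro a b hab
  have h : (a : Ideal (𝓞 E)) = (b : Ideal (𝓞 E)) :=
    congrArg (fun x : {I : Ideal (𝓞 E) // Ideal.absNorm I = p} => (x : Ideal (𝓞 E))) hab
  exact Subtype.ext h

/-- `frobCount ≤ [E:ℚ]` at the primes. -/
lemma cyc_frobCount_le (E L : Type) [Field E] [NumberField E] [Field L]
    [NumberField L] [Algebra E L] (g : L ≃ₐ[E] L) (p : Nat.Primes) :
    (frobCount E L g p : ℝ) ≤ (Module.finrank ℚ E : ℝ) := by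
  exact_mod_cast (cyc_frobCount_le_idealCount E L g p).trans (idealCount_le_finrank E p.2)

section

variable {E K : Type} [Field E] [Field K] [Algebra E K] {t : ℕ} [Fact t.Prime]

/-- `σ ζ = ζ ^ a` determines the cyclotomic character of `σ`. -/
lemma cyc_autToPow_eq {ζ : K} (hζ : IsPrimitiveRoot ζ t) (σ : K ≃ₐ[E] K) (a : (ZMod t)ˣ)
    (hσ : σ ζ = ζ ^ ((a : (ZMod t)ˣ) : ZMod t).val) : hζ.autToPow E σ = a := by
  have h1 : ζ ^ ((hζ.autToPow E σ : (ZMod t)ˣ) : ZMod t).val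
      = ζ ^ ((a : (ZMod t)ˣ) : ZMod t).val := by
    rw [hζ.autToPow_spec E σ, hσ]
  have h2 := (hζ.pow_inj (ZMod.val_lt _) (ZMod.val_lt _) h1)
  exact Units.ext (ZMod.val_injective t h2)

/-- The action of the powers of `σ` on `ζ`. -/
lemma cyc_pow_apply {ζ : K} (hζ : IsPrimitiveRoot ζ t) (σ : K ≃ₐ[E] K) (a : (ZMod t)ˣ)
    (hσ : σ ζ = ζ ^ ((a : (ZMod t)ˣ) : ZMod t).val) (j : ℕ) :
    (σ ^ j) ζ = ζ ^ (((a ^ j : (ZMod t)ˣ) : (ZMod t)ˣ) : ZMod t).val := by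
  rw [← hζ.autToPow_spec E (σ ^ j), map_pow, cyc_autToPow_eq hζ σ a hσ]

end

/-- In `(ℤ/t)ˣ`, an element of even order `2 j` has `a ^ j = -1`. -/
lemma cyc_pow_half_eq_neg_one {t : ℕ} [Fact t.Prime] (a : (ZMod t)ˣ) (j : ℕ)
    (hj : orderOf a = 2 * j) : a ^ j = -1 := by
  have hpos : 0 < orderOf a := orderOf_pos a
  have h1 : (a ^ j) * (a ^ j) = 1 := by
    rw [← pow_add, ← two_mul, ← hj, pow_orderOf_eq_one]
  have h2 : a ^ j ≠ 1 := by
    intro h
    have := orderOf_dvd_of_pow_eq_one h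
    have hle := Nat.le_of_dvd (by omega) this
    omega
  have h3 : (((a ^ j : (ZMod t)ˣ) : ZMod t)) * ((a ^ j : (ZMod t)ˣ) : ZMod t) = 1 := by
    rw [← Units.val_mul, h1, Units.val_one]
  rcases mul_self_eq_one_iff.mp h3 with h4 | h4
  · exact absurd (Units.ext h4) h2
  · exact Units.ext (by rw [h4, Units.val_neg, Units.val_one])

end Fermat.Agent.S48Cheb
end MergeWrap_S48_Cheb_Cyclic_Good

section MergeWrap_S48_Cheb_Cyclic -- from S48/Cheb/Cyclic.lean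

/-!
# S48 P5 seat (F): the cyclic case (helper7) — PROVED (see NOTES/blueprint-S48-P5.md)

Plan.  `m = [L:E] = orderOf g`, `ε > 0`; `k` with `4 / 2^k ≤ ε`; (E) with `M = (2m)^k`.
`a ∈ (ℤ/t)ˣ` is GOOD if `2m ∣ orderOf a`.  For good `a` take `σ` with `σ|_L = g`, `χ σ = a`:
`h1`: `a^j = 1 ⟹ m ∣ j ⟹ (σ^j)|_L = 1, σ^j ζ = ζ ⟹ σ^j = 1`;  `h2`: `j = orderOf a / 2`
(`a^j = -1` as `x² = 1 ⟹ x = ± 1` in the field `ZMod t`).  (D) gives `LowerSharp (w_a) (4/(m (t-1)))`.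
`∑_{a good} w_a p ≤ 2 (frobCount g p + frobCount g⁻¹ p)` (`x² = c` has `≤ 2` roots).
`#bad ≤ ∑_{ℓ ∣ 2m prime} #{a : a^((t-1)/ℓ^k) = 1} ≤ 2m (t-1)/2^k` (`IsCyclic.card_pow_eq_one_le`).
-/

set_option autoImplicit false

namespace Fermat.Agent.S48Cheb

open NumberField Fermat.Agent.FrobDensity

theorem cyclicCheb_of (hD : Crossing) (hE : CycField) : CyclicCheb := by
  classical
  intro E L _ _ _ _ _ _ g hg ε hε
  set m := Module.finrank E L with hm
  have hmpos : 0 < m := Module.finrank_pos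
  have hcard : Nat.card (L ≃ₐ[E] L) = m := IsGalois.card_aut_eq_finrank E L
  have hgm : g ^ m = 1 := by
    rw [← hcard]
    exact pow_card_eq_one'
  have hgpow : ∀ j : ℕ, m ∣ j → g ^ j = 1 := by
    rintro j ⟨c, rfl⟩
    rw [pow_mul, hgm, one_pow]
  -- the exponent `k`
  obtain ⟨k, hk1, hk⟩ : ∃ k : ℕ, 1 ≤ k ∧ (4 : ℝ) / 2 ^ k ≤ ε := by
    obtain ⟨k, hk⟩ := pow_unbounded_of_one_lt (4 / ε) (one_lt_two : (1 : ℝ) < 2)
    refine ⟨k + 1, Nat.le_add_left 1 k, ?_⟩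
    have h2 : (0 : ℝ) < 2 ^ (k + 1) := by positivity
    rw [div_le_iff₀ h2]
    have h3 : 4 / ε * ε = 4 := div_mul_cancel₀ 4 hε.ne'
    have h4 : (2 : ℝ) ^ k ≤ 2 ^ (k + 1) := pow_le_pow_right₀ (by norm_num) (Nat.le_succ k)
    nlinarith
  have h2m : 2 * m ≠ 0 := by omega
  have hM : (2 * m) ^ k ≠ 0 := pow_ne_zero _ h2m
  obtain ⟨t, ht, ht2, htM, K, iF, iNF, iLK, iEK, iST, iGal, ζ, hζ, hfr, hsurj, hinj⟩ :=
    hE E L ((2 * m) ^ k) hM
  haveI : Fact t.Prime := ⟨ht⟩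
  have hcardU : Fintype.card (ZMod t)ˣ = t - 1 := ZMod.card_units t
  have hdvdU : (2 * m) ^ k ∣ Fintype.card (ZMod t)ˣ := by
    rw [hcardU]
    exact (Nat.modEq_iff_dvd' ht.one_le).mp htM.symm
  set Good : Finset (ZMod t)ˣ := Finset.univ.filter fun a => 2 * m ∣ orderOf a with hGood
  set F : Nat.Primes → ℝ := fun p => (frobCount E L g p : ℝ) + (frobCount E L g⁻¹ p : ℝ)
    with hF
  let w : (ZMod t)ˣ → Nat.Primes → ℝ := fun a p =>
    (if (((p : ℕ) : ZMod t)) ^ 2 = ((a : (ZMod t)ˣ) : ZMod t) ^ 2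
      then (frobCount E L g p : ℝ) else 0) +
    (if (((p : ℕ) : ZMod t)) ^ 2 = ((a⁻¹ : (ZMod t)ˣ) : ZMod t) ^ 2
      then (frobCount E L g⁻¹ p : ℝ) else 0)
  -- (D) for the good `a`
  have hw : ∀ a ∈ Good, LowerSharp (w a) (4 / (Module.finrank E K : ℝ)) := by
    intro a ha
    obtain ⟨σ, hσg, hσζ⟩ := hsurj g a
    have h2ma : 2 * m ∣ orderOf a := (Finset.mem_filter.mp ha).2
    have h1 : ∀ j : ℕ, a ^ j = 1 → σ ^ j = 1 := by
      intro j hj
      apply hinj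
      · rw [map_pow, hσg]
        exact hgpow j ((Dvd.intro_left 2 rfl).trans (h2ma.trans (orderOf_dvd_of_pow_eq_one hj)))
      · rw [cyc_pow_apply hζ σ a hσζ j, hj, Units.val_one, ZMod.val_one, pow_one]
    have h2 : ∃ j : ℕ, a ^ j = -1 ∧ AlgEquiv.restrictNormalHom L (σ ^ j) = 1 := by
      obtain ⟨c, hc⟩ := h2ma
      refine ⟨m * c, cyc_pow_half_eq_neg_one a (m * c) (by rw [hc]; ring), ?_⟩
      rw [map_pow, hσg]
      exact hgpow _ (Dvd.intro _ rfl)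
    have h3 := hD E L K t ht ht2 ζ hζ σ a hσζ h1 h2
    rw [hσg] at h3
    exact h3
  -- boundedness
  have hFnn : ∀ p, 0 ≤ F p := fun p => by positivity
  have hFle : ∀ p, F p ≤ 2 * (Module.finrank ℚ E : ℝ) := by
    intro p
    have h1 := cyc_frobCount_le E L g p
    have h2 := cyc_frobCount_le E L g⁻¹ p
    simp only [hF]
    linarith
  have hwnn : ∀ a p, 0 ≤ w a p := by
    intro a p
    simp only [w]
    positivity
  have hwle : ∀ a p, w a p ≤ F p := by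
    intro a p
    simp only [w, hF]
    refine add_le_add ?_ ?_
    · split_ifs
      · exact le_rfl
      · positivity
    · split_ifs
      · exact le_rfl
      · positivity
  have hbw : ∀ a ∈ Good, ∃ B : ℝ, ∀ p, |w a p| ≤ B := by
    intro a _
    refine ⟨2 * (Module.finrank ℚ E : ℝ), fun p => ?_⟩
    rw [abs_of_nonneg (hwnn a p)]
    exact (hwle a p).trans (hFle p)
  have hb2F : ∃ B : ℝ, ∀ p, |2 * F p| ≤ B := by
    refine ⟨2 * (2 * (Module.finrank ℚ E : ℝ)), fun p => ?_⟩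
    rw [abs_of_nonneg (by have := hFnn p; linarith)]
    have := hFle p
    linarith
  obtain ⟨hsum, hbsum⟩ := cyc_lowerSharp_sum Good w (4 / (Module.finrank E K : ℝ)) hbw hw
  -- pointwise comparison
  have hpt : ∀ p, ∑ a ∈ Good, w a p ≤ 2 * F p := by
    intro p
    simp only [w, Finset.sum_add_distrib, hF]
    have e1 : ∑ a ∈ Good, (if (((p : ℕ) : ZMod t)) ^ 2 = ((a : (ZMod t)ˣ) : ZMod t) ^ 2
        then (frobCount E L g p : ℝ) else 0)
        = ((Good.filter fun a : (ZMod t)ˣ =>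
            (((p : ℕ) : ZMod t)) ^ 2 = ((a : (ZMod t)ˣ) : ZMod t) ^ 2).card : ℝ)
          * (frobCount E L g p : ℝ) := by
      rw [← Finset.sum_filter, Finset.sum_const, nsmul_eq_mul]
    have e2 : ∑ a ∈ Good, (if (((p : ℕ) : ZMod t)) ^ 2 = ((a⁻¹ : (ZMod t)ˣ) : ZMod t) ^ 2
        then (frobCount E L g⁻¹ p : ℝ) else 0)
        = ((Good.filter fun a : (ZMod t)ˣ =>
            (((p : ℕ) : ZMod t)) ^ 2 = ((a⁻¹ : (ZMod t)ˣ) : ZMod t) ^ 2).card : ℝ)
          * (frobCount E L g⁻¹ p : ℝ) := by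
      rw [← Finset.sum_filter, Finset.sum_const, nsmul_eq_mul]
    rw [e1, e2]
    have c1 : ((Good.filter fun a : (ZMod t)ˣ =>
        (((p : ℕ) : ZMod t)) ^ 2 = ((a : (ZMod t)ˣ) : ZMod t) ^ 2).card : ℝ) ≤ 2 := by
      have hc := cyc_card_sq_eq_le t Good (((p : ℕ) : ZMod t))
      exact_mod_cast hc
    have c2 : ((Good.filter fun a : (ZMod t)ˣ =>
        (((p : ℕ) : ZMod t)) ^ 2 = ((a⁻¹ : (ZMod t)ˣ) : ZMod t) ^ 2).card : ℝ) ≤ 2 := by
      have hc := cyc_card_sq_inv_eq_le t Good (((p : ℕ) : ZMod t))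
      exact_mod_cast hc
    have n1 : (0 : ℝ) ≤ (frobCount E L g p : ℝ) := by positivity
    have n2 : (0 : ℝ) ≤ (frobCount E L g⁻¹ p : ℝ) := by positivity
    nlinarith [mul_le_mul_of_nonneg_right c1 n1, mul_le_mul_of_nonneg_right c2 n2]
  have h3 := cyc_lowerSharp_mono hbsum hb2F hpt hsum
  have h4 := cyc_lowerSharp_half h3
  refine cyc_lowerSharp_const ?_ h4
  -- the count of the good elements
  have hbad := cyc_card_bad_le (U := (ZMod t)ˣ) h2m hk1 hdvdU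
  have hsplit : Good.card + (Finset.univ.filter fun a : (ZMod t)ˣ => ¬ 2 * m ∣ orderOf a).card
      = Fintype.card (ZMod t)ˣ := by
    rw [hGood, Finset.card_filter_add_card_filter_not, Finset.card_univ]
  set n := Fintype.card (ZMod t)ˣ with hn
  have hnpos : 0 < n := Fintype.card_pos
  have hfrK : (Module.finrank E K : ℝ) = (m : ℝ) * (n : ℝ) := by
    have h0 : Module.finrank E K = m * n := by rw [hfr, hcardU]
    rw [h0]
    push_cast
    rfl
  have hdiv : ((n / 2 ^ k : ℕ) : ℝ) ≤ (n : ℝ) / 2 ^ k := by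
    have := Nat.cast_div_le (α := ℝ) (m := n) (n := 2 ^ k)
    simpa using this
  have hgood : (n : ℝ) - 2 * m * ((n : ℝ) / 2 ^ k) ≤ (Good.card : ℝ) := by
    have h5 : (n : ℝ) = (Good.card : ℝ)
        + ((Finset.univ.filter fun a : (ZMod t)ˣ => ¬ 2 * m ∣ orderOf a).card : ℝ) := by
      exact_mod_cast hsplit.symm
    have h6 : ((Finset.univ.filter fun a : (ZMod t)ˣ => ¬ 2 * m ∣ orderOf a).card : ℝ)
        ≤ 2 * m * ((n / 2 ^ k : ℕ) : ℝ) := by
      exact_mod_cast hbad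
    have h7 : (2 : ℝ) * m * ((n / 2 ^ k : ℕ) : ℝ) ≤ 2 * m * ((n : ℝ) / 2 ^ k) :=
      mul_le_mul_of_nonneg_left hdiv (by positivity)
    linarith
  rw [hfrK]
  have hmR : (0 : ℝ) < m := by exact_mod_cast hmpos
  have hnR : (0 : ℝ) < n := by exact_mod_cast hnpos
  have hkey : (2 : ℝ) / m - 4 / 2 ^ k
      = ((n : ℝ) - 2 * m * ((n : ℝ) / 2 ^ k)) * (4 / ((m : ℝ) * n)) / 2 := by
    field_simp
    ring
  have hstep : ((n : ℝ) - 2 * m * ((n : ℝ) / 2 ^ k)) * (4 / ((m : ℝ) * n)) / 2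
      ≤ (Good.card : ℝ) * (4 / ((m : ℝ) * n)) / 2 := by
    have hpos : (0 : ℝ) ≤ 4 / ((m : ℝ) * n) := by positivity
    have := mul_le_mul_of_nonneg_right hgood hpos
    linarith
  linarith

end Fermat.Agent.S48Cheb
end MergeWrap_S48_Cheb_Cyclic

section MergeWrap_S48_Cheb_Consumer_Group -- from S48/Cheb/Consumer/Group.lean

/-!
# S48 P5 seat (H), group theory

* `cs_sum_card_centralizer_le`: `∑_{g ∈ S} |C_G(g)| ≤ |G|` for a finite set `S` of conjugates of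
  one element.
* `cs_card_preimage`: for a surjective homomorphism `ρ : G' → G` of finite groups,
  `|ρ⁻¹ C| / |G'| = |C| / |G|`.
-/

set_option autoImplicit false

namespace Fermat.Agent.S48Cheb

/-- `∑_{g ∈ S} |C_G(g)| ≤ |G|` if all the elements of `S` are conjugate to `g₀`. -/
theorem cs_sum_card_centralizer_le {G : Type*} [Group G] [Finite G] (g₀ : G) (S : Finset G)
    (hS : ∀ g ∈ S, ∃ γ : G, g = γ * g₀ * γ⁻¹) :
    ∑ g ∈ S, Nat.card (Subgroup.centralizer ({g} : Set G)) ≤ Nat.card G := by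
  classical
  have : Fintype G := Fintype.ofFinite G
  -- conjugators
  choose! γ hγ using hS
  let T := Σ g : S, (Subgroup.centralizer ({(g : G)} : Set G))
  let f : T → G := fun x => (x.2 : G) * γ x.1
  have hf : Function.Injective f := by
    rintro ⟨⟨g, hg⟩, ⟨h, hh⟩⟩ ⟨⟨g', hg'⟩, ⟨h', hh'⟩⟩ hxy
    simp only [f] at hxy
    have hcomm : h * g = g * h := by
      have := Subgroup.mem_centralizer_iff.mp hh g (Set.mem_singleton g)
      exact this.symm
    have hcomm' : h' * g' = g' * h' := by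
      have := Subgroup.mem_centralizer_iff.mp hh' g' (Set.mem_singleton g')
      exact this.symm
    have e1 : (h * γ g) * g₀ * (h * γ g)⁻¹ = g := by
      have := hγ g hg
      calc (h * γ g) * g₀ * (h * γ g)⁻¹ = h * (γ g * g₀ * (γ g)⁻¹) * h⁻¹ := by group
        _ = h * g * h⁻¹ := by rw [← this]
        _ = g := by rw [hcomm]; group
    have e2 : (h' * γ g') * g₀ * (h' * γ g')⁻¹ = g' := by
      have := hγ g' hg'
      calc (h' * γ g') * g₀ * (h' * γ g')⁻¹ = h' * (γ g' * g₀ * (γ g')⁻¹) * h'⁻¹ := by group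
        _ = h' * g' * h'⁻¹ := by rw [← this]
        _ = g' := by rw [hcomm']; group
    have hgg : g = g' := by rw [← e1, ← e2, hxy]
    subst hgg
    have hhh : h = h' := mul_right_cancel hxy
    subst hhh
    rfl
  have h1 : Nat.card T ≤ Nat.card G := Nat.card_le_card_of_injective f hf
  have h2 : Nat.card T = ∑ g ∈ S, Nat.card (Subgroup.centralizer ({g} : Set G)) := by
    rw [Nat.card_sigma]
    rw [← Finset.sum_coe_sort S (fun g => Nat.card (Subgroup.centralizer ({g} : Set G)))]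
  rw [← h2]
  exact h1

/-- Fibres of a surjective homomorphism of finite groups: `|ρ⁻¹ C| |G| = |C| |G'|`. -/
theorem cs_card_preimage_mul {G' G : Type*} [Group G'] [Group G] [Finite G'] [Finite G]
    (ρ : G' →* G) (hρ : Function.Surjective ρ) (C : Set G) :
    Nat.card (ρ ⁻¹' C) * Nat.card G = Nat.card C * Nat.card G' := by
  classical
  -- `ρ⁻¹ C ≃ C × ker ρ`
  let s : G → G' := Function.surjInv hρ
  have hs : ∀ c, ρ (s c) = c := Function.surjInv_eq hρ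
  have key : ∀ D : Set G, Nat.card (ρ ⁻¹' D) = Nat.card D * Nat.card ρ.ker := by
    intro D
    rw [← Nat.card_prod]
    refine Nat.card_congr
      { toFun := fun x => (⟨ρ x.1, x.2⟩, ⟨(s (ρ x.1))⁻¹ * x.1, by
          rw [MonoidHom.mem_ker, map_mul, map_inv, hs, inv_mul_cancel]⟩)
        invFun := fun y => ⟨s y.1.1 * y.2.1, by
          show ρ (s y.1.1 * y.2.1) ∈ D
          rw [map_mul, hs, MonoidHom.mem_ker.mp y.2.2, mul_one]
          exact y.1.2⟩
        left_inv := ?_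
        right_inv := ?_ }
    · rintro ⟨x, hx⟩
      simp
    · rintro ⟨⟨c, hc⟩, ⟨k, hk⟩⟩
      have hk' : ρ k = 1 := MonoidHom.mem_ker.mp hk
      simp [map_mul, hs, hk']
  have hG' : Nat.card G' = Nat.card G * Nat.card ρ.ker := by
    have := key Set.univ
    rw [Set.preimage_univ, Nat.card_congr (Equiv.Set.univ G'),
      Nat.card_congr (Equiv.Set.univ G)] at this
    exact this
  rw [key C, hG']
  ring

end Fermat.Agent.S48Cheb
end MergeWrap_S48_Cheb_Consumer_Group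

section MergeWrap_S48_Cheb_Consumer_Frob -- from S48/Cheb/Consumer/Frob.lean

/-!
# S48 P5 seat (H), Frobenius elements: from primes of `𝓞 L` to places of `ℚ̄`

`L ⊆ ℚ̄` finite Galois over `ℚ`.
* `cs_hit_lift`: if `g ∈ Gal(L/ℚ)` is a Frobenius at a prime of `𝓞 L` over `p` then `g` is the
  restriction of a Frobenius element of `Gal(ℚ̄/ℚ)` at a place over `p`.
* `cs_frob_conj`: outside a finite set `R` of primes, two Frobenius elements at places over `p`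
  have conjugate restrictions to `L`.
-/

set_option autoImplicit false

open NumberField
open scoped Pointwise

namespace Fermat.Agent.S48Cheb

local notation "Qb" => AlgebraicClosure ℚ
local notation "GQ" => (AlgebraicClosure ℚ ≃ₐ[ℚ] AlgebraicClosure ℚ)

theorem cs_hit_lift (L : IntermediateField ℚ Qb) [FiniteDimensional ℚ L] [IsGalois ℚ L]
    [NumberField L] (g : L ≃ₐ[ℚ] L) (p : ℕ) (hp : p.Prime) (h : Hit L g p) :
    ∃ (A : ValuationSubring Qb) (τ : GQ), A.LiesOverPrime p ∧ A.IsFrobeniusAt τ p ∧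
      AlgEquiv.restrictNormalHom L τ = g := by
  obtain ⟨P, hP, hpP, hfrob⟩ := h
  obtain ⟨A, τ, hA, -, hτ, hres⟩ :=
    Fermat.Agent.FrobBridge.exists_frobenius_of_prime L P p hp hpP g (by
      intro x
      refine ⟨g • x - x ^ p, hfrob x, ?_⟩
      have h1 : algebraMap (𝓞 L) L (g • x - x ^ p) =
          algebraMap (𝓞 L) L (g • x) - (algebraMap (𝓞 L) L x) ^ p := by
        rw [map_sub, map_pow]
      exact h1.symm)
  exact ⟨A, τ, hA, hτ, hres⟩

/-- Outside a finite set of primes, the Frobenius elements at the places over `p` have conjugate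
restrictions to `L`. -/
theorem cs_frob_conj (L : IntermediateField ℚ Qb) [FiniteDimensional ℚ L] :
    ∃ R : Finset ℕ, ∀ p : ℕ, p.Prime → p ∉ R →
      ∀ (A₀ A : ValuationSubring Qb) (τ₀ σ : GQ), A₀.LiesOverPrime p → A.LiesOverPrime p →
        A₀.IsFrobeniusAt τ₀ p → A.IsFrobeniusAt σ p →
        ∃ γ : GQ, (γ * τ₀ * γ⁻¹)⁻¹ * σ ∈ L.fixingSubgroup := by
  obtain ⟨R, hR⟩ := Fermat.Agent.S56.TW.fc_exists_finset_inertia_le L
  refine ⟨R, fun p hp hpR A₀ A τ₀ σ hA₀ hA hτ₀ hσ => ?_⟩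
  obtain ⟨γ, rfl⟩ := Fermat.Agent.F4.exists_smul_eq_of_liesOverPrime A₀ A hp hA₀ hA
  refine ⟨γ, ?_⟩
  have h1 := Fermat.Agent.S56.TW.fc_isFrobeniusAt_conj A₀ γ τ₀ p hτ₀
  exact hR p hp hpR (γ • A₀) hA (Fermat.Agent.S56.TW.fc_inv_mul_mem_inertia (γ • A₀) _ _ p h1 hσ)

end Fermat.Agent.S48Cheb
end MergeWrap_S48_Cheb_Consumer_Frob

section MergeWrap_S48_Cheb_Consumer_Combine -- from S48/Cheb/Consumer/Combine.lean

/-!
# S48 P5 seat (H), analysis: combining lower densities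

`cs_combine`: if the weights `w i` (bounded, on the primes) have lower density `≥ c i` (limit
form) and `∑ i ∈ T, a i * w i p ≤ [p ∈ X]` pointwise (`a i ≥ 0`), then `X` has lower logarithmic
density `≥ ∑ i ∈ T, a i * c i` in the `Finset` form of `S48/Defs.lean`.
-/

set_option autoImplicit false

open Fermat.Agent.FrobDensity

namespace Fermat.Agent.S48Cheb

/-- Uniform constants for finitely many lower bounds. -/
theorem cs_uniform {ι : Type*} (T : Finset ι) (w : ι → Nat.Primes → ℝ) (a c : ι → ℝ)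
    (ha : ∀ i ∈ T, 0 ≤ a i) (ε : ℝ) (h : ∀ i ∈ T, LowerSharp (w i) (c i - ε)) :
    ∃ B δ : ℝ, 0 < δ ∧ δ ≤ 1 ∧ ∀ s : ℝ, 1 < s → s < 1 + δ →
      (∑ i ∈ T, a i * (c i - ε)) * Real.log (1 / (s - 1)) - B ≤
        ∑ i ∈ T, a i * ∑' p : Nat.Primes, w i p * ((p : ℕ) : ℝ) ^ (-s) := by
  classical
  induction T using Finset.induction_on with
  | empty =>
    exact ⟨0, 1, one_pos, le_rfl, fun s _ _ => by simp⟩
  | insert i T hi ih =>
    obtain ⟨B₁, δ₁, hδ₁, hδ₁', h₁⟩ := ih (fun j hj => ha j (Finset.mem_insert_of_mem hj))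
      (fun j hj => h j (Finset.mem_insert_of_mem hj))
    obtain ⟨B₂, δ₂, hδ₂, h₂⟩ := h i (Finset.mem_insert_self i T)
    have hai := ha i (Finset.mem_insert_self i T)
    refine ⟨B₁ + a i * B₂, min δ₁ δ₂, lt_min hδ₁ hδ₂, (min_le_left _ _).trans hδ₁', ?_⟩
    intro s hs hsδ
    have e1 := h₁ s hs (lt_of_lt_of_le hsδ (by linarith [min_le_left δ₁ δ₂]))
    have e2 := h₂ s hs (lt_of_lt_of_le hsδ (by linarith [min_le_right δ₁ δ₂]))
    have e3 := mul_le_mul_of_nonneg_left e2 hai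
    rw [Finset.sum_insert hi, Finset.sum_insert hi]
    nlinarith [e1, e3]

/-- A summable nonnegative series is, up to `1`, a finite sum. -/
theorem cs_exists_finset {f : Nat.Primes → ℝ} (hf : Summable f) :
    ∃ F : Finset Nat.Primes, ∑' p, f p - 1 ≤ ∑ p ∈ F, f p := by
  have h := hf.hasSum
  have h1 : ∀ᶠ F : Finset Nat.Primes in Filter.atTop, ∑' p, f p - 1 < ∑ p ∈ F, f p :=
    h.eventually (lt_mem_nhds (by linarith))
  obtain ⟨F, hF⟩ := h1.exists
  exact ⟨F, hF.le⟩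

theorem cs_combine {ι : Type*} (T : Finset ι) (w : ι → Nat.Primes → ℝ) (a c : ι → ℝ)
    (ha : ∀ i ∈ T, 0 ≤ a i) (hw0 : ∀ i ∈ T, ∀ p, 0 ≤ w i p) (hw2 : ∀ i ∈ T, ∀ p, w i p ≤ 2)
    (h : ∀ i ∈ T, LowerLim (w i) (c i)) (X : Set ℕ)
    (hX : ∀ p : Nat.Primes, (p : ℕ) ∉ X → ∑ i ∈ T, a i * w i p ≤ 0)
    (hX1 : ∀ p : Nat.Primes, ∑ i ∈ T, a i * w i p ≤ 1) :
    Fermat.Agent.S48.LowerLogDensityGE X (∑ i ∈ T, a i * c i) := by
  classical
  intro ε hε
  set A : ℝ := ∑ i ∈ T, a i + 1 with hA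
  have hApos : 0 < A := by
    have : 0 ≤ ∑ i ∈ T, a i := Finset.sum_nonneg ha
    linarith
  set ε' : ℝ := ε / A with hε'
  have hε'pos : 0 < ε' := div_pos hε hApos
  obtain ⟨B, δ, hδ, hδ1, hB⟩ := cs_uniform T w a c ha ε' (fun i hi => h i hi ε' hε'pos)
  refine ⟨B + 1, 1 + δ, by linarith, fun s hs hsδ => ?_⟩
  have hlog : 0 ≤ Real.log (1 / (s - 1)) := by
    apply Real.log_nonneg
    rw [le_div_iff₀ (by linarith)]
    linarith
  have hsum : ∀ i ∈ T, Summable fun p : Nat.Primes => w i p * ((p : ℕ) : ℝ) ^ (-s) := by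
    intro i hi
    refine summable_weight_mul_rpow ⟨2, fun p => ?_⟩ hs
    rw [abs_of_nonneg (hw0 i hi p)]
    exact hw2 i hi p
  -- the indicator of `X`
  set ind : Nat.Primes → ℝ := fun p => if (p : ℕ) ∈ X then 1 else 0 with hind
  have hindsum : Summable fun p : Nat.Primes => ind p * ((p : ℕ) : ℝ) ^ (-s) := by
    refine summable_weight_mul_rpow ⟨1, fun p => ?_⟩ hs
    simp only [hind]
    split_ifs <;> simp
  have hpt : ∀ p : Nat.Primes, ∑ i ∈ T, a i * (w i p * ((p : ℕ) : ℝ) ^ (-s)) ≤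
      ind p * ((p : ℕ) : ℝ) ^ (-s) := by
    intro p
    have hpow : 0 ≤ ((p : ℕ) : ℝ) ^ (-s) := Real.rpow_nonneg (Nat.cast_nonneg _) _
    have e : ∑ i ∈ T, a i * (w i p * ((p : ℕ) : ℝ) ^ (-s)) =
        (∑ i ∈ T, a i * w i p) * ((p : ℕ) : ℝ) ^ (-s) := by
      rw [Finset.sum_mul]
      exact Finset.sum_congr rfl fun i _ => by ring
    rw [e]
    apply mul_le_mul_of_nonneg_right _ hpow
    simp only [hind]
    split_ifs with hpX
    · exact hX1 p
    · exact hX p hpX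
  have hmain : ∑ i ∈ T, a i * ∑' p : Nat.Primes, w i p * ((p : ℕ) : ℝ) ^ (-s) ≤
      ∑' p : Nat.Primes, ind p * ((p : ℕ) : ℝ) ^ (-s) := by
    have e1 : ∑ i ∈ T, a i * ∑' p : Nat.Primes, w i p * ((p : ℕ) : ℝ) ^ (-s) =
        ∑ i ∈ T, ∑' p : Nat.Primes, a i * (w i p * ((p : ℕ) : ℝ) ^ (-s)) :=
      Finset.sum_congr rfl fun i hi => ((hsum i hi).tsum_mul_left (a i)).symm
    rw [e1, ← Summable.tsum_finsetSum (fun i hi => (hsum i hi).mul_left (a i))]
    refine Summable.tsum_le_tsum hpt ?_ hindsum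
    exact summable_sum fun i hi => (hsum i hi).mul_left (a i)
  obtain ⟨F, hF⟩ := cs_exists_finset hindsum
  -- the finite set
  refine ⟨(F.filter fun p : Nat.Primes => (p : ℕ) ∈ X).image (fun p : Nat.Primes => (p : ℕ)), ?_, ?_⟩
  · intro p hp
    rw [Finset.mem_image] at hp
    obtain ⟨q, hq, rfl⟩ := hp
    exact ⟨q.2, (Finset.mem_filter.mp hq).2⟩
  · have e2 : ∑ p ∈ (F.filter fun p : Nat.Primes => (p : ℕ) ∈ X).image (fun p : Nat.Primes => (p : ℕ)),
        (p : ℝ) ^ (-s) = ∑ p ∈ F, ind p * ((p : ℕ) : ℝ) ^ (-s) := by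
      have hinj : Set.InjOn (fun p : Nat.Primes => (p : ℕ))
          ((F.filter fun p : Nat.Primes => (p : ℕ) ∈ X) : Set Nat.Primes) :=
        fun p _ q _ hpq => Subtype.ext hpq
      have e7 := Finset.sum_image (s := F.filter fun p : Nat.Primes => (p : ℕ) ∈ X)
        (g := fun p : Nat.Primes => (p : ℕ)) (f := fun n : ℕ => (n : ℝ) ^ (-s)) hinj
      rw [e7, Finset.sum_filter]
      refine Finset.sum_congr rfl fun p _ => ?_
      simp only [hind]
      split_ifs <;> simp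
    rw [e2]
    have e3 := hB s hs hsδ
    have e4 : (∑ i ∈ T, a i * (c i - ε')) = ∑ i ∈ T, a i * c i - ε' * ∑ i ∈ T, a i := by
      rw [Finset.mul_sum, ← Finset.sum_sub_distrib]
      exact Finset.sum_congr rfl fun i _ => by ring
    have e5 : ε' * ∑ i ∈ T, a i ≤ ε := by
      have h0 : 0 ≤ ∑ i ∈ T, a i := Finset.sum_nonneg ha
      rw [hε', div_mul_eq_mul_div, div_le_iff₀ hApos]
      have : ε * ∑ i ∈ T, a i ≤ ε * A := by
        apply mul_le_mul_of_nonneg_left _ hε.le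
        rw [hA]; linarith
      exact this
    have e6 : (∑ i ∈ T, a i * c i - ε) * Real.log (1 / (s - 1)) ≤
        (∑ i ∈ T, a i * (c i - ε')) * Real.log (1 / (s - 1)) := by
      apply mul_le_mul_of_nonneg_right _ hlog
      rw [e4]; linarith
    linarith

end Fermat.Agent.S48Cheb
end MergeWrap_S48_Cheb_Consumer_Combine

section MergeWrap_S48_Cheb_Consumer -- from S48/Cheb/Consumer.lean

/-!
# S48 P5 seat (H): consumer form  (helper8)

`ChebotarevStatement` from `GaloisCheb`: normal closure `L` of the finite level, `r = ρ ∘ res_L`,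
`C' = ρ⁻¹ C`; for `p` unramified in `L`, the `g` with `Hit L g p` are conjugate and every
Frobenius element of `Gal(ℚ̄/ℚ)` at `p` restricts to a conjugate of them;
`∑_{g ∈ C'} |C(g)| ([Hit g p] + [Hit g⁻¹ p]) ≤ 2 |G'| [p ∈ frobPrimes r C]`;
`∑_{g ∈ C'} (|C(g)|/(2|G'|)) (2/|C(g)|) = |C'|/|G'| = |C|/|G|`; `cs_combine`.
-/

set_option autoImplicit false

open NumberField
open scoped Pointwise

namespace Fermat.Agent.S48Cheb

local notation "Qb" => AlgebraicClosure ℚ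
local notation "GQ" => (AlgebraicClosure ℚ ≃ₐ[ℚ] AlgebraicClosure ℚ)

/-- Outside `R`, two elements which are Frobenius elements at primes over `p` are conjugate. -/
theorem cs_hit_conj (L : IntermediateField ℚ Qb) [FiniteDimensional ℚ L] [IsGalois ℚ L]
    [NumberField L] (R : Finset ℕ)
    (hR : ∀ p : ℕ, p.Prime → p ∉ R →
      ∀ (A₀ A : ValuationSubring Qb) (τ₀ σ : GQ), A₀.LiesOverPrime p → A.LiesOverPrime p →
        A₀.IsFrobeniusAt τ₀ p → A.IsFrobeniusAt σ p →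
        ∃ γ : GQ, (γ * τ₀ * γ⁻¹)⁻¹ * σ ∈ L.fixingSubgroup)
    (p : ℕ) (hp : p.Prime) (hpR : p ∉ R) (g h : L ≃ₐ[ℚ] L) (hg : Hit L g p) (hh : Hit L h p) :
    ∃ γ : L ≃ₐ[ℚ] L, h = γ * g * γ⁻¹ := by
  obtain ⟨A₀, τ₀, hA₀, hτ₀, hres₀⟩ := cs_hit_lift L g p hp hg
  obtain ⟨A, σ, hA, hσ, hres⟩ := cs_hit_lift L h p hp hh
  obtain ⟨γ, hγ⟩ := hR p hp hpR A₀ A τ₀ σ hA₀ hA hτ₀ hσ
  refine ⟨AlgEquiv.restrictNormalHom L γ, ?_⟩
  have hγ' := Fermat.Agent.FrobDensity.consumer_restrictNormalHom_eq_one L hγ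
  rw [map_mul, map_inv, map_mul, map_mul, map_inv, hres₀, hres] at hγ'
  exact (inv_mul_eq_one.mp hγ').symm

/-- Outside `R`, if `g` is a Frobenius element at a prime of `L` over `p` and `r` factors through
`Gal(L/ℚ)` with `r(lift of g) ∈ C`, then `p ∈ frobPrimes r C`. -/
theorem cs_hit_mem_frobPrimes (L : IntermediateField ℚ Qb) [FiniteDimensional ℚ L]
    [IsGalois ℚ L] [NumberField L] (R : Finset ℕ)
    (hR : ∀ p : ℕ, p.Prime → p ∉ R →
      ∀ (A₀ A : ValuationSubring Qb) (τ₀ σ : GQ), A₀.LiesOverPrime p → A.LiesOverPrime p →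
        A₀.IsFrobeniusAt τ₀ p → A.IsFrobeniusAt σ p →
        ∃ γ : GQ, (γ * τ₀ * γ⁻¹)⁻¹ * σ ∈ L.fixingSubgroup)
    {G : Type} [Group G] (r : GQ →* G) (hker : ∀ σ : GQ, σ ∈ L.fixingSubgroup → r σ = 1)
    (ρ : (L ≃ₐ[ℚ] L) →* G) (hρ : ∀ σ : GQ, ρ (AlgEquiv.restrictNormalHom L σ) = r σ)
    (C : Set G) (hconj : ∀ g h : G, g ∈ C → h * g * h⁻¹ ∈ C)
    (p : ℕ) (hp : p.Prime) (hpR : p ∉ R) (g : L ≃ₐ[ℚ] L) (hgC : ρ g ∈ C) (hg : Hit L g p) :
    p ∈ Fermat.Agent.S48.frobPrimes r C := by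
  obtain ⟨A₀, τ₀, hA₀, hτ₀, hres₀⟩ := cs_hit_lift L g p hp hg
  refine ⟨hp, fun A hA σ hσ => ?_⟩
  obtain ⟨γ, hγ⟩ := hR p hp hpR A₀ A τ₀ σ hA₀ hA hτ₀ hσ
  have h1 := hker _ hγ
  rw [map_mul, map_inv] at h1
  have h2 : r σ = r (γ * τ₀ * γ⁻¹) := (inv_mul_eq_one.mp h1).symm
  rw [h2, map_mul, map_mul, map_inv]
  apply hconj
  rw [← hρ τ₀, hres₀]
  exact hgC

/-- The core: `L ⊆ ℚ̄` finite Galois, `r = ρ ∘ res_L`. -/
theorem cs_core (hG : GaloisCheb) (L : IntermediateField ℚ Qb) [FiniteDimensional ℚ L]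
    [IsGalois ℚ L] [NumberField L]
    {G : Type} [Group G] (r : GQ →* G) (hker : ∀ σ : GQ, σ ∈ L.fixingSubgroup → r σ = 1)
    (ρ : (L ≃ₐ[ℚ] L) →* G) (hρ : ∀ σ : GQ, ρ (AlgEquiv.restrictNormalHom L σ) = r σ)
    (C : Set G) (hconj : ∀ g h : G, g ∈ C → h * g * h⁻¹ ∈ C) (hinv : ∀ g : G, g ∈ C → g⁻¹ ∈ C) :
    Fermat.Agent.S48.LowerLogDensityGE (Fermat.Agent.S48.frobPrimes r C)
      ((Nat.card (ρ ⁻¹' C) : ℝ) / Nat.card (L ≃ₐ[ℚ] L)) := by
  classical
  obtain ⟨R, hR⟩ := cs_frob_conj L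
  have hfinG : Finite (L ≃ₐ[ℚ] L) := inferInstance
  have : Fintype (L ≃ₐ[ℚ] L) := Fintype.ofFinite _
  set n' : ℕ := Nat.card (L ≃ₐ[ℚ] L) with hn'
  have hn'pos : 0 < n' := Nat.card_pos
  obtain ⟨T, hTmem⟩ : ∃ T : Finset (L ≃ₐ[ℚ] L), ∀ g, g ∈ T ↔ ρ g ∈ C :=
    ⟨Finset.univ.filter (fun g => ρ g ∈ C), fun g => by simp⟩
  let cz : (L ≃ₐ[ℚ] L) → ℕ := fun g => Nat.card (Subgroup.centralizer ({g} : Set (L ≃ₐ[ℚ] L)))
  have hczpos : ∀ g, 0 < cz g := fun g => Nat.card_pos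
  have hczinv : ∀ g, cz g⁻¹ = cz g := by
    intro g
    have : Subgroup.centralizer ({g⁻¹} : Set (L ≃ₐ[ℚ] L)) = Subgroup.centralizer {g} := by
      ext h
      simp only [Subgroup.mem_centralizer_iff, Set.mem_singleton_iff, forall_eq]
      constructor
      · intro hh
        exact (Commute.inv_left_iff (a := g) (b := h)).mp hh
      · intro hh
        exact (Commute.inv_left_iff (a := g) (b := h)).mpr hh
    simp only [cz, this]
  -- the weights
  let w : (L ≃ₐ[ℚ] L) → Nat.Primes → ℝ := fun g p =>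
    (if (p : ℕ) ∉ R ∧ Hit L g p then (1 : ℝ) else 0) +
      (if (p : ℕ) ∉ R ∧ Hit L g⁻¹ p then (1 : ℝ) else 0)
  let a : (L ≃ₐ[ℚ] L) → ℝ := fun g => (cz g : ℝ) / (2 * n')
  let c : (L ≃ₐ[ℚ] L) → ℝ := fun g => 2 / (cz g : ℝ)
  have hsumac : ∑ g ∈ T, a g * c g = (Nat.card (ρ ⁻¹' C) : ℝ) / n' := by
    have h1 : ∀ g ∈ T, a g * c g = 1 / (n' : ℝ) := by
      intro g _
      have h2 : (cz g : ℝ) ≠ 0 := by exact_mod_cast (hczpos g).ne'
      have h3 : (n' : ℝ) ≠ 0 := by exact_mod_cast hn'pos.ne'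
      simp only [a, c]
      field_simp
    rw [Finset.sum_congr rfl h1, Finset.sum_const, nsmul_eq_mul, mul_one_div]
    congr 1
    have : Nat.card (ρ ⁻¹' C) = T.card := by
      rw [← Nat.card_eq_finsetCard]
      refine Nat.card_congr (Equiv.subtypeEquivRight fun g => ?_)
      rw [hTmem]
      rfl
    rw [this]
  rw [← hsumac]
  have hw0 : ∀ g ∈ T, ∀ p, 0 ≤ w g p := by
    intro g _ p
    simp only [w]
    split_ifs <;> norm_num
  have hw2 : ∀ g ∈ T, ∀ p, w g p ≤ 2 := by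
    intro g _ p
    simp only [w]
    split_ifs <;> norm_num
  have ha : ∀ g ∈ T, 0 ≤ a g := fun g _ => by
    simp only [a]; positivity
  refine cs_combine T w a c ha hw0 hw2 (fun g _ => hG L g R) _ ?_ ?_
  · -- outside `X` all the weights vanish
    intro p hpX
    apply le_of_eq
    refine Finset.sum_eq_zero fun g hg => ?_
    have hgC : ρ g ∈ C := (hTmem g).mp hg
    have h1 : ¬ ((p : ℕ) ∉ R ∧ Hit L g p) := by
      rintro ⟨hpR, hhit⟩
      exact hpX (cs_hit_mem_frobPrimes L R hR r hker ρ hρ C hconj p p.2 hpR g hgC hhit)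
    have h2 : ¬ ((p : ℕ) ∉ R ∧ Hit L g⁻¹ p) := by
      rintro ⟨hpR, hhit⟩
      have hgC' : ρ g⁻¹ ∈ C := by
        rw [map_inv]; exact hinv _ hgC
      exact hpX (cs_hit_mem_frobPrimes L R hR r hker ρ hρ C hconj p p.2 hpR g⁻¹ hgC' hhit)
    simp only [w, if_neg h1, if_neg h2, add_zero, mul_zero]
  · -- the weighted sum is at most `1`
    intro p
    have hn'R : (0 : ℝ) < n' := by exact_mod_cast hn'pos
    -- the two sums
    have key : ∀ (Q : (L ≃ₐ[ℚ] L) → Prop) [DecidablePred Q],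
        (∀ g h, Q g → Q h → ∃ γ : L ≃ₐ[ℚ] L, h = γ * g * γ⁻¹) →
        ∑ g ∈ T, (cz g : ℝ) * (if Q g then (1 : ℝ) else 0) ≤ n' := by
      intro Q _ hQ
      have e1 : ∑ g ∈ T, (cz g : ℝ) * (if Q g then (1 : ℝ) else 0) =
          ∑ g ∈ T.filter Q, (cz g : ℝ) := by
        rw [Finset.sum_filter]
        exact Finset.sum_congr rfl fun g _ => by split_ifs <;> simp
      rw [e1]
      rcases (T.filter Q).eq_empty_or_nonempty with hemp | ⟨g₀, hg₀⟩
      · rw [hemp, Finset.sum_empty]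
        exact hn'R.le
      · have hQ₀ : Q g₀ := (Finset.mem_filter.mp hg₀).2
        have := cs_sum_card_centralizer_le g₀ (T.filter Q)
          (fun g hg => hQ g₀ g hQ₀ (Finset.mem_filter.mp hg).2)
        exact_mod_cast this
    have k1 := key (fun g => (p : ℕ) ∉ R ∧ Hit L g p) (by
      rintro g h ⟨hpR, hg⟩ ⟨-, hh⟩
      exact cs_hit_conj L R hR p p.2 hpR g h hg hh)
    have k2 := key (fun g => (p : ℕ) ∉ R ∧ Hit L g⁻¹ p) (by
      rintro g h ⟨hpR, hg⟩ ⟨-, hh⟩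
      obtain ⟨γ, hγ⟩ := cs_hit_conj L R hR p p.2 hpR g⁻¹ h⁻¹ hg hh
      refine ⟨γ, ?_⟩
      have := congrArg (fun x => x⁻¹) hγ
      simp only [inv_inv] at this
      rw [this]
      group)
    have e : ∑ g ∈ T, a g * w g p =
        (1 / (2 * (n' : ℝ))) * (∑ g ∈ T, (cz g : ℝ) * (if (p : ℕ) ∉ R ∧ Hit L g p then (1 : ℝ) else 0)
          + ∑ g ∈ T, (cz g : ℝ) * (if (p : ℕ) ∉ R ∧ Hit L g⁻¹ p then (1 : ℝ) else 0)) := by
      rw [← Finset.sum_add_distrib, Finset.mul_sum]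
      refine Finset.sum_congr rfl fun g _ => ?_
      simp only [a, w]
      ring
    rw [e]
    have h3 : (1 / (2 * (n' : ℝ))) * ((n' : ℝ) + n') = 1 := by
      field_simp
      ring
    calc (1 / (2 * (n' : ℝ))) * (_ + _) ≤ (1 / (2 * (n' : ℝ))) * ((n' : ℝ) + n') := by
          apply mul_le_mul_of_nonneg_left (add_le_add k1 k2)
          positivity
      _ = 1 := h3

theorem chebotarevStatement_of (hG : GaloisCheb) : Fermat.Agent.S48.ChebotarevStatement := by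
  intro G _ _ r hr hfac C hconj hinv
  classical
  obtain ⟨L₀, hL₀fin, hL₀⟩ := hfac
  -- the normal closure of the finite level
  haveI hgalQb : IsGalois ℚ Qb := Fermat.Agent.F4.isGalois_Qbar
  set L : IntermediateField ℚ Qb := IntermediateField.normalClosure ℚ L₀ Qb with hL
  haveI hLfin : FiniteDimensional ℚ L := normalClosure.is_finiteDimensional ℚ L₀ Qb
  haveI hLnorm : Normal ℚ L := normalClosure.normal ℚ L₀ Qb
  haveI hLgal : IsGalois ℚ L := { }
  haveI hLnf : NumberField L := { }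
  have hker : ∀ σ : GQ, σ ∈ L.fixingSubgroup → r σ = 1 := by
    intro σ hσ
    apply hL₀
    intro x hx
    exact (IntermediateField.mem_fixingSubgroup_iff L σ).mp hσ x
      (IntermediateField.le_normalClosure L₀ hx)
  have hsurj : Function.Surjective (AlgEquiv.restrictNormalHom (F := ℚ) (K₁ := Qb) L) :=
    AlgEquiv.restrictNormalHom_surjective Qb
  have hkerle : (AlgEquiv.restrictNormalHom (F := ℚ) (K₁ := Qb) L).ker ≤ r.ker := by
    intro σ hσ
    exact MonoidHom.mem_ker.mpr (hker σ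
      (Fermat.Agent.FrobDensity.consumer_mem_fixingSubgroup L (MonoidHom.mem_ker.mp hσ)))
  set ρ : (L ≃ₐ[ℚ] L) →* G :=
    (AlgEquiv.restrictNormalHom (F := ℚ) (K₁ := Qb) L).liftOfSurjective hsurj ⟨r, hkerle⟩ with hρdef
  have hρ : ∀ σ : GQ, ρ (AlgEquiv.restrictNormalHom L σ) = r σ := by
    intro σ
    exact MonoidHom.liftOfRightInverse_comp_apply _ _ _ ⟨r, hkerle⟩ σ
  have hρsurj : Function.Surjective ρ := by
    intro g
    obtain ⟨σ, rfl⟩ := hr g
    exact ⟨AlgEquiv.restrictNormalHom L σ, hρ σ⟩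
  have hcore := cs_core hG L r hker ρ hρ C hconj hinv
  have hcard : (Nat.card (ρ ⁻¹' C) : ℝ) / Nat.card (L ≃ₐ[ℚ] L) = (Nat.card C : ℝ) / Nat.card G := by
    have h1 := cs_card_preimage_mul ρ hρsurj C
    have h2 : (0 : ℝ) < Nat.card (L ≃ₐ[ℚ] L) := by exact_mod_cast Nat.card_pos
    have h3 : (0 : ℝ) < Nat.card G := by exact_mod_cast Nat.card_pos
    rw [div_eq_div_iff h2.ne' h3.ne']
    exact_mod_cast h1
  rw [← hcard]
  exact hcore

end Fermat.Agent.S48Cheb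
end MergeWrap_S48_Cheb_Consumer

section MergeWrap_S48_Cheb_Main -- from S48/Cheb/Main.lean

/-!
# S48 (P5): Chebotarev's density theorem up to inversion (lower bound) — assembly
-/

set_option autoImplicit false

namespace Fermat.Agent.S48Cheb

theorem cycDensity : CycDensity := cycDensity_of equidistInv clsTStatement cycArtin

theorem crossing : Crossing := crossing_of cycDensity cycArtin

theorem cyclicCheb : CyclicCheb := cyclicCheb_of crossing cycField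

theorem galoisCheb : GaloisCheb := galoisCheb_of cyclicCheb

/-- **(P5)** Chebotarev's density theorem, up to inversion, lower bound. -/
theorem chebotarevStatement : Fermat.Agent.S48.ChebotarevStatement :=
  chebotarevStatement_of galoisCheb

end Fermat.Agent.S48Cheb
end MergeWrap_S48_Cheb_Main
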